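/-
S26lib / RelCurve / Pure  (helper3)  --  Project K (S26), cube kernel, algebra part

**Purity of the kernel of a surjection onto a flat module.**  If `d : M → N` is surjective and `N` is
flat, then `ker d ∩ I M = I (ker d)` for every ideal `I`.  (This is `Tor₁(N, R/I) = 0`, proved here
directly from the equational criterion of flatness.)  The two-submodule form: if `Λa, Λb ⊆ Λab` are
submodules of an ambient module with `Λab = Λa + Λb` and `Λab` flat, then
`I Λa ∩ I Λb = I (Λa ∩ Λb)`.
-/
import Mathlib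

set_option autoImplicit false

namespace Fermat.Agent.S26lib.RelCurve

open Submodule

section

variable {R : Type*} [CommRing R] {M N : Type*} [AddCommGroup M] [Module R M]
  [AddCommGroup N] [Module R N]

/-- **purity** -/
theorem mem_smul_ker_of_flat [Module.Flat R N] (d : M →ₗ[R] N) (hd : Function.Surjective d)
    (I : Ideal R) {h : M} (hker : d h = 0) (hI : h ∈ I • (⊤ : Submodule R M)) :
    h ∈ I • LinearMap.ker d := by
  classical
  have htop : (⊤ : Submodule R M) = span R (Set.range (id : M → M)) := by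
    rw [Set.range_id, span_univ]
  rw [htop, mem_ideal_smul_span_iff_exists_sum] at hI
  obtain ⟨a, ha, hsum⟩ := hI
  -- the finite index type
  let f : a.support → R := fun i => a i
  let x : a.support → M := fun i => (i : M)
  have hsum' : ∑ i : a.support, f i • x i = h := by
    rw [← hsum, Finsupp.sum]
    exact Finset.sum_coe_sort a.support (fun i => a i • id i)
  have hrel : ∑ i : a.support, f i • d (x i) = 0 := by
    rw [← hker, ← hsum', map_sum]
    simp only [map_smul]
  obtain ⟨k, A, y, hy, hA⟩ := Module.Flat.isTrivialRelation_of_sum_smul_eq_zero hrel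
  choose b hb using fun j => hd (y j)
  let w : a.support → M := fun i => x i - ∑ j, A i j • b j
  have hw : ∀ i, w i ∈ LinearMap.ker d := by
    intro i
    rw [LinearMap.mem_ker]
    simp only [w, map_sub, map_sum, map_smul, hb]
    have := hy i
    simp only at this
    rw [this, sub_self]
  have hh : h = ∑ i : a.support, f i • w i := by
    simp only [w, smul_sub, Finset.sum_sub_distrib, hsum']
    have : ∑ i : a.support, f i • ∑ j, A i j • b j = 0 := by
      simp only [Finset.smul_sum, smul_smul]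
      rw [Finset.sum_comm]
      apply Finset.sum_eq_zero
      intro j _
      rw [← Finset.sum_smul, hA j, zero_smul]
    rw [this, sub_zero]
  rw [hh]
  exact Submodule.sum_mem _ fun i _ => smul_mem_smul (ha i) (hw i)

end

section two

variable {R : Type*} [CommRing R] {Q : Type*} [AddCommGroup Q] [Module R Q]

/-- **purity, two-submodule form**: `I Λa ∩ I Λb ⊆ I (Λa ∩ Λb)` if `Λa + Λb ⊇ Λab ⊇ Λa, Λb` and
`Λab` is flat -/
theorem mem_smul_inf_of_flat (Λa Λb Λab : Submodule R Q) (hle_a : Λa ≤ Λab) (hle_b : Λb ≤ Λab)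
    (hsup : Λab ≤ Λa ⊔ Λb) [Module.Flat R Λab] (I : Ideal R) {h : Q}
    (ha : h ∈ I • Λa) (hb : h ∈ I • Λb) : h ∈ I • (Λa ⊓ Λb) := by
  -- the Čech differential
  let d : (Λa × Λb) →ₗ[R] Λab :=
    (Submodule.inclusion hle_a).coprod (-(Submodule.inclusion hle_b))
  have hd_apply : ∀ p : Λa × Λb, ((d p : Λab) : Q) = (p.1 : Q) - (p.2 : Q) := by
    intro p
    simp [d, sub_eq_add_neg]
  have hd : Function.Surjective d := by
    intro y
    obtain ⟨u, hu, v, hv, huv⟩ := mem_sup.mp (hsup y.2)
    refine ⟨(⟨u, hu⟩, ⟨-v, Λb.neg_mem hv⟩), ?_⟩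
    apply Subtype.ext
    rw [hd_apply]
    simp [huv]
  have hha : h ∈ Λa := smul_le_right ha
  have hhb : h ∈ Λb := smul_le_right hb
  -- `(h, h) ∈ I • ⊤`
  have h1 : ((⟨h, hha⟩, 0) : Λa × Λb) ∈ I • (⊤ : Submodule R (Λa × Λb)) := by
    have : (⟨h, hha⟩ : Λa) ∈ I • (⊤ : Submodule R Λa) := (mem_smul_top_iff I Λa _).mpr ha
    have hmap : (I • (⊤ : Submodule R Λa)).map (LinearMap.inl R Λa Λb) ≤
        I • (⊤ : Submodule R (Λa × Λb)) := by
      rw [Submodule.map_smul'']
      exact smul_mono_right _ le_top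
    exact hmap ⟨_, this, rfl⟩
  have h2 : ((0, ⟨h, hhb⟩) : Λa × Λb) ∈ I • (⊤ : Submodule R (Λa × Λb)) := by
    have : (⟨h, hhb⟩ : Λb) ∈ I • (⊤ : Submodule R Λb) := (mem_smul_top_iff I Λb _).mpr hb
    have hmap : (I • (⊤ : Submodule R Λb)).map (LinearMap.inr R Λa Λb) ≤
        I • (⊤ : Submodule R (Λa × Λb)) := by
      rw [Submodule.map_smul'']
      exact smul_mono_right _ le_top
    exact hmap ⟨_, this, rfl⟩
  have h3 : ((⟨h, hha⟩, ⟨h, hhb⟩) : Λa × Λb) ∈ I • (⊤ : Submodule R (Λa × Λb)) := by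
    have := Submodule.add_mem _ h1 h2
    simpa using this
  have hker : d (⟨h, hha⟩, ⟨h, hhb⟩) = 0 := by
    apply Subtype.ext
    rw [hd_apply]
    simp
  have h4 := mem_smul_ker_of_flat d hd I hker h3
  -- push forward along the first projection
  let π : (Λa × Λb) →ₗ[R] Q := Λa.subtype.comp (LinearMap.fst R Λa Λb)
  have h5 : π (⟨h, hha⟩, ⟨h, hhb⟩) ∈ (I • LinearMap.ker d).map π := ⟨_, h4, rfl⟩
  rw [Submodule.map_smul''] at h5
  have h6 : (LinearMap.ker d).map π ≤ Λa ⊓ Λb := by
    rintro _ ⟨p, hp, rfl⟩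
    have hp : d p = 0 := hp
    have := congrArg (fun z : Λab => (z : Q)) hp
    simp only [hd_apply, ZeroMemClass.coe_zero] at this
    have hpq : (p.1 : Q) = (p.2 : Q) := sub_eq_zero.mp this
    refine ⟨p.1.2, ?_⟩
    show (p.1 : Q) ∈ Λb
    rw [hpq]
    exact p.2.2
  exact smul_mono_right _ h6 h5

end two

end Fermat.Agent.S26lib.RelCurve
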