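/-
S26lib / RelCurve / BaseAlg  (helper3)  --  Project K (S26), cube kernel, (LIFT) common base

**The common base of the (LIFT) assembly.**  `π : X ⟶ T` a dominant morphism of integral schemes,
`t : T`.  The function field `K(X)` is an algebra over the local ring `𝒪 = O_{T,t}`
(`stalkAlgebra π t`, through `ffMap π ∘ toFF T t`), and for `𝔏 : CDiv X` and a set `S ⊆ X` of
points, `Lam π 𝔏 t S` is the `𝒪`-module of the rational sections of `O(𝔏)` which are regular at the
points of `S` lying over `Spec 𝒪` (i.e. `π y ⤳ t`).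
-/
import Fermat.Agent.S26lib.Hub.CaClFun
import Fermat.Agent.S26lib.Quad.RatFam
import Fermat.Agent.S26lib.FinMap.FFMap

set_option autoImplicit false
set_option linter.unusedSectionVars false

noncomputable section

namespace Fermat.Agent.S26lib.RelCurve

open AlgebraicGeometry CategoryTheory TopologicalSpace Fermat.Agent.S26lib.Quad
  Fermat.Agent.S26lib.Hub

universe u

variable {X T : Scheme.{u}} [IsIntegral X] [IsIntegral T] (π : X ⟶ T) [IsDominant π]

/-- `K(X)` as an algebra over the local ring of `T` at `t` -/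
@[reducible] def stalkAlgebra (t : T) : Algebra (T.presheaf.stalk t) X.functionField :=
  ((FinMap.ffMap π).comp (toFF T t)).toAlgebra

theorem stalkAlgebra_algebraMap (t : T) (a : T.presheaf.stalk t) :
    @algebraMap (T.presheaf.stalk t) X.functionField _ _ (stalkAlgebra π t) a =
      FinMap.ffMap π (toFF T t a) := rfl

/-- the functions of the base which are regular at `t` are regular at the points over `Spec O_{T,t}` -/
theorem ffMap_toFF_mem_regAt (t : T) (a : T.presheaf.stalk t) {y : X} (hy : π y ⤳ t) :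
    FinMap.ffMap π (toFF T t a) ∈ regAt X y := by
  refine ⟨π.stalkMap y (T.presheaf.stalkSpecializes hy a), ?_⟩
  rw [FinMap.toFF_stalkMap_ffMap, toFF_spec]

/-- **the `O_{T,t}`-module of the sections of `O(𝔏)` over `S ×_T Spec O_{T,t}`** -/
def Lam (𝔏 : CDiv X) (t : T) (S : Set X) :
    @Submodule (T.presheaf.stalk t) X.functionField _ _ (stalkAlgebra π t).toModule :=
  letI := stalkAlgebra π t
  { carrier := {h | ∀ y ∈ S, π y ⤳ t →
      h * ((𝔏.t y : (X.functionField)ˣ) : X.functionField) ∈ regAt X y}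
    add_mem' := by
      intro h h' hh hh' y hy hyt
      rw [add_mul]
      exact Subring.add_mem _ (hh y hy hyt) (hh' y hy hyt)
    zero_mem' := by
      intro y _ _
      rw [zero_mul]
      exact Subring.zero_mem _
    smul_mem' := by
      intro a h hh y hy hyt
      rw [Algebra.smul_def, mul_assoc]
      exact Subring.mul_mem _ (ffMap_toFF_mem_regAt π t a hyt) (hh y hy hyt) }

theorem mem_Lam_iff (𝔏 : CDiv X) (t : T) (S : Set X) (h : X.functionField) :
    h ∈ Lam π 𝔏 t S ↔ ∀ y ∈ S, π y ⤳ t →
      h * ((𝔏.t y : (X.functionField)ˣ) : X.functionField) ∈ regAt X y := Iff.rfl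

theorem Lam_anti (𝔏 : CDiv X) (t : T) {S S' : Set X} (h : S ⊆ S') :
    Lam π 𝔏 t S' ≤ Lam π 𝔏 t S :=
  fun _ hx y hy hyt => hx y (h hy) hyt

theorem Lam_union (𝔏 : CDiv X) (t : T) (S S' : Set X) :
    Lam π 𝔏 t (S ∪ S') = Lam π 𝔏 t S ⊓ Lam π 𝔏 t S' := by
  let _ := stalkAlgebra π t
  refine SetLike.ext fun h => ?_
  constructor
  · intro hh
    exact ⟨fun y hy => hh y (Or.inl hy), fun y hy => hh y (Or.inr hy)⟩
  · rintro ⟨h1, h2⟩ y (hy | hy)
    · exact h1 y hy
    · exact h2 y hy

end Fermat.Agent.S26lib.RelCurve
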