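/-
S26lib / RelCurve / InvAlg  (helper3)  --  Project K (S26), cube kernel, geometric bridge (G1),
algebraic core

**Invertible sheaves on an affine integral scheme, by local ratios.**  `B` is a domain with
fraction field `𝒦`; a `RatioFam` is a family `r 𝔭 ∈ 𝒦ˣ` (`𝔭 ∈ Spec B`) which is *coherent*: near
every `𝔭` (on a basic open `D(f) ∋ 𝔭`) the ratios `r 𝔮 / r 𝔭` are units of `B_𝔮`.  (Think of
`r 𝔭 = P_𝔭 / N_𝔭`, local equations of a Cartier divisor `P - N`.)  Its module of sections over a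
set `S` of primes is `lam S = {h | ∀ 𝔮 ∈ S, h * r 𝔮 ∈ B_𝔮}`.

* `RatioFam.exists_pow_mul_mem` : sections over `D(f)` are `f ^ (-M)` × global sections.
* `RatioFam.lam_mul_lam_inv` : `lam univ * inv.lam univ = 1`: the module of global sections is an
  INVERTIBLE `B`-submodule of `𝒦` (hence finitely generated and projective).
* `RatioFam.exists_local_generator` : it generates every stalk.
-/
import Mathlib

set_option autoImplicit false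
set_option linter.unusedSectionVars false

namespace Fermat.Agent.S26lib.RelCurve

open Submodule

section

variable {B : Type*} [CommRing B] [IsDomain B] {𝒦 : Type*} [Field 𝒦] [Algebra B 𝒦]
  [IsFractionRing B 𝒦]

/-- the localisation `B_𝔭` as a subring of the fraction field -/
def locSub (𝒦 : Type*) [Field 𝒦] [Algebra B 𝒦] [IsFractionRing B 𝒦] (𝔭 : Ideal B)
    [h𝔭 : 𝔭.IsPrime] : Subring 𝒦 where
  carrier := {x | ∃ a s : B, s ∉ 𝔭 ∧ x * algebraMap B 𝒦 s = algebraMap B 𝒦 a}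
  mul_mem' := by
    rintro x y ⟨a, s, hs, hx⟩ ⟨b, t, ht, hy⟩
    refine ⟨a * b, s * t, fun h => (h𝔭.mem_or_mem h).elim hs ht, ?_⟩
    rw [map_mul, map_mul, ← hx, ← hy]; ring
  one_mem' := ⟨1, 1, 𝔭.ne_top_iff_one.mp h𝔭.ne_top, by simp⟩
  add_mem' := by
    rintro x y ⟨a, s, hs, hx⟩ ⟨b, t, ht, hy⟩
    refine ⟨a * t + b * s, s * t, fun h => (h𝔭.mem_or_mem h).elim hs ht, ?_⟩
    rw [map_mul, map_add, map_mul, map_mul, ← hx, ← hy]; ring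
  zero_mem' := ⟨0, 1, 𝔭.ne_top_iff_one.mp h𝔭.ne_top, by simp⟩
  neg_mem' := by
    rintro x ⟨a, s, hs, hx⟩
    exact ⟨-a, s, hs, by rw [map_neg, ← hx]; ring⟩

theorem mem_locSub_iff {𝔭 : Ideal B} [𝔭.IsPrime] {x : 𝒦} :
    x ∈ locSub 𝒦 𝔭 ↔ ∃ a s : B, s ∉ 𝔭 ∧ x * algebraMap B 𝒦 s = algebraMap B 𝒦 a := Iff.rfl

theorem algebraMap_mem_locSub (𝔭 : Ideal B) [h𝔭 : 𝔭.IsPrime] (b : B) :
    algebraMap B 𝒦 b ∈ locSub 𝒦 𝔭 :=
  ⟨b, 1, 𝔭.ne_top_iff_one.mp h𝔭.ne_top, by simp⟩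

theorem inv_algebraMap_mem_locSub {𝔭 : Ideal B} [𝔭.IsPrime] {s : B} (hs : s ∉ 𝔭) :
    (algebraMap B 𝒦 s)⁻¹ ∈ locSub 𝒦 𝔭 := by
  have hs0 : algebraMap B 𝒦 s ≠ 0 := by
    intro h
    have : s = 0 := (IsFractionRing.injective B 𝒦) (by rw [h, map_zero])
    exact hs (this ▸ 𝔭.zero_mem)
  exact ⟨1, s, hs, by rw [inv_mul_cancel₀ hs0, map_one]⟩

/-- **denominators**: an element of `𝒦` lying in `B_𝔮` for all primes `𝔮 ∌ g` is `g ^ (-M)` times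
an element of `B` -/
theorem exists_pow_mul_eq_algebraMap (g : B) (w : 𝒦)
    (h : ∀ (𝔮 : Ideal B) [𝔮.IsPrime], g ∉ 𝔮 → w ∈ locSub 𝒦 𝔮) :
    ∃ (M : ℕ) (b : B), algebraMap B 𝒦 g ^ M * w = algebraMap B 𝒦 b := by
  classical
  -- the denominator ideal
  let I : Ideal B :=
    { carrier := {c | ∃ b : B, algebraMap B 𝒦 c * w = algebraMap B 𝒦 b}
      add_mem' := by
        rintro c c' ⟨b, hb⟩ ⟨b', hb'⟩
        exact ⟨b + b', by rw [map_add, map_add, add_mul, hb, hb']⟩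
      zero_mem' := ⟨0, by simp⟩
      smul_mem' := by
        rintro a c ⟨b, hb⟩
        exact ⟨a * b, by rw [smul_eq_mul, map_mul, map_mul, mul_assoc, hb]⟩ }
  by_contra hcon
  have hdisj : Disjoint (I : Set B) (Submonoid.powers g : Set B) := by
    rw [Set.disjoint_left]
    rintro c ⟨b, hb⟩ ⟨M, rfl⟩
    exact hcon ⟨M, b, by rw [← map_pow]; exact hb⟩
  obtain ⟨𝔮, h𝔮, hI𝔮, h𝔮g⟩ := Ideal.exists_le_prime_disjoint I (Submonoid.powers g) hdisj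
  have hg : g ∉ 𝔮 := fun hg =>
    (Set.disjoint_left.mp h𝔮g) hg (Submonoid.mem_powers g)
  obtain ⟨a, s, hs, hws⟩ := h 𝔮 hg
  exact hs (hI𝔮 ⟨a, by rw [mul_comm]; exact hws⟩)

end

/-- **coherent family of local ratios** on `Spec B` (a Cartier divisor) -/
structure RatioFam (B : Type*) [CommRing B] [IsDomain B] (𝒦 : Type*) [Field 𝒦] [Algebra B 𝒦]
    [IsFractionRing B 𝒦] where
  /-- the local ratio at a prime -/
  r : PrimeSpectrum B → 𝒦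
  r_ne : ∀ 𝔭, r 𝔭 ≠ 0
  coh : ∀ 𝔭 : PrimeSpectrum B, ∃ f : B, f ∉ 𝔭.asIdeal ∧ ∀ 𝔮 : PrimeSpectrum B, f ∉ 𝔮.asIdeal →
    r 𝔮 / r 𝔭 ∈ locSub 𝒦 𝔮.asIdeal ∧ r 𝔭 / r 𝔮 ∈ locSub 𝒦 𝔮.asIdeal

namespace RatioFam

variable {B : Type*} [CommRing B] [IsDomain B] {𝒦 : Type*} [Field 𝒦] [Algebra B 𝒦]
  [IsFractionRing B 𝒦] (R : RatioFam B 𝒦)

/-- the inverse family -/
def inv : RatioFam B 𝒦 where
  r := fun 𝔭 => (R.r 𝔭)⁻¹
  r_ne := fun 𝔭 => inv_ne_zero (R.r_ne 𝔭)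
  coh := by
    intro 𝔭
    obtain ⟨f, hf, h⟩ := R.coh 𝔭
    refine ⟨f, hf, fun 𝔮 h𝔮 => ?_⟩
    obtain ⟨h1, h2⟩ := h 𝔮 h𝔮
    refine ⟨?_, ?_⟩
    · have : (R.r 𝔮)⁻¹ / (R.r 𝔭)⁻¹ = R.r 𝔭 / R.r 𝔮 := by
        field_simp [R.r_ne 𝔭, R.r_ne 𝔮]
      rw [this]; exact h2
    · have : (R.r 𝔭)⁻¹ / (R.r 𝔮)⁻¹ = R.r 𝔮 / R.r 𝔭 := by
        field_simp [R.r_ne 𝔭, R.r_ne 𝔮]
      rw [this]; exact h1

@[simp] theorem inv_r (𝔭 : PrimeSpectrum B) : R.inv.r 𝔭 = (R.r 𝔭)⁻¹ := rfl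

/-- sections over a set of primes -/
def lam (S : Set (PrimeSpectrum B)) : Submodule B 𝒦 where
  carrier := {h | ∀ 𝔮 ∈ S, h * R.r 𝔮 ∈ locSub 𝒦 𝔮.asIdeal}
  add_mem' := by
    intro h h' hh hh' 𝔮 h𝔮
    rw [add_mul]
    exact Subring.add_mem _ (hh 𝔮 h𝔮) (hh' 𝔮 h𝔮)
  zero_mem' := by
    intro 𝔮 _
    rw [zero_mul]
    exact Subring.zero_mem _
  smul_mem' := by
    intro b h hh 𝔮 h𝔮
    rw [Algebra.smul_def, mul_assoc]
    exact Subring.mul_mem _ (algebraMap_mem_locSub 𝔮.asIdeal b) (hh 𝔮 h𝔮)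

theorem mem_lam_iff {S : Set (PrimeSpectrum B)} {h : 𝒦} :
    h ∈ R.lam S ↔ ∀ 𝔮 ∈ S, h * R.r 𝔮 ∈ locSub 𝒦 𝔮.asIdeal := Iff.rfl

theorem lam_anti {S S' : Set (PrimeSpectrum B)} (h : S ⊆ S') : R.lam S' ≤ R.lam S :=
  fun _ hx 𝔮 h𝔮 => hx 𝔮 (h h𝔮)

/-- finitely many of the coherence opens cover -/
theorem exists_finite_cover : ∃ (s : Finset (PrimeSpectrum B)) (g : PrimeSpectrum B → B),
    (∀ 𝔭, g 𝔭 ∉ 𝔭.asIdeal ∧ ∀ 𝔮 : PrimeSpectrum B, g 𝔭 ∉ 𝔮.asIdeal →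
      R.r 𝔮 / R.r 𝔭 ∈ locSub 𝒦 𝔮.asIdeal ∧ R.r 𝔭 / R.r 𝔮 ∈ locSub 𝒦 𝔮.asIdeal) ∧
    ∀ 𝔮 : PrimeSpectrum B, ∃ 𝔭 ∈ s, g 𝔭 ∉ 𝔮.asIdeal := by
  classical
  choose g hg using R.coh
  have htop : Ideal.span (Set.range g) = ⊤ := by
    by_contra hne
    obtain ⟨m, hm, hle⟩ := Ideal.exists_le_maximal _ hne
    let 𝔭 : PrimeSpectrum B := ⟨m, hm.isPrime⟩
    exact (hg 𝔭).1 (hle (Ideal.subset_span ⟨𝔭, rfl⟩))
  have h1 : (1 : B) ∈ Ideal.span (Set.range g) := by rw [htop]; exact Submodule.mem_top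
  obtain ⟨t, ht, h1t⟩ := Submodule.mem_span_finite_of_mem_span h1
  -- choose preimages
  have hpre : ∀ b ∈ t, ∃ 𝔭 : PrimeSpectrum B, g 𝔭 = b := fun b hb => ht hb
  choose! pre hpre' using hpre
  refine ⟨t.image pre, g, hg, fun 𝔮 => ?_⟩
  by_contra hcon
  have hall : ∀ b ∈ t, b ∈ 𝔮.asIdeal := by
    intro b hb
    by_contra hb'
    exact hcon ⟨pre b, Finset.mem_image_of_mem pre hb, by rw [hpre' b hb]; exact hb'⟩
  have : (1 : B) ∈ 𝔮.asIdeal := by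
    have hle : Submodule.span B (t : Set B) ≤ 𝔮.asIdeal := Submodule.span_le.mpr hall
    exact hle h1t
  exact 𝔮.isPrime.ne_top (𝔮.asIdeal.eq_top_iff_one.mpr this)

/-- **sections over a basic open**: if `h * r 𝔮 ∈ B_𝔮` for all `𝔮 ∈ D(f)` then `f ^ M * h` is a
global section for some `M` -/
theorem exists_pow_mul_mem (f : B) {h : 𝒦}
    (hh : ∀ 𝔮 : PrimeSpectrum B, f ∉ 𝔮.asIdeal → h * R.r 𝔮 ∈ locSub 𝒦 𝔮.asIdeal) :
    ∃ M : ℕ, algebraMap B 𝒦 f ^ M * h ∈ R.lam Set.univ := by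
  classical
  obtain ⟨s, g, hg, hcov⟩ := R.exists_finite_cover
  -- for each chart a power
  have hchart : ∀ 𝔭 : PrimeSpectrum B, ∃ (M : ℕ) (b : B),
      algebraMap B 𝒦 (g 𝔭 * f) ^ M * (h * R.r 𝔭) = algebraMap B 𝒦 b := by
    intro 𝔭
    apply exists_pow_mul_eq_algebraMap
    intro 𝔮 h𝔮 hgf
    have hg𝔮 : g 𝔭 ∉ 𝔮 := fun hmem => hgf (𝔮.mul_mem_right _ hmem)
    have hf𝔮 : f ∉ 𝔮 := fun hmem => hgf (𝔮.mul_mem_left _ hmem)
    let 𝔮' : PrimeSpectrum B := ⟨𝔮, h𝔮⟩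
    have h1 := hh 𝔮' hf𝔮
    have h2 := ((hg 𝔭).2 𝔮' hg𝔮).2
    have : h * R.r 𝔭 = (h * R.r 𝔮') * (R.r 𝔭 / R.r 𝔮') := by
      field_simp [R.r_ne 𝔮']
    rw [this]
    exact Subring.mul_mem _ h1 h2
  choose M b hMb using hchart
  refine ⟨s.sup M, fun 𝔮 _ => ?_⟩
  obtain ⟨𝔭, h𝔭s, hg𝔮⟩ := hcov 𝔮
  have hM : M 𝔭 ≤ s.sup M := Finset.le_sup (f := M) h𝔭s
  have hgne : algebraMap B 𝒦 (g 𝔭) ≠ 0 := by
    intro h0
    have : g 𝔭 = 0 := (IsFractionRing.injective B 𝒦) (by rw [h0, map_zero])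
    exact hg𝔮 (this ▸ 𝔮.asIdeal.zero_mem)
  -- `f^N h r_𝔮 = f^(N - M) * b * g^(-M) * (r_𝔮 / r_𝔭)`
  have key : algebraMap B 𝒦 f ^ (s.sup M) * h * R.r 𝔮 =
      algebraMap B 𝒦 (f ^ (s.sup M - M 𝔭)) * algebraMap B 𝒦 (b 𝔭) *
        ((algebraMap B 𝒦 (g 𝔭))⁻¹) ^ (M 𝔭) * (R.r 𝔮 / R.r 𝔭) := by
    rw [← hMb 𝔭, map_mul, mul_pow, map_pow]
    have hpow : algebraMap B 𝒦 f ^ (s.sup M) =
        algebraMap B 𝒦 f ^ (s.sup M - M 𝔭) * algebraMap B 𝒦 f ^ (M 𝔭) := by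
      rw [← pow_add, Nat.sub_add_cancel hM]
    rw [hpow, inv_pow]
    field_simp [R.r_ne 𝔭]
  rw [key]
  refine Subring.mul_mem _ (Subring.mul_mem _ (Subring.mul_mem _ ?_ ?_) ?_) ?_
  · exact algebraMap_mem_locSub _ _
  · exact algebraMap_mem_locSub _ _
  · exact Subring.pow_mem _ (inv_algebraMap_mem_locSub hg𝔮) _
  · exact ((hg 𝔭).2 𝔮 hg𝔮).1

/-- **local generation**: for every prime `𝔭` there are global sections `h` of `R`, `h'` of `R.inv`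
whose product is an element of `B` outside `𝔭` -/
theorem exists_local_pair (𝔭 : PrimeSpectrum B) : ∃ (h h' : 𝒦) (s : B), h ∈ R.lam Set.univ ∧
    h' ∈ R.inv.lam Set.univ ∧ s ∉ 𝔭.asIdeal ∧ h * h' = algebraMap B 𝒦 s := by
  obtain ⟨f, hf, hcoh⟩ := R.coh 𝔭
  obtain ⟨M, hM⟩ := R.exists_pow_mul_mem f (h := (R.r 𝔭)⁻¹) (fun 𝔮 h𝔮 => by
    have : (R.r 𝔭)⁻¹ * R.r 𝔮 = R.r 𝔮 / R.r 𝔭 := by field_simp
    rw [this]; exact (hcoh 𝔮 h𝔮).1)
  obtain ⟨M', hM'⟩ := R.inv.exists_pow_mul_mem f (h := R.r 𝔭) (fun 𝔮 h𝔮 => by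
    have : R.r 𝔭 * R.inv.r 𝔮 = R.r 𝔭 / R.r 𝔮 := by rw [inv_r]; field_simp
    rw [this]; exact (hcoh 𝔮 h𝔮).2)
  refine ⟨_, _, f ^ (M + M'), hM, hM', fun h => hf (𝔭.isPrime.mem_of_pow_mem _ h), ?_⟩
  rw [map_pow, pow_add]
  field_simp [R.r_ne 𝔭]

/-- **invertibility** of the module of global sections -/
theorem lam_mul_lam_inv : R.lam Set.univ * R.inv.lam Set.univ = 1 := by
  apply le_antisymm
  · rw [Submodule.mul_le]
    intro h hh h' hh'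
    -- `h h' ∈ B_𝔮` for all `𝔮`
    obtain ⟨M, b, hb⟩ := exists_pow_mul_eq_algebraMap (𝒦 := 𝒦) (1 : B) (h * h') (by
      intro 𝔮 h𝔮 _
      let 𝔮' : PrimeSpectrum B := ⟨𝔮, h𝔮⟩
      have h1 := hh 𝔮' (Set.mem_univ _)
      have h2 := hh' 𝔮' (Set.mem_univ _)
      have : h * h' = (h * R.r 𝔮') * (h' * R.inv.r 𝔮') := by
        rw [inv_r]; field_simp [R.r_ne 𝔮']
      rw [this]
      exact Subring.mul_mem _ h1 h2)
    rw [map_one, one_pow, one_mul] at hb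
    rw [Submodule.one_eq_range, hb]
    exact ⟨b, rfl⟩
  · -- the ideal of `b` with `b ∈ lam * lam'` is not contained in any prime
    set J : Ideal B := (R.lam Set.univ * R.inv.lam Set.univ).comap (Algebra.linearMap B 𝒦)
      with hJ
    have hJtop : J = ⊤ := by
      by_contra hne
      obtain ⟨m, hm, hle⟩ := Ideal.exists_le_maximal _ hne
      obtain ⟨h, h', s, hh, hh', hs, hprod⟩ := R.exists_local_pair ⟨m, hm.isPrime⟩
      apply hs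
      apply hle
      show Algebra.linearMap B 𝒦 s ∈ R.lam Set.univ * R.inv.lam Set.univ
      rw [Algebra.linearMap_apply, ← hprod]
      exact Submodule.mul_mem_mul hh hh'
    have h1 : (1 : B) ∈ J := by rw [hJtop]; exact Submodule.mem_top
    rw [Submodule.one_le]
    have : Algebra.linearMap B 𝒦 1 ∈ R.lam Set.univ * R.inv.lam Set.univ := h1
    rwa [Algebra.linearMap_apply, map_one] at this

theorem isUnit_lam : IsUnit (R.lam Set.univ) :=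
  IsUnit.of_mul_eq_one _ R.lam_mul_lam_inv

theorem fg_lam : (R.lam Set.univ).FG := Submodule.fg_of_isUnit R.isUnit_lam

theorem projective_lam : Module.Projective B (R.lam Set.univ) :=
  Submodule.projective_of_isUnit R.isUnit_lam

/-- **partition of unity** -/
theorem exists_partition : ∃ (n : ℕ) (a a' : Fin n → 𝒦), (∀ j, a j ∈ R.lam Set.univ) ∧
    (∀ j, a' j ∈ R.inv.lam Set.univ) ∧ ∑ j, a j * a' j = 1 := by
  classical
  have h1 : (1 : 𝒦) ∈ R.lam Set.univ * R.inv.lam Set.univ := by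
    rw [R.lam_mul_lam_inv]; exact Submodule.one_le.mp le_rfl
  -- elements of a product are finite sums of products
  have key : ∀ x ∈ R.lam Set.univ * R.inv.lam Set.univ, ∃ (n : ℕ) (a a' : Fin n → 𝒦),
      (∀ j, a j ∈ R.lam Set.univ) ∧ (∀ j, a' j ∈ R.inv.lam Set.univ) ∧ ∑ j, a j * a' j = x := by
    intro x hx
    refine Submodule.mul_induction_on hx ?_ ?_
    · intro m hm n hn
      exact ⟨1, fun _ => m, fun _ => n, fun _ => hm, fun _ => hn, by simp⟩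
    · rintro x y ⟨n, a, a', ha, ha', hsum⟩ ⟨m, c, c', hc, hc', hsum'⟩
      refine ⟨n + m, Fin.append a c, Fin.append a' c', ?_, ?_, ?_⟩
      · intro j
        refine Fin.addCases (fun i => ?_) (fun i => ?_) j
        · rw [Fin.append_left]; exact ha i
        · rw [Fin.append_right]; exact hc i
      · intro j
        refine Fin.addCases (fun i => ?_) (fun i => ?_) j
        · rw [Fin.append_left]; exact ha' i
        · rw [Fin.append_right]; exact hc' i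
      · rw [Fin.sum_univ_add]
        simp only [Fin.append_left, Fin.append_right]
        rw [hsum, hsum']
  exact key 1 h1

/-- **local generator**: for every prime `𝔭` some global section generates the stalk -/
theorem exists_local_generator (𝔭 : PrimeSpectrum B) : ∃ h ∈ R.lam Set.univ,
    h * R.r 𝔭 ∈ locSub 𝒦 𝔭.asIdeal ∧ (h * R.r 𝔭)⁻¹ ∈ locSub 𝒦 𝔭.asIdeal := by
  obtain ⟨h, h', s, hh, hh', hs, hprod⟩ := R.exists_local_pair 𝔭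
  refine ⟨h, hh, hh 𝔭 (Set.mem_univ _), ?_⟩
  have h2 := hh' 𝔭 (Set.mem_univ _)
  rw [inv_r] at h2
  have hs0 : algebraMap B 𝒦 s ≠ 0 := by
    intro h0
    have : s = 0 := (IsFractionRing.injective B 𝒦) (by rw [h0, map_zero])
    exact hs (this ▸ 𝔭.asIdeal.zero_mem)
  have hh0 : h ≠ 0 := by
    rintro rfl
    rw [zero_mul] at hprod
    exact hs0 hprod.symm
  have hh'0 : h' ≠ 0 := by
    rintro rfl
    rw [mul_zero] at hprod
    exact hs0 hprod.symm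
  have : (h * R.r 𝔭)⁻¹ = (h' * (R.r 𝔭)⁻¹) * (algebraMap B 𝒦 s)⁻¹ := by
    rw [← hprod]
    field_simp [R.r_ne 𝔭]
  rw [this]
  exact Subring.mul_mem _ h2 (inv_algebraMap_mem_locSub hs)

end RatioFam

end Fermat.Agent.S26lib.RelCurve
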