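/-
S26lib / RelCurve / FibAlg  (helper3)  --  Project K (S26), cube kernel, geometric bridge (G3),
algebraic core

**Restriction of an invertible sheaf to a closed fibre.**  `B` a domain with fraction field `𝒦`,
`R : RatioFam B 𝒦` a Cartier divisor, `𝔞` a prime of `B` (the ideal of the closed fibre),
`π : B → Rb` the quotient map (`Rb = B / 𝔞` a domain with fraction field `Fc`) and
`res : B_𝔞 → Fc` the residue map of the local ring at the generic point of the fibre.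

The reduction `ρ h = res (h * r 𝔞)` maps the module of global sections `R.lam univ` ONTO the module
of global sections of the *fibre family* `r̄ 𝔮̄ = res (r 𝔮 / r 𝔞)` (the restricted invertible sheaf,
trivialised at the generic point of the fibre by `r 𝔞`), with kernel `𝔞 • R.lam univ`.
No assumption that the fibre is not contained in the support of the divisor.
-/
import Fermat.Agent.S26lib.RelCurve.InvAlg

set_option autoImplicit false
set_option linter.unusedSectionVars false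

namespace Fermat.Agent.S26lib.RelCurve

open Submodule

/-- the product of a section of `R` and a section of `R.inv` is a function -/
theorem RatioFam.exists_algebraMap_eq_mul {B : Type*} [CommRing B] [IsDomain B] {𝒦 : Type*}
    [Field 𝒦] [Algebra B 𝒦] [IsFractionRing B 𝒦] (R : RatioFam B 𝒦) {h h' : 𝒦}
    (hh : h ∈ R.lam Set.univ) (hh' : h' ∈ R.inv.lam Set.univ) :
    ∃ b : B, algebraMap B 𝒦 b = h * h' := by
  have hmem : h * h' ∈ R.lam Set.univ * R.inv.lam Set.univ := Submodule.mul_mem_mul hh hh'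
  rw [R.lam_mul_lam_inv, Submodule.one_eq_range] at hmem
  obtain ⟨b, hb⟩ := hmem
  exact ⟨b, hb⟩

/-- a closed fibre of `Spec B` -/
structure FibData (B : Type*) [CommRing B] [IsDomain B] (𝒦 : Type*) [Field 𝒦] [Algebra B 𝒦]
    [IsFractionRing B 𝒦] (Rb : Type*) [CommRing Rb] [IsDomain Rb] (Fc : Type*) [Field Fc]
    [Algebra Rb Fc] [IsFractionRing Rb Fc] where
  /-- the prime ideal of the fibre -/
  𝔞 : PrimeSpectrum B
  /-- the restriction of functions to the fibre -/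
  π : B →+* Rb
  π_surj : Function.Surjective π
  ker_π : RingHom.ker π = 𝔞.asIdeal
  /-- the residue map of `B_𝔞` (junk outside `B_𝔞`) -/
  res : 𝒦 → Fc
  res_add : ∀ x ∈ locSub 𝒦 𝔞.asIdeal, ∀ y ∈ locSub 𝒦 𝔞.asIdeal, res (x + y) = res x + res y
  res_mul : ∀ x ∈ locSub 𝒦 𝔞.asIdeal, ∀ y ∈ locSub 𝒦 𝔞.asIdeal, res (x * y) = res x * res y
  res_algebraMap : ∀ b : B, res (algebraMap B 𝒦 b) = algebraMap Rb Fc (π b)

namespace FibData

variable {B : Type*} [CommRing B] [IsDomain B] {𝒦 : Type*} [Field 𝒦] [Algebra B 𝒦]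
  [IsFractionRing B 𝒦] {Rb : Type*} [CommRing Rb] [IsDomain Rb] {Fc : Type*} [Field Fc]
  [Algebra Rb Fc] [IsFractionRing Rb Fc] (F : FibData B 𝒦 Rb Fc)

theorem π_eq_zero_iff (b : B) : F.π b = 0 ↔ b ∈ F.𝔞.asIdeal := by
  rw [← F.ker_π, RingHom.mem_ker]

theorem algebraMap_π_ne_zero {s : B} (hs : s ∉ F.𝔞.asIdeal) : algebraMap Rb Fc (F.π s) ≠ 0 := by
  intro h
  have : F.π s = 0 := (IsFractionRing.injective Rb Fc) (by rw [h, map_zero])
  exact hs ((F.π_eq_zero_iff s).mp this)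

theorem res_one : F.res 1 = 1 := by
  have := F.res_algebraMap 1
  rwa [map_one, map_one, map_one] at this

theorem res_zero : F.res 0 = 0 := by
  have := F.res_algebraMap 0
  rwa [map_zero, map_zero, map_zero] at this

/-- the residue of a fraction -/
theorem res_eq_div {x : 𝒦} {a s : B} (hs : s ∉ F.𝔞.asIdeal)
    (hx : x * algebraMap B 𝒦 s = algebraMap B 𝒦 a) :
    F.res x = algebraMap Rb Fc (F.π a) / algebraMap Rb Fc (F.π s) := by
  have hxm : x ∈ locSub 𝒦 F.𝔞.asIdeal := ⟨a, s, hs, hx⟩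
  have h1 := F.res_mul x hxm _ (algebraMap_mem_locSub F.𝔞.asIdeal s)
  rw [hx, F.res_algebraMap, F.res_algebraMap] at h1
  rw [h1, mul_div_assoc, div_self (F.algebraMap_π_ne_zero hs), mul_one]

/-- the comap of a prime of the fibre -/
def up (𝔮 : PrimeSpectrum Rb) : PrimeSpectrum B := PrimeSpectrum.comap F.π 𝔮

theorem mem_up_iff (𝔮 : PrimeSpectrum Rb) (b : B) : b ∈ (F.up 𝔮).asIdeal ↔ F.π b ∈ 𝔮.asIdeal :=
  Iff.rfl

theorem 𝔞_le_up (𝔮 : PrimeSpectrum Rb) : F.𝔞.asIdeal ≤ (F.up 𝔮).asIdeal := by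
  intro b hb
  rw [mem_up_iff, (F.π_eq_zero_iff b).mpr hb]
  exact 𝔮.asIdeal.zero_mem

/-- residues of elements of `B_𝔮`, `𝔮 ⊇ 𝔞`, lie in `Rb_𝔮̄` -/
theorem res_mem_locSub (𝔮 : PrimeSpectrum Rb) {x : 𝒦} (hx : x ∈ locSub 𝒦 (F.up 𝔮).asIdeal) :
    F.res x ∈ locSub Fc 𝔮.asIdeal := by
  obtain ⟨a, s, hs, hxs⟩ := hx
  have hs𝔞 : s ∉ F.𝔞.asIdeal := fun h => hs (F.𝔞_le_up 𝔮 h)
  refine ⟨F.π a, F.π s, hs, ?_⟩
  rw [F.res_eq_div hs𝔞 hxs, div_mul_cancel₀ _ (F.algebraMap_π_ne_zero hs𝔞)]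

theorem locSub_up_le (𝔮 : PrimeSpectrum Rb) :
    locSub 𝒦 (F.up 𝔮).asIdeal ≤ locSub 𝒦 F.𝔞.asIdeal := by
  rintro x ⟨a, s, hs, hxs⟩
  exact ⟨a, s, fun h => hs (F.𝔞_le_up 𝔮 h), hxs⟩

variable (R : RatioFam B 𝒦)

/-- local ratios at primes of the fibre are units at the generic point of the fibre -/
theorem ratio_mem (𝔮 : PrimeSpectrum B) (h𝔮 : F.𝔞.asIdeal ≤ 𝔮.asIdeal) :
    R.r 𝔮 / R.r F.𝔞 ∈ locSub 𝒦 F.𝔞.asIdeal ∧ R.r F.𝔞 / R.r 𝔮 ∈ locSub 𝒦 F.𝔞.asIdeal := by
  obtain ⟨f, hf, hcoh⟩ := R.coh 𝔮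
  have hf𝔞 : f ∉ F.𝔞.asIdeal := fun h => hf (h𝔮 h)
  exact ⟨(hcoh F.𝔞 hf𝔞).2, (hcoh F.𝔞 hf𝔞).1⟩

/-- **the fibre family**: the restricted invertible sheaf -/
def fibre : RatioFam Rb Fc where
  r := fun 𝔮 => F.res (R.r (F.up 𝔮) / R.r F.𝔞)
  r_ne := by
    intro 𝔮 h0
    obtain ⟨h1, h2⟩ := F.ratio_mem R (F.up 𝔮) (F.𝔞_le_up 𝔮)
    have := F.res_mul _ h1 _ h2
    rw [h0, zero_mul] at this
    have hone : R.r (F.up 𝔮) / R.r F.𝔞 * (R.r F.𝔞 / R.r (F.up 𝔮)) = 1 := by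
      field_simp [R.r_ne]
    rw [hone, F.res_one] at this
    exact one_ne_zero this
  coh := by
    intro 𝔭
    obtain ⟨f, hf, hcoh⟩ := R.coh (F.up 𝔭)
    refine ⟨F.π f, hf, fun 𝔮 h𝔮 => ?_⟩
    obtain ⟨h1, h2⟩ := hcoh (F.up 𝔮) h𝔮
    obtain ⟨a1, a2⟩ := F.ratio_mem R (F.up 𝔮) (F.𝔞_le_up 𝔮)
    obtain ⟨b1, b2⟩ := F.ratio_mem R (F.up 𝔭) (F.𝔞_le_up 𝔭)
    have e1 : F.res (R.r (F.up 𝔮) / R.r F.𝔞) / F.res (R.r (F.up 𝔭) / R.r F.𝔞) =
        F.res (R.r (F.up 𝔮) / R.r (F.up 𝔭)) := by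
      have hne : F.res (R.r (F.up 𝔭) / R.r F.𝔞) ≠ 0 := by
        intro h0
        have := F.res_mul _ b1 _ b2
        rw [h0, zero_mul] at this
        have hone : R.r (F.up 𝔭) / R.r F.𝔞 * (R.r F.𝔞 / R.r (F.up 𝔭)) = 1 := by
          field_simp [R.r_ne]
        rw [hone, F.res_one] at this
        exact one_ne_zero this
      rw [div_eq_iff hne, ← F.res_mul _ (F.locSub_up_le 𝔮 h1) _ b1]
      congr 1
      field_simp [R.r_ne]
    have e2 : F.res (R.r (F.up 𝔭) / R.r F.𝔞) / F.res (R.r (F.up 𝔮) / R.r F.𝔞) =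
        F.res (R.r (F.up 𝔭) / R.r (F.up 𝔮)) := by
      have hne : F.res (R.r (F.up 𝔮) / R.r F.𝔞) ≠ 0 := by
        intro h0
        have := F.res_mul _ a1 _ a2
        rw [h0, zero_mul] at this
        have hone : R.r (F.up 𝔮) / R.r F.𝔞 * (R.r F.𝔞 / R.r (F.up 𝔮)) = 1 := by
          field_simp [R.r_ne]
        rw [hone, F.res_one] at this
        exact one_ne_zero this
      rw [div_eq_iff hne, ← F.res_mul _ (F.locSub_up_le 𝔮 h2) _ a1]
      congr 1
      field_simp [R.r_ne]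
    rw [e1, e2]
    exact ⟨F.res_mem_locSub 𝔮 h1, F.res_mem_locSub 𝔮 h2⟩

theorem fibre_r (𝔮 : PrimeSpectrum Rb) :
    (F.fibre R).r 𝔮 = F.res (R.r (F.up 𝔮) / R.r F.𝔞) := rfl

/-- the reduction of a section to the fibre -/
def rho (h : 𝒦) : Fc := F.res (h * R.r F.𝔞)

theorem mul_mem_of_mem_lam {h : 𝒦} (hh : h ∈ R.lam Set.univ) :
    h * R.r F.𝔞 ∈ locSub 𝒦 F.𝔞.asIdeal := hh F.𝔞 (Set.mem_univ _)

theorem rho_add {h h' : 𝒦} (hh : h ∈ R.lam Set.univ) (hh' : h' ∈ R.lam Set.univ) :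
    F.rho R (h + h') = F.rho R h + F.rho R h' := by
  unfold rho
  rw [add_mul]
  exact F.res_add _ (F.mul_mem_of_mem_lam R hh) _ (F.mul_mem_of_mem_lam R hh')

theorem rho_smul (b : B) {h : 𝒦} (hh : h ∈ R.lam Set.univ) :
    F.rho R (b • h) = algebraMap Rb Fc (F.π b) * F.rho R h := by
  unfold rho
  rw [Algebra.smul_def, mul_assoc,
    F.res_mul _ (algebraMap_mem_locSub _ b) _ (F.mul_mem_of_mem_lam R hh), F.res_algebraMap]

/-- the reduction of a global section is a global section of the fibre family -/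
theorem rho_mem_lam {h : 𝒦} (hh : h ∈ R.lam Set.univ) : F.rho R h ∈ (F.fibre R).lam Set.univ := by
  intro 𝔮 _
  obtain ⟨a1, a2⟩ := F.ratio_mem R (F.up 𝔮) (F.𝔞_le_up 𝔮)
  have h1 := hh (F.up 𝔮) (Set.mem_univ _)
  rw [fibre_r]
  unfold rho
  rw [← F.res_mul _ (F.mul_mem_of_mem_lam R hh) _ a1]
  have : h * R.r F.𝔞 * (R.r (F.up 𝔮) / R.r F.𝔞) = h * R.r (F.up 𝔮) := by
    field_simp [R.r_ne]
  rw [this]
  exact F.res_mem_locSub 𝔮 h1

/-- `ρ h · ρ' h' = restriction of the function h h'` -/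
theorem rho_mul_rho_inv {h h' : 𝒦} (hh : h ∈ R.lam Set.univ) (hh' : h' ∈ R.inv.lam Set.univ)
    {b : B} (hb : algebraMap B 𝒦 b = h * h') :
    F.rho R h * F.rho R.inv h' = algebraMap Rb Fc (F.π b) := by
  unfold rho
  rw [← F.res_mul _ (F.mul_mem_of_mem_lam R hh) _ (F.mul_mem_of_mem_lam R.inv hh'),
    ← F.res_algebraMap, hb]
  congr 1
  rw [RatioFam.inv_r]
  field_simp [R.r_ne]

/-- **kernel of the reduction** -/
theorem mem_smul_of_rho_eq_zero {h : 𝒦} (hh : h ∈ R.lam Set.univ) (h0 : F.rho R h = 0) :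
    h ∈ F.𝔞.asIdeal • R.lam Set.univ := by
  obtain ⟨n, a, a', ha, ha', hsum⟩ := R.exists_partition
  choose b hb using fun j => R.exists_algebraMap_eq_mul hh (ha' j)
  have hb𝔞 : ∀ j, b j ∈ F.𝔞.asIdeal := by
    intro j
    rw [← F.π_eq_zero_iff]
    have := F.rho_mul_rho_inv R hh (ha' j) (hb j)
    rw [h0, zero_mul] at this
    exact (IsFractionRing.injective Rb Fc) (by rw [← this, map_zero])
  have hsum' : h = ∑ j, b j • a j := by
    calc h = h * ∑ j, a j * a' j := by rw [hsum, mul_one]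
      _ = ∑ j, (h * a' j) * a j := by
          rw [Finset.mul_sum]; exact Finset.sum_congr rfl fun j _ => by ring
      _ = ∑ j, b j • a j := by
          exact Finset.sum_congr rfl fun j _ => by rw [← hb j, Algebra.smul_def]
  rw [hsum']
  exact Submodule.sum_mem _ fun j _ => Submodule.smul_mem_smul (hb𝔞 j) (ha j)

/-- **surjectivity of the reduction** onto the sections of the fibre family -/
theorem exists_rho_eq {f : Fc} (hf : f ∈ (F.fibre R).lam Set.univ) :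
    ∃ h ∈ R.lam Set.univ, F.rho R h = f := by
  obtain ⟨n, a, a', ha, ha', hsum⟩ := R.exists_partition
  -- `f * ρ'(a'_j)` is a function on the fibre
  have hinv : ∀ j, F.rho R.inv (a' j) ∈ (F.fibre R).inv.lam Set.univ := by
    intro j 𝔮 _
    have := F.rho_mem_lam R.inv (ha' j) 𝔮 (Set.mem_univ _)
    have e : (F.fibre R).inv.r 𝔮 = (F.fibre R.inv).r 𝔮 := by
      rw [RatioFam.inv_r, fibre_r, fibre_r]
      obtain ⟨a1, a2⟩ := F.ratio_mem R (F.up 𝔮) (F.𝔞_le_up 𝔮)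
      have hmul := F.res_mul _ a1 _ a2
      have hone : R.r (F.up 𝔮) / R.r F.𝔞 * (R.r F.𝔞 / R.r (F.up 𝔮)) = 1 := by
        field_simp [R.r_ne]
      rw [hone, F.res_one] at hmul
      have e2 : R.inv.r (F.up 𝔮) / R.inv.r F.𝔞 = R.r F.𝔞 / R.r (F.up 𝔮) := by
        rw [RatioFam.inv_r, RatioFam.inv_r]; field_simp [R.r_ne]
      rw [e2]
      exact (eq_inv_of_mul_eq_one_right hmul.symm).symm
    rw [e]; exact this
  have hfun : ∀ j, ∃ c : Rb, algebraMap Rb Fc c = f * F.rho R.inv (a' j) := by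
    intro j
    have hmem : f * F.rho R.inv (a' j) ∈
        (F.fibre R).lam Set.univ * (F.fibre R).inv.lam Set.univ :=
      Submodule.mul_mem_mul hf (hinv j)
    rw [(F.fibre R).lam_mul_lam_inv, Submodule.one_eq_range] at hmem
    obtain ⟨c, hc⟩ := hmem
    exact ⟨c, hc⟩
  choose cb hcb using hfun
  choose c hc using fun j => F.π_surj (cb j)
  refine ⟨∑ j, c j • a j, Submodule.sum_mem _ fun j _ => Submodule.smul_mem _ _ (ha j), ?_⟩
  -- additivity over the finite sum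
  have hsumρ : ∀ (s : Finset (Fin n)), F.rho R (∑ j ∈ s, c j • a j) =
      ∑ j ∈ s, algebraMap Rb Fc (F.π (c j)) * F.rho R (a j) := by
    classical
    intro s
    induction s using Finset.induction_on with
    | empty =>
      simp only [Finset.sum_empty]
      unfold rho
      rw [zero_mul, F.res_zero]
    | insert j s hj ih =>
      rw [Finset.sum_insert hj, Finset.sum_insert hj,
        F.rho_add R (Submodule.smul_mem _ _ (ha j))
          (Submodule.sum_mem _ fun i _ => Submodule.smul_mem _ _ (ha i)),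
        ih, F.rho_smul R _ (ha j)]
  rw [hsumρ]
  -- `1 = Σ ρ(a_j) ρ'(a'_j)`
  have hone : ∑ j, F.rho R (a j) * F.rho R.inv (a' j) = 1 := by
    choose b hb using fun j => R.exists_algebraMap_eq_mul (ha j) (ha' j)
    have h1 : ∀ j, F.rho R (a j) * F.rho R.inv (a' j) = algebraMap Rb Fc (F.π (b j)) :=
      fun j => F.rho_mul_rho_inv R (ha j) (ha' j) (hb j)
    simp_rw [h1]
    rw [← map_sum, ← map_sum]
    have hb1 : ∑ j, b j = 1 := by
      apply IsFractionRing.injective B 𝒦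
      rw [map_sum, map_one, ← hsum]
      exact Finset.sum_congr rfl fun j _ => hb j
    rw [hb1, map_one, map_one]
  calc ∑ j, algebraMap Rb Fc (F.π (c j)) * F.rho R (a j)
      = ∑ j, f * (F.rho R (a j) * F.rho R.inv (a' j)) := by
        refine Finset.sum_congr rfl fun j _ => ?_
        rw [hc j, hcb j]; ring
    _ = f := by rw [← Finset.mul_sum, hone, mul_one]

end FibData

end Fermat.Agent.S26lib.RelCurve
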