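/-
S26lib / RelCurve / Glue  (helper3)  --  Project K (S26), cube kernel, geometric bridge (G1s)

**From Cartier divisors on an integral scheme to ratio families on an affine chart.**
`Z` an integral scheme, `𝔏 : CDiv Z` (helper7's `Hub/CaCl`), `W` an affine open:
`ratioFam 𝔏 hW : RatioFam Γ(Z, W) K(Z)`, `r 𝔭 = 𝔏.t (hW.fromSpec 𝔭)`, and the dictionary
`h ∈ (ratioFam 𝔏 hW).lam S ↔ ∀ 𝔮 ∈ S, h * 𝔏.t (fromSpec 𝔮) ∈ O_{Z, fromSpec 𝔮}`.
-/
import Fermat.Agent.S26lib.RelCurve.InvAlg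
import Fermat.Agent.S26lib.Hub.CaClFun
import Fermat.Agent.S26lib.Quad.RatFam
import Fermat.Agent.S26lib.P5a.HartogsScheme

set_option autoImplicit false
set_option linter.unusedSectionVars false

noncomputable section

namespace Fermat.Agent.S26lib.RelCurve

open AlgebraicGeometry CategoryTheory TopologicalSpace Fermat.Agent.S26lib.Quad
  Fermat.Agent.S26lib.Hub Fermat.Agent.S26lib.P5a

universe u

variable {Z : Scheme.{u}} [IsIntegral Z] {W : Z.Opens} (hW : IsAffineOpen W) [Nonempty W]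
  [hfr : IsFractionRing Γ(Z, W) Z.functionField]

/-- the localisation `Γ(Z, W)_𝔭` inside `K(Z)` is the local ring of the point `fromSpec 𝔭` -/
theorem mem_locSub_iff_mem_regAt (𝔭 : PrimeSpectrum Γ(Z, W)) (x : Z.functionField) :
    x ∈ locSub Z.functionField 𝔭.asIdeal ↔ x ∈ regAt Z (hW.fromSpec 𝔭) := by
  have hy : hW.fromSpec 𝔭 ∈ W := fromSpec_mem hW 𝔭
  let _ := TopCat.Presheaf.algebra_section_stalk Z.presheaf ⟨hW.fromSpec 𝔭, hy⟩
  have hloc : IsLocalization.AtPrime (Z.presheaf.stalk (hW.fromSpec 𝔭)) 𝔭.asIdeal :=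
    hW.isLocalization_stalk' 𝔭 hy
  have htower : IsScalarTower Γ(Z, W) (Z.presheaf.stalk (hW.fromSpec 𝔭)) Z.functionField :=
    functionField_isScalarTower Z W ⟨hW.fromSpec 𝔭, hy⟩
  constructor
  · rintro ⟨a, s, hs, hx⟩
    refine ⟨IsLocalization.mk' (Z.presheaf.stalk (hW.fromSpec 𝔭)) a
      (⟨s, hs⟩ : 𝔭.asIdeal.primeCompl), ?_⟩
    have hs0 : algebraMap Γ(Z, W) Z.functionField s ≠ 0 := by
      intro h0
      have : s = 0 := (IsFractionRing.injective Γ(Z, W) Z.functionField) (by rw [h0, map_zero])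
      exact hs (this ▸ 𝔭.asIdeal.zero_mem)
    apply mul_right_cancel₀ hs0
    rw [hx, IsScalarTower.algebraMap_apply Γ(Z, W) (Z.presheaf.stalk (hW.fromSpec 𝔭))
      Z.functionField s, IsScalarTower.algebraMap_apply Γ(Z, W)
      (Z.presheaf.stalk (hW.fromSpec 𝔭)) Z.functionField a]
    show toFF Z _ _ * toFF Z _ _ = toFF Z _ _
    rw [← map_mul]
    congr 1
    exact IsLocalization.mk'_spec _ a (⟨s, hs⟩ : 𝔭.asIdeal.primeCompl)
  · rintro ⟨v, rfl⟩
    obtain ⟨⟨a, s⟩, hs⟩ := IsLocalization.surj 𝔭.asIdeal.primeCompl v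
    refine ⟨a, s.1, s.2, ?_⟩
    rw [IsScalarTower.algebraMap_apply Γ(Z, W) (Z.presheaf.stalk (hW.fromSpec 𝔭))
      Z.functionField, IsScalarTower.algebraMap_apply Γ(Z, W)
      (Z.presheaf.stalk (hW.fromSpec 𝔭)) Z.functionField]
    show toFF Z _ _ * toFF Z _ _ = toFF Z _ _
    rw [← map_mul]
    exact congrArg _ hs

omit [Nonempty W] hfr in
theorem fromSpec_mem_basicOpen_iff (f : Γ(Z, W)) (𝔮 : PrimeSpectrum Γ(Z, W)) :
    hW.fromSpec 𝔮 ∈ Z.basicOpen f ↔ f ∉ 𝔮.asIdeal := by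
  have h1 : hW.fromSpec 𝔮 ∈ Z.basicOpen f ↔ 𝔮 ∈ hW.fromSpec ⁻¹ᵁ Z.basicOpen f := Iff.rfl
  rw [h1, hW.fromSpec_preimage_basicOpen f]
  exact PrimeSpectrum.mem_basicOpen f 𝔮

omit [Nonempty W] hfr in
/-- the units of a local ring are regular -/
theorem val_mem_regAt_of_mem_stalkUnits {y : Z} {q : (Z.functionField)ˣ}
    (hq : q ∈ stalkUnits Z y) : (q : Z.functionField) ∈ regAt Z y := by
  obtain ⟨u, rfl⟩ := hq
  exact ⟨(u : Z.presheaf.stalk y), rfl⟩

/-- **the ratio family of a Cartier divisor on an affine chart** -/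
def ratioFam (𝔏 : CDiv Z) : RatioFam Γ(Z, W) Z.functionField where
  r := fun 𝔭 => ((𝔏.t (hW.fromSpec 𝔭) : (Z.functionField)ˣ) : Z.functionField)
  r_ne := fun 𝔭 => Units.ne_zero _
  coh := by
    intro 𝔭
    obtain ⟨V, hxV, hV⟩ := 𝔏.coherent (hW.fromSpec 𝔭)
    obtain ⟨f, hfV, hxf⟩ := hW.exists_basicOpen_le (V := V) ⟨hW.fromSpec 𝔭, hxV⟩
      (fromSpec_mem hW 𝔭)
    refine ⟨f, (fromSpec_mem_basicOpen_iff hW f 𝔭).mp hxf, fun 𝔮 h𝔮 => ?_⟩
    have h1 := hV _ (hfV ((fromSpec_mem_basicOpen_iff hW f 𝔮).mpr h𝔮))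
    have h2 := inv_mem h1
    rw [inv_div] at h2
    refine ⟨?_, ?_⟩
    · rw [mem_locSub_iff_mem_regAt hW, ← Units.val_div_eq_div_val]
      exact val_mem_regAt_of_mem_stalkUnits h1
    · rw [mem_locSub_iff_mem_regAt hW, ← Units.val_div_eq_div_val]
      exact val_mem_regAt_of_mem_stalkUnits h2

@[simp] theorem ratioFam_r (𝔏 : CDiv Z) (𝔭 : PrimeSpectrum Γ(Z, W)) :
    (ratioFam hW 𝔏).r 𝔭 = ((𝔏.t (hW.fromSpec 𝔭) : (Z.functionField)ˣ) : Z.functionField) := rfl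

/-- **the dictionary** between the sections of the ratio family and the local conditions -/
theorem mem_ratioFam_lam_iff (𝔏 : CDiv Z) (S : Set (PrimeSpectrum Γ(Z, W))) (h : Z.functionField) :
    h ∈ (ratioFam hW 𝔏).lam S ↔ ∀ 𝔮 ∈ S,
      h * ((𝔏.t (hW.fromSpec 𝔮) : (Z.functionField)ˣ) : Z.functionField) ∈
        regAt Z (hW.fromSpec 𝔮) := by
  rw [RatioFam.mem_lam_iff]
  refine forall₂_congr fun 𝔮 _ => ?_
  rw [mem_locSub_iff_mem_regAt hW, ratioFam_r]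

/-- global sections over the chart, in terms of the points of `W` -/
theorem mem_ratioFam_lam_univ_iff (𝔏 : CDiv Z) (h : Z.functionField) :
    h ∈ (ratioFam hW 𝔏).lam Set.univ ↔ ∀ y ∈ W,
      h * ((𝔏.t y : (Z.functionField)ˣ) : Z.functionField) ∈ regAt Z y := by
  rw [mem_ratioFam_lam_iff]
  constructor
  · intro hh y hy
    have := hh (hW.primeIdealOf ⟨y, hy⟩) (Set.mem_univ _)
    rwa [hW.fromSpec_primeIdealOf ⟨y, hy⟩] at this
  · intro hh 𝔮 _
    exact hh _ (fromSpec_mem hW 𝔮)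

end Fermat.Agent.S26lib.RelCurve
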