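/-
S26lib / RelCurve / Fibre  (helper3)  --  Project K (S26), cube kernel, geometric bridge (G3s)

**The closed fibre of an affine chart, in scheme language.**  `ι : C ⟶ X` a morphism of integral
schemes (the inclusion of a fibre), `W ⊆ X`, `U ⊆ ι⁻¹ W` affine opens with
`Γ(X, W) → Γ(C, U)` onto.  Then `fibData` is the `FibData` of `RelCurve/FibAlg`
(`𝔞 = ker`, `res = resFF ι` = pull-back of the functions regular at `ι η_C`), and the fibre family
of `ratioFam hW 𝔏` is the ratio family of helper7's `CDiv.pull ι 𝔏` (`fibre_ratioFam_r`).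
-/
import Fermat.Agent.S26lib.RelCurve.Glue
import Fermat.Agent.S26lib.RelCurve.FibAlg

set_option autoImplicit false
set_option linter.unusedSectionVars false

noncomputable section

namespace Fermat.Agent.S26lib.RelCurve

open AlgebraicGeometry CategoryTheory TopologicalSpace Fermat.Agent.S26lib.Quad
  Fermat.Agent.S26lib.Hub Fermat.Agent.S26lib.P5a

universe u

section Res

variable {X C : Scheme.{u}} [IsIntegral X] [IsIntegral C] (ι : C ⟶ X)

open Classical in
/-- restriction to `C` of the rational functions on `X` which are regular at `ι η_C`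
(junk elsewhere) -/
def resFF (x : X.functionField) : C.functionField :=
  if h : x ∈ regAt X (ι (genericPoint C)) then pbFF ι (RingHom.mem_range.mp h).choose else 0

theorem resFF_toFF (a : X.presheaf.stalk (ι (genericPoint C))) :
    resFF ι (toFF X _ a) = pbFF ι a := by
  have h : toFF X _ a ∈ regAt X (ι (genericPoint C)) := ⟨a, rfl⟩
  unfold resFF
  rw [dif_pos h]
  congr 1
  exact toFF_injective X _ (RingHom.mem_range.mp h).choose_spec

theorem resFF_add {x y : X.functionField} (hx : x ∈ regAt X (ι (genericPoint C)))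
    (hy : y ∈ regAt X (ι (genericPoint C))) : resFF ι (x + y) = resFF ι x + resFF ι y := by
  obtain ⟨a, rfl⟩ := hx
  obtain ⟨b, rfl⟩ := hy
  rw [← map_add, resFF_toFF, resFF_toFF, resFF_toFF, map_add]

theorem resFF_mul {x y : X.functionField} (hx : x ∈ regAt X (ι (genericPoint C)))
    (hy : y ∈ regAt X (ι (genericPoint C))) : resFF ι (x * y) = resFF ι x * resFF ι y := by
  obtain ⟨a, rfl⟩ := hx
  obtain ⟨b, rfl⟩ := hy
  rw [← map_mul, resFF_toFF, resFF_toFF, resFF_toFF, map_mul]

/-- the value of the pulled-back Cartier divisor -/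
theorem pull_t_val (𝔏 : CDiv X) (c : C) :
    (((CDiv.pull ι 𝔏).t c : (C.functionField)ˣ) : C.functionField) =
      resFF ι ((𝔏.t (ι c) / 𝔏.t (ι (genericPoint C)) : (X.functionField)ˣ) : X.functionField) := by
  obtain ⟨v, hv⟩ := 𝔏.div_mem_of_specializes (map_generic_specializes ι c)
  rw [CDiv.pull_t_eq ι 𝔏 c v hv, ← hv]
  show pbFF ι (v : X.presheaf.stalk (ι (genericPoint C))) = resFF ι (toFF X _ _)
  rw [resFF_toFF]

end Res

section Fib

variable {X C : Scheme.{u}} [IsIntegral X] [IsIntegral C] (ι : C ⟶ X)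
  {W : X.Opens} (hW : IsAffineOpen W) {U : C.Opens} (hU : IsAffineOpen U)
  [Nonempty W] [Nonempty U] (e : U ≤ ι ⁻¹ᵁ W)

omit [Nonempty W] in
theorem genericPoint_mem_of_nonempty : genericPoint C ∈ U :=
  ((genericPoint_spec C).mem_open_set_iff U.isOpen).mpr (by simpa using ‹Nonempty U›)

/-- the prime ideal of the fibre in the chart -/
def fibPrime : PrimeSpectrum Γ(X, W) :=
  ⟨RingHom.ker (ι.appLE W U e).hom, RingHom.ker_isPrime _⟩

omit [Nonempty W] in
include hU in
/-- the point of the prime ideal of the fibre is the image of the generic point -/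
theorem fromSpec_fibPrime : hW.fromSpec (fibPrime ι e) = ι (genericPoint C) := by
  have hη : genericPoint C ∈ U := genericPoint_mem_of_nonempty
  have h1 := IsAffineOpen.comap_primeIdealOf_appLE (f := ι) (x := genericPoint C) W hW U hU e hη
  have h2 : hU.primeIdealOf ⟨genericPoint C, hη⟩ = (⊥ : PrimeSpectrum Γ(C, U)) := by
    rw [hU.primeIdealOf_genericPoint, genericPoint_eq_bot_of_affine]
  have h3 : fibPrime ι e = hW.primeIdealOf ⟨ι (genericPoint C), e hη⟩ := by
    rw [← h1, h2]
    rfl
  rw [h3, hW.fromSpec_primeIdealOf]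

omit [Nonempty W] [Nonempty U] in
/-- naturality of the points of the primes -/
theorem fromSpec_comap (𝔮 : PrimeSpectrum Γ(C, U)) :
    hW.fromSpec (PrimeSpectrum.comap (ι.appLE W U e).hom 𝔮) = ι (hU.fromSpec 𝔮) := by
  have hx : hU.fromSpec 𝔮 ∈ U := fromSpec_mem hU 𝔮
  have h1 := IsAffineOpen.comap_primeIdealOf_appLE (f := ι) (x := hU.fromSpec 𝔮) W hW U hU e hx
  have h2 : hU.primeIdealOf ⟨hU.fromSpec 𝔮, hx⟩ = 𝔮 := by
    have hinj : Function.Injective hU.fromSpec := hU.fromSpec.isOpenEmbedding.injective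
    exact hinj (hU.fromSpec_primeIdealOf ⟨hU.fromSpec 𝔮, hx⟩)
  rw [h2] at h1
  rw [h1, hW.fromSpec_primeIdealOf]

variable [IsFractionRing Γ(X, W) X.functionField] [IsFractionRing Γ(C, U) C.functionField]

include hW hU in
theorem mem_locSub_fibPrime_iff (x : X.functionField) :
    x ∈ locSub X.functionField (fibPrime ι e).asIdeal ↔ x ∈ regAt X (ι (genericPoint C)) := by
  rw [mem_locSub_iff_mem_regAt hW, fromSpec_fibPrime ι hW hU e]

omit [IsFractionRing Γ(X, W) X.functionField] [IsFractionRing Γ(C, U) C.functionField] in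
/-- the restriction of a section of the chart -/
theorem resFF_algebraMap (b : Γ(X, W)) :
    resFF ι (algebraMap Γ(X, W) X.functionField b) =
      algebraMap Γ(C, U) C.functionField ((ι.appLE W U e).hom b) := by
  have hη : genericPoint C ∈ U := genericPoint_mem_of_nonempty
  have hηW : ι (genericPoint C) ∈ W := e hη
  have hgW : genericPoint X ∈ W := (generic_specializes X _).mem_open W.isOpen hηW
  have h1 : algebraMap Γ(X, W) X.functionField b =
      toFF X (ι (genericPoint C)) (X.presheaf.germ W (ι (genericPoint C)) hηW b) := by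
    rw [toFF_germ_eq W hηW hgW, toFF_generic]
    rfl
  rw [h1, resFF_toFF]
  show (ι.stalkMap (genericPoint C)).hom (X.presheaf.germ W (ι (genericPoint C)) hηW b) = _
  rw [Scheme.Hom.germ_stalkMap_apply]
  show _ = C.presheaf.germ U (genericPoint C) hη ((ι.appLE W U e).hom b)
  rw [Scheme.Hom.appLE]
  exact (C.presheaf.germ_res_apply (homOfLE e) (genericPoint C) hη (ι.app W b)).symm

include hW hU in
/-- **the closed fibre of the chart as a `FibData`** -/
def fibData (hsurj : Function.Surjective (ι.appLE W U e).hom) :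
    FibData Γ(X, W) X.functionField Γ(C, U) C.functionField where
  𝔞 := fibPrime ι e
  π := (ι.appLE W U e).hom
  π_surj := hsurj
  ker_π := rfl
  res := resFF ι
  res_add := fun x hx y hy => resFF_add ι ((mem_locSub_fibPrime_iff ι hW hU e x).mp hx)
    ((mem_locSub_fibPrime_iff ι hW hU e y).mp hy)
  res_mul := fun x hx y hy => resFF_mul ι ((mem_locSub_fibPrime_iff ι hW hU e x).mp hx)
    ((mem_locSub_fibPrime_iff ι hW hU e y).mp hy)
  res_algebraMap := resFF_algebraMap ι e

variable (hsurj : Function.Surjective (ι.appLE W U e).hom)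

/-- **the fibre family is the ratio family of the pulled-back Cartier divisor** -/
theorem fibre_ratioFam_r (𝔏 : CDiv X) (𝔮 : PrimeSpectrum Γ(C, U)) :
    ((fibData ι hW hU e hsurj).fibre (ratioFam hW 𝔏)).r 𝔮 =
      (ratioFam hU (CDiv.pull ι 𝔏)).r 𝔮 := by
  rw [FibData.fibre_r, ratioFam_r, ratioFam_r, ratioFam_r, pull_t_val,
    Units.val_div_eq_div_val]
  show resFF ι (((𝔏.t (hW.fromSpec (PrimeSpectrum.comap (ι.appLE W U e).hom 𝔮)) :
    (X.functionField)ˣ) : X.functionField) / ((𝔏.t (hW.fromSpec (fibPrime ι e)) :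
    (X.functionField)ˣ) : X.functionField)) = _
  rw [fromSpec_comap ι hW hU e, fromSpec_fibPrime ι hW hU e]

theorem fibre_ratioFam_lam (𝔏 : CDiv X) (S : Set (PrimeSpectrum Γ(C, U))) :
    ((fibData ι hW hU e hsurj).fibre (ratioFam hW 𝔏)).lam S =
      (ratioFam hU (CDiv.pull ι 𝔏)).lam S := by
  ext h
  rw [RatioFam.mem_lam_iff, RatioFam.mem_lam_iff]
  refine forall₂_congr fun 𝔮 _ => ?_
  rw [fibre_ratioFam_r]

/-- the reduction to the fibre, in scheme language -/
theorem fibData_rho (𝔏 : CDiv X) (h : X.functionField) :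
    (fibData ι hW hU e hsurj).rho (ratioFam hW 𝔏) h =
      resFF ι (h * ((𝔏.t (ι (genericPoint C)) : (X.functionField)ˣ) : X.functionField)) := by
  show resFF ι (h * ((𝔏.t (hW.fromSpec (fibPrime ι e)) : (X.functionField)ˣ) :
    X.functionField)) = _
  rw [fromSpec_fibPrime ι hW hU e]

end Fib

end Fermat.Agent.S26lib.RelCurve
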