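/-
S26lib / RelCurve / LocBase  (helper3)  --  Project K (S26), cube kernel, geometric bridge,
algebraic core

**One affine chart of a family over a local base.**  `𝒪'` is the coordinate ring of an affine open
`T'` of the parameter variety, `𝔪'` the maximal ideal of the point `t₀`, `𝒪 = 𝒪'_𝔪'`; `B` is the
coordinate ring of the chart `U × T'`, a domain with fraction field `𝒦`, `R : RatioFam B 𝒦` a
Cartier divisor.  The module of sections over `U × Spec 𝒪` is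
`lamO = R.lam {𝔮 | 𝔮 ∩ 𝒪' ⊆ 𝔪'}`, an `𝒪`-submodule of `𝒦`.

* `RatioFam.exists_mem_mul_mem_lam` : clearing denominators along a multiplicative set;
* `mem_lamO_iff_exists` : `lamO = (𝒪' ∖ 𝔪')⁻¹ • R.lam univ`;
* `exists_pow_mul_mem_lamO` : sections over a basic open;
* `mem_smul_lamO_of_rho_eq_zero` : the kernel of the reduction to the closed fibre is `𝔪 • lamO`;
* `rho_mem_fibre_lam`, `exists_mem_lamO_rho_eq` : the reduction is onto the sections of the fibre;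
* `flat_lamO` : `lamO` is flat over `𝒪`;  `eq_zero_of_forall_mem_pow_smul_lamO` : it is separated;
* `exists_finset_lamO_le` : finite generation over `𝒪[x]`.
-/
import Fermat.Agent.S26lib.RelCurve.FibAlg

set_option autoImplicit false
set_option linter.unusedSectionVars false

namespace Fermat.Agent.S26lib.RelCurve

open Submodule

section Monoid

variable {B : Type*} [CommRing B] [IsDomain B] {𝒦 : Type*} [Field 𝒦] [Algebra B 𝒦]
  [IsFractionRing B 𝒦] (R : RatioFam B 𝒦)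

/-- **clearing denominators along a multiplicative set**: a rational section which is regular at
all primes disjoint from `M` becomes a global section after multiplication by an element of `M` -/
theorem RatioFam.exists_mem_mul_mem_lam (M : Submonoid B) {h : 𝒦}
    (hh : ∀ 𝔮 : PrimeSpectrum B, Disjoint (𝔮.asIdeal : Set B) (M : Set B) →
      h * R.r 𝔮 ∈ locSub 𝒦 𝔮.asIdeal) :
    ∃ m ∈ M, algebraMap B 𝒦 m * h ∈ R.lam Set.univ := by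
  classical
  let I : Ideal B :=
    { carrier := {c | algebraMap B 𝒦 c * h ∈ R.lam Set.univ}
      add_mem' := by
        intro c c' hc hc'
        show algebraMap B 𝒦 (c + c') * h ∈ R.lam Set.univ
        rw [map_add, add_mul]; exact Submodule.add_mem _ hc hc'
      zero_mem' := by
        show algebraMap B 𝒦 0 * h ∈ R.lam Set.univ
        rw [map_zero, zero_mul]; exact Submodule.zero_mem _
      smul_mem' := by
        intro a c hc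
        show algebraMap B 𝒦 (a • c) * h ∈ R.lam Set.univ
        rw [smul_eq_mul, map_mul, mul_assoc, ← Algebra.smul_def]
        exact Submodule.smul_mem _ a hc }
  by_contra hcon
  have hdisj : Disjoint (I : Set B) (M : Set B) := by
    rw [Set.disjoint_left]
    intro c hc hcM
    exact hcon ⟨c, hcM, hc⟩
  obtain ⟨𝔮, h𝔮, hI𝔮, h𝔮M⟩ := Ideal.exists_le_prime_disjoint I M hdisj
  let 𝔮' : PrimeSpectrum B := ⟨𝔮, h𝔮⟩
  obtain ⟨a, s, hs, has⟩ := hh 𝔮' h𝔮M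
  obtain ⟨f, hf, hcoh⟩ := R.coh 𝔮'
  obtain ⟨N, hN⟩ := R.exists_pow_mul_mem f (h := algebraMap B 𝒦 s * h) (fun 𝔭 h𝔭 => by
    have e : algebraMap B 𝒦 s * h * R.r 𝔭 = algebraMap B 𝒦 a * (R.r 𝔭 / R.r 𝔮') := by
      rw [← has]
      have := R.r_ne 𝔮'
      field_simp
    rw [e]
    exact Subring.mul_mem _ (algebraMap_mem_locSub _ a) (hcoh 𝔭 h𝔭).1)
  have hmem : f ^ N * s ∈ I := by
    show algebraMap B 𝒦 (f ^ N * s) * h ∈ R.lam Set.univ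
    rw [map_mul, map_pow, mul_assoc]; exact hN
  have := hI𝔮 hmem
  rcases h𝔮.mem_or_mem this with h1 | h1
  · exact hf (h𝔮.mem_of_pow_mem _ h1)
  · exact hs h1

/-- the same over a basic open -/
theorem RatioFam.exists_mem_pow_mul_mem_lam (M : Submonoid B) (f : B) {h : 𝒦}
    (hh : ∀ 𝔮 : PrimeSpectrum B, Disjoint (𝔮.asIdeal : Set B) (M : Set B) → f ∉ 𝔮.asIdeal →
      h * R.r 𝔮 ∈ locSub 𝒦 𝔮.asIdeal) :
    ∃ m ∈ M, ∃ n : ℕ, algebraMap B 𝒦 (m * f ^ n) * h ∈ R.lam Set.univ := by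
  obtain ⟨m', hm', hmem⟩ := R.exists_mem_mul_mem_lam (M ⊔ Submonoid.powers f) (h := h)
    (fun 𝔮 h𝔮 => by
      apply hh 𝔮
      · exact h𝔮.mono_right (show (M : Set B) ⊆ ((M ⊔ Submonoid.powers f : Submonoid B) : Set B)
          from fun x hx => (le_sup_left : M ≤ M ⊔ Submonoid.powers f) hx)
      · intro hf
        have h1 : f ∈ ((M ⊔ Submonoid.powers f : Submonoid B) : Set B) :=
          (le_sup_right : Submonoid.powers f ≤ M ⊔ Submonoid.powers f)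
            (Submonoid.mem_powers f)
        exact Set.disjoint_left.mp h𝔮 hf h1)
  obtain ⟨m, hm, z, hz, rfl⟩ := Submonoid.mem_sup.mp hm'
  obtain ⟨n, rfl⟩ := (Submonoid.mem_powers_iff z f).mp hz
  exact ⟨m, hm, n, hmem⟩

end Monoid

section Base

variable {𝒪' : Type*} [CommRing 𝒪'] (𝔪' : Ideal 𝒪') [h𝔪' : 𝔪'.IsPrime]
  {B : Type*} [CommRing B] [IsDomain B] [Algebra 𝒪' B]
  {𝒦 : Type*} [Field 𝒦] [Algebra B 𝒦] [IsFractionRing B 𝒦]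
  [Algebra 𝒪' 𝒦] [IsScalarTower 𝒪' B 𝒦]

/-- the primes of `B` over `Spec 𝒪'_𝔪'` -/
def overBase (B : Type*) [CommRing B] [Algebra 𝒪' B] : Set (PrimeSpectrum B) :=
  {𝔮 | 𝔮.asIdeal.comap (algebraMap 𝒪' B) ≤ 𝔪'}

theorem mem_overBase_iff {𝔮 : PrimeSpectrum B} :
    𝔮 ∈ overBase 𝔪' B ↔ ∀ s : 𝒪', s ∉ 𝔪' → algebraMap 𝒪' B s ∉ 𝔮.asIdeal := by
  constructor
  · intro h s hs hmem
    exact hs (h hmem)
  · intro h s hs
    by_contra hs'
    exact h s hs' hs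

/-- the image of `𝒪' ∖ 𝔪'` in `B` -/
def baseMonoid (B : Type*) [CommRing B] [Algebra 𝒪' B] : Submonoid B :=
  Submonoid.map (algebraMap 𝒪' B) 𝔪'.primeCompl

theorem disjoint_baseMonoid_iff {𝔮 : PrimeSpectrum B} :
    Disjoint (𝔮.asIdeal : Set B) (baseMonoid 𝔪' B : Set B) ↔ 𝔮 ∈ overBase 𝔪' B := by
  rw [mem_overBase_iff, Set.disjoint_left]
  constructor
  · intro h s hs hmem
    exact h hmem ⟨s, hs, rfl⟩
  · rintro h _ hmem ⟨s, hs, rfl⟩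
    exact h s hs hmem

variable (𝒪 : Type*) [CommRing 𝒪] [Algebra 𝒪' 𝒪] [IsLocalization.AtPrime 𝒪 𝔪']
  [Algebra 𝒪 𝒦] [IsScalarTower 𝒪' 𝒪 𝒦]

theorem algebraMap_mem_locSub_of_mem_overBase (a : 𝒪) {𝔮 : PrimeSpectrum B}
    (h𝔮 : 𝔮 ∈ overBase 𝔪' B) : algebraMap 𝒪 𝒦 a ∈ locSub 𝒦 𝔮.asIdeal := by
  obtain ⟨⟨a', s⟩, hs⟩ := IsLocalization.surj 𝔪'.primeCompl a
  refine ⟨algebraMap 𝒪' B a', algebraMap 𝒪' B s, (mem_overBase_iff 𝔪').mp h𝔮 s s.2, ?_⟩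
  rw [← IsScalarTower.algebraMap_apply 𝒪' B 𝒦, ← IsScalarTower.algebraMap_apply 𝒪' B 𝒦,
    IsScalarTower.algebraMap_apply 𝒪' 𝒪 𝒦, IsScalarTower.algebraMap_apply 𝒪' 𝒪 𝒦, ← map_mul]
  exact congrArg _ hs

variable (R : RatioFam B 𝒦)

/-- **sections over `U × Spec 𝒪`** -/
def lamO : Submodule 𝒪 𝒦 where
  carrier := R.lam (overBase 𝔪' B)
  add_mem' := fun ha hb => Submodule.add_mem _ ha hb
  zero_mem' := Submodule.zero_mem _
  smul_mem' := by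
    intro a h hh 𝔮 h𝔮
    rw [Algebra.smul_def, mul_assoc]
    exact Subring.mul_mem _ (algebraMap_mem_locSub_of_mem_overBase 𝔪' 𝒪 a h𝔮) (hh 𝔮 h𝔮)

theorem mem_lamO_iff {h : 𝒦} :
    h ∈ lamO 𝔪' 𝒪 R ↔ ∀ 𝔮 ∈ overBase 𝔪' B, h * R.r 𝔮 ∈ locSub 𝒦 𝔮.asIdeal := Iff.rfl

theorem lam_univ_le_lamO {h : 𝒦} (hh : h ∈ R.lam Set.univ) : h ∈ lamO 𝔪' 𝒪 R :=
  fun 𝔮 _ => hh 𝔮 (Set.mem_univ _)

/-- **`lamO` is the localisation of the module of global sections** -/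
theorem mem_lamO_iff_exists {h : 𝒦} :
    h ∈ lamO 𝔪' 𝒪 R ↔ ∃ s : 𝒪', s ∉ 𝔪' ∧ algebraMap 𝒪' 𝒦 s * h ∈ R.lam Set.univ := by
  constructor
  · intro hh
    obtain ⟨m, ⟨s, hs, rfl⟩, hmem⟩ := R.exists_mem_mul_mem_lam (baseMonoid 𝔪' B) (h := h)
      (fun 𝔮 h𝔮 => hh 𝔮 ((disjoint_baseMonoid_iff 𝔪').mp h𝔮))
    refine ⟨s, hs, ?_⟩
    rwa [IsScalarTower.algebraMap_apply 𝒪' B 𝒦]
  · rintro ⟨s, hs, hmem⟩ 𝔮 h𝔮
    have hs𝔮 : algebraMap 𝒪' B s ∉ 𝔮.asIdeal := (mem_overBase_iff 𝔪').mp h𝔮 s hs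
    have hne : algebraMap B 𝒦 (algebraMap 𝒪' B s) ≠ 0 := by
      intro h0
      have : algebraMap 𝒪' B s = 0 := (IsFractionRing.injective B 𝒦) (by rw [h0, map_zero])
      exact hs𝔮 (this ▸ 𝔮.asIdeal.zero_mem)
    have e : h * R.r 𝔮 = (algebraMap B 𝒦 (algebraMap 𝒪' B s))⁻¹ *
        (algebraMap 𝒪' 𝒦 s * h * R.r 𝔮) := by
      rw [IsScalarTower.algebraMap_apply 𝒪' B 𝒦]
      field_simp
    rw [e]
    exact Subring.mul_mem _ (inv_algebraMap_mem_locSub hs𝔮) (hmem 𝔮 (Set.mem_univ _))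

/-- **sections over a basic open** of `U × Spec 𝒪` -/
theorem exists_pow_mul_mem_lamO (f : B) {h : 𝒦}
    (hh : ∀ 𝔮 ∈ overBase 𝔪' B, f ∉ 𝔮.asIdeal → h * R.r 𝔮 ∈ locSub 𝒦 𝔮.asIdeal) :
    ∃ n : ℕ, algebraMap B 𝒦 f ^ n * h ∈ lamO 𝔪' 𝒪 R := by
  obtain ⟨m, ⟨s, hs, rfl⟩, n, hmem⟩ := R.exists_mem_pow_mul_mem_lam (baseMonoid 𝔪' B) f (h := h)
    (fun 𝔮 h𝔮 => hh 𝔮 ((disjoint_baseMonoid_iff 𝔪').mp h𝔮))
  refine ⟨n, (mem_lamO_iff_exists 𝔪' 𝒪 R).mpr ⟨s, hs, ?_⟩⟩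
  have e : algebraMap 𝒪' 𝒦 s * (algebraMap B 𝒦 f ^ n * h) =
      algebraMap B 𝒦 (algebraMap 𝒪' B s * f ^ n) * h := by
    rw [IsScalarTower.algebraMap_apply 𝒪' B 𝒦, map_mul, map_pow]; ring
  rw [e]
  exact hmem

end Base

section Fibre

open IsLocalRing

variable {𝒪' : Type*} [CommRing 𝒪'] (𝔪' : Ideal 𝒪') [h𝔪' : 𝔪'.IsMaximal]
  {B : Type*} [CommRing B] [IsDomain B] [Algebra 𝒪' B]
  {𝒦 : Type*} [Field 𝒦] [Algebra B 𝒦] [IsFractionRing B 𝒦]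
  [Algebra 𝒪' 𝒦] [IsScalarTower 𝒪' B 𝒦]
  (𝒪 : Type*) [CommRing 𝒪] [IsLocalRing 𝒪] [Algebra 𝒪' 𝒪] [IsLocalization.AtPrime 𝒪 𝔪']
  [Algebra 𝒪 𝒦] [IsScalarTower 𝒪' 𝒪 𝒦]
  (R : RatioFam B 𝒦)
  {Rb : Type*} [CommRing Rb] [IsDomain Rb] {Fc : Type*} [Field Fc] [Algebra Rb Fc]
  [IsFractionRing Rb Fc] (F : FibData B 𝒦 Rb Fc)
  (h𝔞 : F.𝔞.asIdeal = Ideal.map (algebraMap 𝒪' B) 𝔪')

include h𝔞

/-- the primes of the closed fibre lie over `Spec 𝒪` -/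
theorem mem_overBase_of_le {𝔮 : PrimeSpectrum B} (h𝔮 : F.𝔞.asIdeal ≤ 𝔮.asIdeal) :
    𝔮 ∈ overBase 𝔪' B := by
  have h1 : 𝔪' ≤ 𝔮.asIdeal.comap (algebraMap 𝒪' B) := by
    refine le_trans Ideal.le_comap_map (Ideal.comap_mono ?_)
    rw [← h𝔞]; exact h𝔮
  have h2 : 𝔮.asIdeal.comap (algebraMap 𝒪' B) ≠ ⊤ := (Ideal.IsPrime.comap _).ne_top
  exact (h𝔪'.eq_of_le h2 h1).ge

theorem 𝔞_mem_overBase : F.𝔞 ∈ overBase 𝔪' B := mem_overBase_of_le 𝔪' F h𝔞 le_rfl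

theorem up_mem_overBase (𝔮 : PrimeSpectrum Rb) : F.up 𝔮 ∈ overBase 𝔪' B :=
  mem_overBase_of_le 𝔪' F h𝔞 (F.𝔞_le_up 𝔮)

theorem mul_r_mem_of_mem_lamO {h : 𝒦} (hh : h ∈ lamO 𝔪' 𝒪 R) :
    h * R.r F.𝔞 ∈ locSub 𝒦 F.𝔞.asIdeal := hh F.𝔞 (𝔞_mem_overBase 𝔪' F h𝔞)

theorem rho_add_of_mem_lamO {h h' : 𝒦} (hh : h ∈ lamO 𝔪' 𝒪 R) (hh' : h' ∈ lamO 𝔪' 𝒪 R) :
    F.rho R (h + h') = F.rho R h + F.rho R h' := by
  unfold FibData.rho
  rw [add_mul]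
  exact F.res_add _ (mul_r_mem_of_mem_lamO 𝔪' 𝒪 R F h𝔞 hh) _ (mul_r_mem_of_mem_lamO 𝔪' 𝒪 R F h𝔞 hh')

theorem rho_smul_of_mem_lamO (a : 𝒪) {h : 𝒦} (hh : h ∈ lamO 𝔪' 𝒪 R) :
    F.rho R (a • h) = F.res (algebraMap 𝒪 𝒦 a) * F.rho R h := by
  unfold FibData.rho
  rw [Algebra.smul_def, mul_assoc]
  exact F.res_mul _ (algebraMap_mem_locSub_of_mem_overBase 𝔪' 𝒪 a (𝔞_mem_overBase 𝔪' F h𝔞)) _
    (mul_r_mem_of_mem_lamO 𝔪' 𝒪 R F h𝔞 hh)

theorem rho_neg_of_mem_lamO {h : 𝒦} (hh : h ∈ lamO 𝔪' 𝒪 R) : F.rho R (-h) = -F.rho R h := by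
  have h1 := rho_smul_of_mem_lamO 𝔪' 𝒪 R F h𝔞 (-1 : 𝒪) hh
  rw [neg_one_smul, map_neg, map_one] at h1
  have h2 : F.res (-1 : 𝒦) = -1 := by
    have := F.res_algebraMap (-1)
    rwa [map_neg, map_one, map_neg, map_one, map_neg, map_one] at this
  rw [h1, h2, neg_one_mul]

theorem rho_sub_of_mem_lamO {h h' : 𝒦} (hh : h ∈ lamO 𝔪' 𝒪 R) (hh' : h' ∈ lamO 𝔪' 𝒪 R) :
    F.rho R (h - h') = F.rho R h - F.rho R h' := by
  rw [sub_eq_add_neg, rho_add_of_mem_lamO 𝔪' 𝒪 R F h𝔞 hh ((lamO 𝔪' 𝒪 R).neg_mem hh'),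
    rho_neg_of_mem_lamO 𝔪' 𝒪 R F h𝔞 hh', sub_eq_add_neg]

/-- elements of the maximal ideal of `𝒪` vanish on the closed fibre -/
theorem res_algebraMap_eq_zero {a : 𝒪} (ha : a ∈ maximalIdeal 𝒪) :
    F.res (algebraMap 𝒪 𝒦 a) = 0 := by
  rw [← IsLocalization.AtPrime.map_eq_maximalIdeal 𝔪' 𝒪,
    IsLocalization.mem_map_algebraMap_iff 𝔪'.primeCompl] at ha
  obtain ⟨⟨m, s⟩, hms⟩ := ha
  have hs𝔞 : algebraMap 𝒪' B s ∉ F.𝔞.asIdeal :=
    (mem_overBase_iff 𝔪').mp (𝔞_mem_overBase 𝔪' F h𝔞) s s.2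
  have hm𝔞 : algebraMap 𝒪' B m ∈ F.𝔞.asIdeal := by
    rw [h𝔞]; exact Ideal.mem_map_of_mem _ m.2
  have hx : algebraMap 𝒪 𝒦 a * algebraMap B 𝒦 (algebraMap 𝒪' B s) =
      algebraMap B 𝒦 (algebraMap 𝒪' B m) := by
    rw [← IsScalarTower.algebraMap_apply 𝒪' B 𝒦, ← IsScalarTower.algebraMap_apply 𝒪' B 𝒦,
      IsScalarTower.algebraMap_apply 𝒪' 𝒪 𝒦, IsScalarTower.algebraMap_apply 𝒪' 𝒪 𝒦, ← map_mul]
    exact congrArg _ hms
  rw [F.res_eq_div hs𝔞 hx, (F.π_eq_zero_iff _).mpr hm𝔞, map_zero, zero_div]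

theorem rho_smul_eq_zero {a : 𝒪} (ha : a ∈ maximalIdeal 𝒪) {h : 𝒦} (hh : h ∈ lamO 𝔪' 𝒪 R) :
    F.rho R (a • h) = 0 := by
  rw [rho_smul_of_mem_lamO 𝔪' 𝒪 R F h𝔞 a hh, res_algebraMap_eq_zero 𝔪' 𝒪 F h𝔞 ha, zero_mul]

/-- the reduction of a section over `U × Spec 𝒪` is a global section of the fibre family -/
theorem rho_mem_fibre_lam {h : 𝒦} (hh : h ∈ lamO 𝔪' 𝒪 R) :
    F.rho R h ∈ (F.fibre R).lam Set.univ := by
  intro 𝔮 _
  obtain ⟨a1, a2⟩ := F.ratio_mem R (F.up 𝔮) (F.𝔞_le_up 𝔮)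
  have h1 := hh (F.up 𝔮) (up_mem_overBase 𝔪' F h𝔞 𝔮)
  rw [FibData.fibre_r]
  unfold FibData.rho
  rw [← F.res_mul _ (mul_r_mem_of_mem_lamO 𝔪' 𝒪 R F h𝔞 hh) _ a1]
  have : h * R.r F.𝔞 * (R.r (F.up 𝔮) / R.r F.𝔞) = h * R.r (F.up 𝔮) := by
    have := R.r_ne F.𝔞
    field_simp
  rw [this]
  exact F.res_mem_locSub 𝔮 h1

/-- the reduction is onto the global sections of the fibre family -/
theorem exists_mem_lamO_rho_eq {f : Fc} (hf : f ∈ (F.fibre R).lam Set.univ) :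
    ∃ h ∈ lamO 𝔪' 𝒪 R, F.rho R h = f := by
  obtain ⟨h, hh, hρ⟩ := F.exists_rho_eq R hf
  exact ⟨h, lam_univ_le_lamO 𝔪' 𝒪 R hh, hρ⟩

/-- `𝔞 • (global sections) ⊆ 𝔪 • lamO` -/
theorem smul_lam_le_smul_lamO {h : 𝒦} (hh : h ∈ F.𝔞.asIdeal • R.lam Set.univ) :
    h ∈ maximalIdeal 𝒪 • lamO 𝔪' 𝒪 R := by
  refine Submodule.smul_induction_on hh ?_ (fun x y hx hy => Submodule.add_mem _ hx hy)
  intro b hb l hl
  rw [h𝔞, Ideal.map] at hb
  have key : ∀ l ∈ R.lam Set.univ, b • l ∈ maximalIdeal 𝒪 • lamO 𝔪' 𝒪 R := by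
    refine Submodule.span_induction
      (p := fun b _ => ∀ l ∈ R.lam Set.univ, b • l ∈ maximalIdeal 𝒪 • lamO 𝔪' 𝒪 R)
      ?_ ?_ ?_ ?_ hb
    · rintro _ ⟨m, hm, rfl⟩ l hl
      have e : algebraMap 𝒪' B m • l = algebraMap 𝒪' 𝒪 m • l := by
        rw [Algebra.smul_def, Algebra.smul_def, ← IsScalarTower.algebraMap_apply 𝒪' B 𝒦,
          ← IsScalarTower.algebraMap_apply 𝒪' 𝒪 𝒦]
      rw [e]
      refine Submodule.smul_mem_smul ?_ (lam_univ_le_lamO 𝔪' 𝒪 R hl)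
      rw [← IsLocalization.AtPrime.map_eq_maximalIdeal 𝔪' 𝒪]
      exact Ideal.mem_map_of_mem _ hm
    · intro l _
      rw [zero_smul]; exact Submodule.zero_mem _
    · intro x y _ _ hx hy l hl
      rw [add_smul]; exact Submodule.add_mem _ (hx l hl) (hy l hl)
    · intro c x _ hx l hl
      have e : (c • x) • l = x • (c • l) := by
        rw [smul_eq_mul, mul_comm, mul_smul]
      rw [e]
      exact hx _ (Submodule.smul_mem _ c hl)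
  exact key l hl

/-- **the kernel of the reduction to the closed fibre is `𝔪 • lamO`** -/
theorem mem_smul_lamO_of_rho_eq_zero {h : 𝒦} (hh : h ∈ lamO 𝔪' 𝒪 R) (h0 : F.rho R h = 0) :
    h ∈ maximalIdeal 𝒪 • lamO 𝔪' 𝒪 R := by
  obtain ⟨s, hs, hmem⟩ := (mem_lamO_iff_exists 𝔪' 𝒪 R).mp hh
  have hsu : IsUnit (algebraMap 𝒪' 𝒪 s) :=
    IsLocalization.map_units 𝒪 (⟨s, hs⟩ : 𝔪'.primeCompl)
  have e1 : algebraMap 𝒪' 𝒦 s * h = algebraMap 𝒪' 𝒪 s • h := by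
    rw [Algebra.smul_def, ← IsScalarTower.algebraMap_apply 𝒪' 𝒪 𝒦]
  have h0' : F.rho R (algebraMap 𝒪' 𝒦 s * h) = 0 := by
    rw [e1, rho_smul_of_mem_lamO 𝔪' 𝒪 R F h𝔞 _ hh, h0, mul_zero]
  have h1 := smul_lam_le_smul_lamO 𝔪' 𝒪 R F h𝔞 (F.mem_smul_of_rho_eq_zero R hmem h0')
  rw [e1] at h1
  obtain ⟨u, hu⟩ := hsu
  have h2 := Submodule.smul_mem _ (↑u⁻¹ : 𝒪) h1
  rwa [smul_smul, ← hu, Units.inv_mul, one_smul] at h2

end Fibre

section Flat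

variable {𝒪' : Type*} [CommRing 𝒪'] (𝔪' : Ideal 𝒪') [h𝔪' : 𝔪'.IsPrime]
  {B : Type*} [CommRing B] [IsDomain B] [Algebra 𝒪' B]
  {𝒦 : Type*} [Field 𝒦] [Algebra B 𝒦] [IsFractionRing B 𝒦]
  [Algebra 𝒪' 𝒦] [IsScalarTower 𝒪' B 𝒦]
  (𝒪 : Type*) [CommRing 𝒪] [Algebra 𝒪' 𝒪] [IsLocalization.AtPrime 𝒪 𝔪']
  [Algebra 𝒪 𝒦] [IsScalarTower 𝒪' 𝒪 𝒦]
  (R : RatioFam B 𝒦)

/-- the inclusion of the global sections into the sections over `U × Spec 𝒪` -/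
def lamInclusion : (R.lam Set.univ) →ₗ[𝒪'] (lamO 𝔪' 𝒪 R) where
  toFun h := ⟨h.1, lam_univ_le_lamO 𝔪' 𝒪 R h.2⟩
  map_add' _ _ := rfl
  map_smul' s h := by
    apply Subtype.ext
    show s • (h : 𝒦) = s • (h : 𝒦)
    rfl

theorem isLocalizedModule_lamInclusion :
    IsLocalizedModule 𝔪'.primeCompl (lamInclusion 𝔪' 𝒪 R) where
  map_units := (isLocalizedModule_id 𝔪'.primeCompl (lamO 𝔪' 𝒪 R) 𝒪).map_units
  surj := by
    rintro ⟨y, hy⟩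
    obtain ⟨s, hs, hmem⟩ := (mem_lamO_iff_exists 𝔪' 𝒪 R).mp hy
    refine ⟨(⟨algebraMap 𝒪' 𝒦 s * y, hmem⟩, ⟨s, hs⟩), ?_⟩
    apply Subtype.ext
    show s • y = algebraMap 𝒪' 𝒦 s * y
    rw [Algebra.smul_def]
  exists_of_eq := by
    intro x₁ x₂ h
    refine ⟨1, ?_⟩
    rw [one_smul, one_smul]
    apply Subtype.ext
    exact congrArg (fun z : lamO 𝔪' 𝒪 R => (z : 𝒦)) h

/-- **flatness**: if `B` is flat over `𝒪'` then the module of sections over `U × Spec 𝒪` is flat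
over `𝒪` -/
theorem flat_lamO [Module.Flat 𝒪' B] : Module.Flat 𝒪 (lamO 𝔪' 𝒪 R) := by
  have h0 : Module.Projective B (R.lam Set.univ) := R.projective_lam
  have h1 : Module.Flat B (R.lam Set.univ) := inferInstance
  have h2 : Module.Flat 𝒪' (R.lam Set.univ) := Module.Flat.trans 𝒪' B _
  have h3 := isLocalizedModule_lamInclusion 𝔪' 𝒪 R
  exact Module.Flat.of_isLocalizedModule 𝒪 𝔪'.primeCompl (lamInclusion 𝔪' 𝒪 R)

end Flat

section Krull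

/-- **Krull's intersection theorem for symbolic powers**: in a noetherian domain an element which
lies in `𝔞 ^ n B_𝔞` for all `n` vanishes -/
theorem eq_zero_of_forall_exists_mem_pow {B : Type*} [CommRing B] [IsDomain B]
    [IsNoetherianRing B] (𝔞 : Ideal B) [h𝔞 : 𝔞.IsPrime] (a₁ s₁ : B)
    (h : ∀ n : ℕ, ∃ a ∈ 𝔞 ^ n, ∃ s, s ∉ 𝔞 ∧ a₁ * s = a * s₁) : a₁ = 0 := by
  let L := Localization.AtPrime 𝔞
  have hmem : ∀ n : ℕ, algebraMap B L a₁ ∈ IsLocalRing.maximalIdeal L ^ n := by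
    intro n
    obtain ⟨a, ha, s, hs, has⟩ := h n
    have hsu : IsUnit (algebraMap B L s) := IsLocalization.map_units L (⟨s, hs⟩ : 𝔞.primeCompl)
    obtain ⟨u, hu⟩ := hsu
    have ha' : algebraMap B L a ∈ IsLocalRing.maximalIdeal L ^ n := by
      rw [← IsLocalization.AtPrime.map_eq_maximalIdeal 𝔞 L, ← Ideal.map_pow]
      exact Ideal.mem_map_of_mem _ ha
    have e : algebraMap B L a₁ = algebraMap B L a * (algebraMap B L s₁ * ↑u⁻¹) := by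
      have h1 : algebraMap B L a₁ * algebraMap B L s = algebraMap B L a * algebraMap B L s₁ := by
        rw [← map_mul, ← map_mul, has]
      calc algebraMap B L a₁ = algebraMap B L a₁ * algebraMap B L s * ↑u⁻¹ := by
            rw [← hu, mul_assoc, Units.mul_inv, mul_one]
        _ = algebraMap B L a * (algebraMap B L s₁ * ↑u⁻¹) := by rw [h1, mul_assoc]
    rw [e]
    exact Ideal.mul_mem_right _ _ ha'
  have hbot : algebraMap B L a₁ ∈ (⨅ i : ℕ, IsLocalRing.maximalIdeal L ^ i : Ideal L) := by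
    rw [Ideal.mem_iInf]; exact hmem
  rw [Ideal.iInf_pow_eq_bot_of_isLocalRing _ (IsLocalRing.maximalIdeal.isMaximal L).ne_top,
    Ideal.mem_bot] at hbot
  have hinj : Function.Injective (algebraMap B L) :=
    IsLocalization.injective L (Ideal.primeCompl_le_nonZeroDivisors 𝔞)
  exact hinj (by rw [hbot, map_zero])

end Krull

section Sep

open IsLocalRing

variable {𝒪' : Type*} [CommRing 𝒪'] (𝔪' : Ideal 𝒪') [h𝔪' : 𝔪'.IsMaximal]
  {B : Type*} [CommRing B] [IsDomain B] [Algebra 𝒪' B]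
  {𝒦 : Type*} [Field 𝒦] [Algebra B 𝒦] [IsFractionRing B 𝒦]
  [Algebra 𝒪' 𝒦] [IsScalarTower 𝒪' B 𝒦]
  (𝒪 : Type*) [CommRing 𝒪] [IsLocalRing 𝒪] [Algebra 𝒪' 𝒪] [IsLocalization.AtPrime 𝒪 𝔪']
  [Algebra 𝒪 𝒦] [IsScalarTower 𝒪' 𝒪 𝒦]
  (R : RatioFam B 𝒦)
  {Rb : Type*} [CommRing Rb] [IsDomain Rb] {Fc : Type*} [Field Fc] [Algebra Rb Fc]
  [IsFractionRing Rb Fc] (F : FibData B 𝒦 Rb Fc)
  (h𝔞 : F.𝔞.asIdeal = Ideal.map (algebraMap 𝒪' B) 𝔪')

include h𝔞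

/-- an element of `𝔪 ^ n • lamO` has order `≥ n` along the closed fibre -/
theorem exists_mem_pow_of_mem_pow_smul_lamO (n : ℕ) {y : 𝒦}
    (hy : y ∈ maximalIdeal 𝒪 ^ n • lamO 𝔪' 𝒪 R) :
    ∃ a ∈ F.𝔞.asIdeal ^ n, ∃ s, s ∉ F.𝔞.asIdeal ∧
      y * R.r F.𝔞 * algebraMap B 𝒦 s = algebraMap B 𝒦 a := by
  refine Submodule.smul_induction_on hy ?_ ?_
  · intro c hc l hl
    rw [← IsLocalization.AtPrime.map_eq_maximalIdeal 𝔪' 𝒪, ← Ideal.map_pow,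
      IsLocalization.mem_map_algebraMap_iff 𝔪'.primeCompl] at hc
    obtain ⟨⟨m, s₀⟩, hms⟩ := hc
    obtain ⟨a₁, s₁, hs₁, h1⟩ := mul_r_mem_of_mem_lamO 𝔪' 𝒪 R F h𝔞 hl
    have hs₀ : algebraMap 𝒪' B s₀ ∉ F.𝔞.asIdeal :=
      (mem_overBase_iff 𝔪').mp (𝔞_mem_overBase 𝔪' F h𝔞) s₀ s₀.2
    refine ⟨algebraMap 𝒪' B m * a₁, ?_, algebraMap 𝒪' B s₀ * s₁, ?_, ?_⟩
    · refine Ideal.mul_mem_right _ _ ?_
      rw [h𝔞, ← Ideal.map_pow]
      exact Ideal.mem_map_of_mem _ m.2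
    · intro hmem
      rcases F.𝔞.isPrime.mem_or_mem hmem with h | h
      · exact hs₀ h
      · exact hs₁ h
    · have hc' : algebraMap 𝒪 𝒦 c * algebraMap B 𝒦 (algebraMap 𝒪' B s₀) =
          algebraMap B 𝒦 (algebraMap 𝒪' B m) := by
        rw [← IsScalarTower.algebraMap_apply 𝒪' B 𝒦, ← IsScalarTower.algebraMap_apply 𝒪' B 𝒦,
          IsScalarTower.algebraMap_apply 𝒪' 𝒪 𝒦, IsScalarTower.algebraMap_apply 𝒪' 𝒪 𝒦,
          ← map_mul]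
        exact congrArg _ hms
      rw [Algebra.smul_def, map_mul, map_mul, ← hc', ← h1]
      ring
  · rintro y y' ⟨a, ha, s, hs, h1⟩ ⟨a', ha', s', hs', h1'⟩
    refine ⟨a * s' + a' * s, ?_, s * s', ?_, ?_⟩
    · exact Ideal.add_mem _ (Ideal.mul_mem_right _ _ ha) (Ideal.mul_mem_right _ _ ha')
    · intro hmem
      rcases F.𝔞.isPrime.mem_or_mem hmem with h | h
      · exact hs h
      · exact hs' h
    · rw [map_add, map_mul, map_mul, map_mul, ← h1, ← h1']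
      ring

/-- **separatedness** of the module of sections over `U × Spec 𝒪` -/
theorem eq_zero_of_forall_mem_pow_smul_lamO [IsNoetherianRing B] {h : 𝒦}
    (hh : ∀ n : ℕ, h ∈ maximalIdeal 𝒪 ^ n • lamO 𝔪' 𝒪 R) : h = 0 := by
  obtain ⟨a₁, -, s₁, hs₁, h1⟩ := exists_mem_pow_of_mem_pow_smul_lamO 𝔪' 𝒪 R F h𝔞 0 (hh 0)
  have hinj := IsFractionRing.injective B 𝒦
  have ha₁ : a₁ = 0 := by
    apply eq_zero_of_forall_exists_mem_pow F.𝔞.asIdeal a₁ s₁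
    intro n
    obtain ⟨a, ha, s, hs, h2⟩ := exists_mem_pow_of_mem_pow_smul_lamO 𝔪' 𝒪 R F h𝔞 n (hh n)
    refine ⟨a, ha, s, hs, hinj ?_⟩
    rw [map_mul, map_mul, ← h1, ← h2]
    ring
  rw [ha₁, map_zero] at h1
  have hs₁0 : algebraMap B 𝒦 s₁ ≠ 0 := by
    intro h0
    have : s₁ = 0 := hinj (by rw [h0, map_zero])
    exact hs₁ (this ▸ F.𝔞.asIdeal.zero_mem)
  have h2 : h * R.r F.𝔞 = 0 := (mul_eq_zero.mp h1).resolve_right hs₁0
  exact (mul_eq_zero.mp h2).resolve_right (R.r_ne F.𝔞)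

end Sep

section Gen

variable {𝒪' : Type*} [CommRing 𝒪'] (𝔪' : Ideal 𝒪') [h𝔪' : 𝔪'.IsPrime]
  {B : Type*} [CommRing B] [IsDomain B] [Algebra 𝒪' B]
  {𝒦 : Type*} [Field 𝒦] [Algebra B 𝒦] [IsFractionRing B 𝒦]
  [Algebra 𝒪' 𝒦] [IsScalarTower 𝒪' B 𝒦]
  (𝒪 : Type*) [CommRing 𝒪] [Algebra 𝒪' 𝒪] [IsLocalization.AtPrime 𝒪 𝔪']
  [Algebra 𝒪 𝒦] [IsScalarTower 𝒪' 𝒪 𝒦]
  (R : RatioFam B 𝒦)

/-- **finite generation over `𝒪[x]`**: if `B` is a finite module over `𝒪'[x]` then the sections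
over `U × Spec 𝒪` are generated, as an `𝒪`-module, by the `x ^ j e`, `e` in a finite set of global
sections -/
theorem exists_finset_lamO_le (x : B)
    (hfin : (Polynomial.eval₂RingHom (algebraMap 𝒪' B) x).Finite) :
    ∃ S : Finset 𝒦, (∀ e ∈ S, e ∈ R.lam Set.univ) ∧ ∀ h ∈ lamO 𝔪' 𝒪 R,
      h ∈ Submodule.span 𝒪 {z : 𝒦 | ∃ e ∈ S, ∃ j : ℕ, z = algebraMap B 𝒦 x ^ j * e} := by
  classical
  set φ := Polynomial.eval₂RingHom (algebraMap 𝒪' B) x with hφ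
  let _ : Algebra (Polynomial 𝒪') B := φ.toAlgebra
  have hfin' : Module.Finite (Polynomial 𝒪') B := hfin
  obtain ⟨bs, hbs⟩ := hfin'.fg_top
  obtain ⟨ls, hls⟩ := R.fg_lam
  let S : Finset 𝒦 := (bs ×ˢ ls).image fun bl => algebraMap B 𝒦 bl.1 * bl.2
  have hlsmem : ∀ l ∈ ls, l ∈ R.lam Set.univ := fun l hl => by
    rw [← hls]; exact Submodule.subset_span hl
  refine ⟨S, ?_, ?_⟩
  · intro e he
    obtain ⟨⟨b, l⟩, hbl, rfl⟩ := Finset.mem_image.mp he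
    have hl : l ∈ ls := (Finset.mem_product.mp hbl).2
    show algebraMap B 𝒦 b * l ∈ R.lam Set.univ
    rw [← Algebra.smul_def]
    exact Submodule.smul_mem _ b (hlsmem l hl)
  set N : Submodule 𝒪 𝒦 :=
    Submodule.span 𝒪 {z : 𝒦 | ∃ e ∈ S, ∃ j : ℕ, z = algebraMap B 𝒦 x ^ j * e} with hN
  -- `N` is stable under multiplication by `x`
  have hx : ∀ y ∈ N, algebraMap B 𝒦 x * y ∈ N := by
    intro y hy
    refine Submodule.span_induction (p := fun y _ => algebraMap B 𝒦 x * y ∈ N) ?_ ?_ ?_ ?_ hy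
    · rintro _ ⟨e, he, j, rfl⟩
      refine Submodule.subset_span ⟨e, he, j + 1, ?_⟩
      rw [pow_succ]; ring
    · rw [mul_zero]; exact Submodule.zero_mem _
    · intro u v _ _ hu hv
      rw [mul_add]; exact Submodule.add_mem _ hu hv
    · intro a u _ hu
      rw [mul_smul_comm]; exact Submodule.smul_mem _ a hu
  -- and under multiplication by the elements of `𝒪'`
  have hc : ∀ (c : 𝒪') (y : 𝒦), y ∈ N → algebraMap B 𝒦 (algebraMap 𝒪' B c) * y ∈ N := by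
    intro c y hy
    have e : algebraMap B 𝒦 (algebraMap 𝒪' B c) * y = algebraMap 𝒪' 𝒪 c • y := by
      rw [Algebra.smul_def, ← IsScalarTower.algebraMap_apply 𝒪' B 𝒦,
        ← IsScalarTower.algebraMap_apply 𝒪' 𝒪 𝒦]
    rw [e]; exact Submodule.smul_mem _ _ hy
  have hxpow : ∀ (n : ℕ) (y : 𝒦), y ∈ N → algebraMap B 𝒦 x ^ n * y ∈ N := by
    intro n
    induction n with
    | zero => intro y hy; rwa [pow_zero, one_mul]
    | succ n ih =>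
      intro y hy
      rw [pow_succ', mul_assoc]
      exact hx _ (ih y hy)
  -- hence under the polynomials in `x`
  have hpoly : ∀ (p : Polynomial 𝒪') (y : 𝒦), y ∈ N → algebraMap B 𝒦 (φ p) * y ∈ N := by
    intro p
    induction p using Polynomial.induction_on' with
    | add p q hp hq =>
      intro y hy
      rw [map_add, map_add, add_mul]
      exact Submodule.add_mem _ (hp y hy) (hq y hy)
    | monomial n c =>
      intro y hy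
      have e : φ (Polynomial.monomial n c) = algebraMap 𝒪' B c * x ^ n := by
        rw [hφ, Polynomial.coe_eval₂RingHom, Polynomial.eval₂_monomial]
      rw [e, map_mul, map_pow, mul_assoc]
      exact hc c _ (hxpow n y hy)
  -- every `β • l` lies in `N`
  have hβ : ∀ (β : B) (l : 𝒦), l ∈ ls → algebraMap B 𝒦 β * l ∈ N := by
    intro β l hl
    have hβtop : β ∈ Submodule.span (Polynomial 𝒪') (bs : Set B) := by
      rw [hbs]; exact Submodule.mem_top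
    refine Submodule.span_induction (p := fun β _ => algebraMap B 𝒦 β * l ∈ N) ?_ ?_ ?_ ?_ hβtop
    · intro b hb
      refine Submodule.subset_span ⟨algebraMap B 𝒦 b * l, ?_, 0, ?_⟩
      · exact Finset.mem_image.mpr ⟨(b, l), Finset.mem_product.mpr ⟨hb, hl⟩, rfl⟩
      · rw [pow_zero, one_mul]
    · rw [map_zero, zero_mul]; exact Submodule.zero_mem _
    · intro u v _ _ hu hv
      rw [map_add, add_mul]; exact Submodule.add_mem _ hu hv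
    · intro p u _ hu
      have e : p • u = φ p * u := rfl
      rw [e, map_mul, mul_assoc]
      exact hpoly p _ hu
  -- the global sections lie in `N`
  have hlam : ∀ y ∈ R.lam Set.univ, y ∈ N := by
    intro y hy
    rw [← hls] at hy
    have key : ∀ β : B, algebraMap B 𝒦 β * y ∈ N := by
      refine Submodule.span_induction (p := fun y _ => ∀ β : B, algebraMap B 𝒦 β * y ∈ N)
        ?_ ?_ ?_ ?_ hy
      · intro l hl β
        exact hβ β l hl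
      · intro β
        rw [mul_zero]; exact Submodule.zero_mem _
      · intro u v _ _ hu hv β
        rw [mul_add]; exact Submodule.add_mem _ (hu β) (hv β)
      · intro γ u _ hu β
        have e : algebraMap B 𝒦 β * γ • u = algebraMap B 𝒦 (β * γ) * u := by
          rw [Algebra.smul_def, map_mul, mul_assoc]
        rw [e]; exact hu _
    have := key 1
    rwa [map_one, one_mul] at this
  intro h hh
  obtain ⟨s, hs, hmem⟩ := (mem_lamO_iff_exists 𝔪' 𝒪 R).mp hh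
  have hsu : IsUnit (algebraMap 𝒪' 𝒪 s) :=
    IsLocalization.map_units 𝒪 (⟨s, hs⟩ : 𝔪'.primeCompl)
  obtain ⟨u, hu⟩ := hsu
  have h1 := hlam _ hmem
  have e1 : algebraMap 𝒪' 𝒦 s * h = algebraMap 𝒪' 𝒪 s • h := by
    rw [Algebra.smul_def, ← IsScalarTower.algebraMap_apply 𝒪' 𝒪 𝒦]
  rw [e1] at h1
  have h2 := Submodule.smul_mem _ (↑u⁻¹ : 𝒪) h1
  rwa [smul_smul, ← hu, Units.inv_mul, one_smul] at h2

end Gen

end Fermat.Agent.S26lib.RelCurve
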