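/-
S26lib / RelCurve / Chart  (helper3)  --  Project K (S26), cube kernel, (LIFT): one chart

**One affine chart `V × T'` of `X = C ×_K T` over the local base `Spec O_{T,t}`.**
For `𝔏 : CDiv X`, `t : KPt sT`, `V ⊆ C` affine open: the `O_{T,t}`-module
`LamV = Lam π 𝔏 t.pt (ρ⁻¹ V)` of sections over `V × Spec O_{T,t}` and the reduction
`rhoS h = res_ι (h · 𝔏.t η₀)` to the closed fibre (`ι = sliceL t`, `η₀ = ι η_C`) satisfy
`ChartFacts`: kernel of `rhoS` = `𝔪 • LamV`, separatedness, `rhoS` maps `LamV` ONTO the sections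
over `V` of the restricted divisor `CDiv.pull ι 𝔏`.
-/
import Fermat.Agent.S26lib.RelCurve.BaseAlg
import Fermat.Agent.S26lib.RelCurve.LocBase
import Fermat.Agent.S26lib.RelCurve.Fibre
import Fermat.Agent.S26lib.ProdAff.Finite
import Fermat.Agent.S26lib.Quad.CubeSetup

set_option autoImplicit false
set_option linter.unusedSectionVars false
set_option linter.style.haveILetI false

noncomputable section

namespace Fermat.Agent.S26lib.RelCurve

open AlgebraicGeometry CategoryTheory CategoryTheory.Limits TopologicalSpace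
  Fermat.Agent.S26lib.Quad Fermat.Agent.S26lib.Hub Fermat.Agent.S26lib.P5a
  Fermat.Agent.S26lib.Prod Fermat.Agent.S26lib.ProdAff

universe u

section Spec

variable {X T : Scheme.{u}}

/-- specialisation of the points of an affine open in terms of the primes -/
theorem fromSpec_specializes_iff {T' : T.Opens} (hT' : IsAffineOpen T')
    (𝔭 𝔭' : PrimeSpectrum Γ(T, T')) :
    hT'.fromSpec 𝔭 ⤳ hT'.fromSpec 𝔭' ↔ 𝔭.asIdeal ≤ 𝔭'.asIdeal := by
  have h1 : hT'.fromSpec 𝔭 ⤳ hT'.fromSpec 𝔭' ↔ (𝔭 : Spec Γ(T, T')) ⤳ 𝔭' :=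
    hT'.fromSpec.isOpenEmbedding.toIsInducing.specializes_iff
  rw [h1]
  exact (PrimeSpectrum.le_iff_specializes 𝔭 𝔭').symm

/-- naturality of the points of the primes (no integrality needed) -/
theorem fromSpec_comap_gen (π : X ⟶ T) {W : X.Opens} (hW : IsAffineOpen W)
    {T' : T.Opens} (hT' : IsAffineOpen T') (e : W ≤ π ⁻¹ᵁ T') (𝔮 : PrimeSpectrum Γ(X, W)) :
    hT'.fromSpec (PrimeSpectrum.comap (π.appLE T' W e).hom 𝔮) = π (hW.fromSpec 𝔮) := by
  have hx : hW.fromSpec 𝔮 ∈ W := fromSpec_mem hW 𝔮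
  have h1 := IsAffineOpen.comap_primeIdealOf_appLE (f := π) (x := hW.fromSpec 𝔮) T' hT' W hW e hx
  have h2 : hW.primeIdealOf ⟨hW.fromSpec 𝔮, hx⟩ = 𝔮 := by
    have hinj : Function.Injective hW.fromSpec := hW.fromSpec.isOpenEmbedding.injective
    exact hinj (hW.fromSpec_primeIdealOf ⟨hW.fromSpec 𝔮, hx⟩)
  rw [h2] at h1
  rw [h1, hT'.fromSpec_primeIdealOf]

/-- the primes of a chart over `Spec O_{T,t}` -/
theorem comap_le_primeIdealOf_iff (π : X ⟶ T) {W : X.Opens} (hW : IsAffineOpen W)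
    {T' : T.Opens} (hT' : IsAffineOpen T') (e : W ≤ π ⁻¹ᵁ T') {t : T} (ht : t ∈ T')
    (𝔮 : PrimeSpectrum Γ(X, W)) :
    (PrimeSpectrum.comap (π.appLE T' W e).hom 𝔮).asIdeal ≤
      (hT'.primeIdealOf ⟨t, ht⟩).asIdeal ↔ π (hW.fromSpec 𝔮) ⤳ t := by
  rw [← fromSpec_specializes_iff hT', fromSpec_comap_gen π hW hT' e, hT'.fromSpec_primeIdealOf]

end Spec

section Tower

variable {X T : Scheme.{u}} [IsIntegral X] [IsIntegral T]

/-- the algebra map of a nonempty open, through the germ at any of its points -/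
theorem algebraMap_eq_toFF_germ' {W : X.Opens} [Nonempty W] {x : X} (hx : x ∈ W) (b : Γ(X, W)) :
    algebraMap Γ(X, W) X.functionField b = toFF X x (X.presheaf.germ W x hx b) := by
  have hg : genericPoint X ∈ W := (generic_specializes X x).mem_open W.isOpen hx
  rw [toFF_germ_eq W hx hg, toFF_generic]
  rfl

/-- compatibility of the two `Γ(T, T')`-algebra structures on `K(X)` -/
theorem ffMap_toFF_germ (π : X ⟶ T) [IsDominant π] {T' : T.Opens} {W : X.Opens} [Nonempty W]
    (e : W ≤ π ⁻¹ᵁ T') {t : T} (ht : t ∈ T') (s : Γ(T, T')) :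
    FinMap.ffMap π (toFF T t (T.presheaf.germ T' t ht s)) =
      algebraMap Γ(X, W) X.functionField ((π.appLE T' W e).hom s) := by
  obtain ⟨⟨x, hx⟩⟩ := ‹Nonempty W›
  have hπx : π x ∈ T' := e hx
  rw [toFF_germ_eq T' ht hπx, ← FinMap.toFF_stalkMap_ffMap π x, algebraMap_eq_toFF_germ' hx]
  congr 1
  rw [Scheme.Hom.germ_stalkMap_apply, Scheme.Hom.appLE]
  exact (X.presheaf.germ_res_apply (homOfLE e) x hx ((π.app T').hom s)).symm

end Tower

section Chart

variable {K : Type u} [Field K] {C T : Scheme.{u}}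
  (sC : C ⟶ Spec (CommRingCat.of K)) (sT : T ⟶ Spec (CommRingCat.of K))
  [IsIntegral C] [IsIntegral T] [IsIntegral (pullback sC sT)]

attribute [local instance] Quad.surjective_toSpecField

/-- the `O_{T,t}`-module of the sections of `O(𝔏)` over `V × Spec O_{T,t}` -/
def LamV (𝔏 : CDiv (pullback sC sT)) (t : KPt sT) (V : Set C) :=
  Lam (pullback.snd sC sT) 𝔏 t.pt ((pullback.fst sC sT) ⁻¹' V)

theorem mem_LamV_iff (𝔏 : CDiv (pullback sC sT)) (t : KPt sT) (V : Set C)
    (h : (pullback sC sT).functionField) :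
    h ∈ LamV sC sT 𝔏 t V ↔ ∀ y : ↥(pullback sC sT), pullback.fst sC sT y ∈ V →
      pullback.snd sC sT y ⤳ t.pt →
      h * ((𝔏.t y : ((pullback sC sT).functionField)ˣ) : (pullback sC sT).functionField) ∈
        regAt (pullback sC sT) y := Iff.rfl

/-- the generic point of the closed fibre `C × t` -/
def eta0 (t : KPt sT) : ↥(pullback sC sT) := sliceL sC sT t (genericPoint C)

/-- the reduction of a rational section to the closed fibre -/
def rhoS (𝔏 : CDiv (pullback sC sT)) (t : KPt sT) (h : (pullback sC sT).functionField) :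
    C.functionField :=
  resFF (sliceL sC sT t)
    (h * ((𝔏.t (eta0 sC sT t) : ((pullback sC sT).functionField)ˣ) :
      (pullback sC sT).functionField))

/-- **the facts about one affine chart `V × Spec O_{T,t}`** -/
structure ChartFacts (𝔏 : CDiv (pullback sC sT)) (t : KPt sT) (V : C.Opens) : Prop where
  /-- the kernel of the reduction is `𝔪 • LamV` -/
  ker : letI := stalkAlgebra (pullback.snd sC sT) t.pt
    ∀ h ∈ LamV sC sT 𝔏 t V, rhoS sC sT 𝔏 t h = 0 →
      h ∈ IsLocalRing.maximalIdeal (T.presheaf.stalk t.pt) • LamV sC sT 𝔏 t V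
  /-- separatedness -/
  sep : letI := stalkAlgebra (pullback.snd sC sT) t.pt
    ∀ h : (pullback sC sT).functionField, (∀ n : ℕ,
      h ∈ IsLocalRing.maximalIdeal (T.presheaf.stalk t.pt) ^ n • LamV sC sT 𝔏 t V) → h = 0
  /-- the reduction of a section is a section of the restricted divisor -/
  rho_mem : ∀ h ∈ LamV sC sT 𝔏 t V, ∀ c ∈ V,
    rhoS sC sT 𝔏 t h * (((CDiv.pull (sliceL sC sT t) 𝔏).t c : (C.functionField)ˣ) :
      C.functionField) ∈ regAt C c
  /-- the reduction is onto the sections of the restricted divisor -/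
  rho_surj : ∀ g : C.functionField, (∀ c ∈ V,
      g * (((CDiv.pull (sliceL sC sT t) 𝔏).t c : (C.functionField)ˣ) : C.functionField) ∈
        regAt C c) → ∃ h ∈ LamV sC sT 𝔏 t V, rhoS sC sT 𝔏 t h = g
  /-- additivity of the reduction -/
  rho_sub : ∀ h ∈ LamV sC sT 𝔏 t V, ∀ h' ∈ LamV sC sT 𝔏 t V,
    rhoS sC sT 𝔏 t (h - h') = rhoS sC sT 𝔏 t h - rhoS sC sT 𝔏 t h'
  /-- the maximal ideal of the base kills the closed fibre -/
  smul_zero : letI := stalkAlgebra (pullback.snd sC sT) t.pt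
    ∀ a ∈ IsLocalRing.maximalIdeal (T.presheaf.stalk t.pt), ∀ h ∈ LamV sC sT 𝔏 t V,
      rhoS sC sT 𝔏 t (a • h) = 0

set_option maxHeartbeats 1600000 in
theorem chartFacts [IsLocallyNoetherian (pullback sC sT)] (𝔏 : CDiv (pullback sC sT)) (t : KPt sT)
    {V : C.Opens} (hV : IsAffineOpen V) [hVne : Nonempty V] {T' : T.Opens}
    (hT' : IsAffineOpen T') (ht : t.pt ∈ T') : ChartFacts sC sT 𝔏 t V := by
  have hι₁ := sliceL_fst sC sT t
  have hι₂ := sliceL_snd sC sT t
  have hW : IsAffineOpen (box sC sT V T') := isAffineOpen_box' sC sT hV hT'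
  have e : V ≤ sliceL sC sT t ⁻¹ᵁ box sC sT V T' := le_preimage_box hι₁ hι₂ V ht
  have hsurj := fib_surjective hι₁ hι₂ V ht
  obtain ⟨v⟩ := hVne
  haveI : Nonempty V := ⟨v⟩
  haveI : Nonempty (box sC sT V T') := ⟨⟨sliceL sC sT t v.1, e v.2⟩⟩
  haveI := functionField_isFractionRing_of_isAffineOpen (pullback sC sT) (box sC sT V T') hW
  haveI := functionField_isFractionRing_of_isAffineOpen C V hV
  haveI : IsNoetherianRing Γ(pullback sC sT, box sC sT V T') :=
    IsLocallyNoetherian.component_noetherian ⟨box sC sT V T', hW⟩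
  -- the algebra structures
  letI a1 : Algebra Γ(T, T') Γ(pullback sC sT, box sC sT V T') :=
    ((pullback.snd sC sT).appLE T' (box sC sT V T') (box_le_snd sC sT V T')).hom.toAlgebra
  letI a2 : Algebra Γ(T, T') (pullback sC sT).functionField :=
    ((algebraMap Γ(pullback sC sT, box sC sT V T') (pullback sC sT).functionField).comp
      ((pullback.snd sC sT).appLE T' (box sC sT V T') (box_le_snd sC sT V T')).hom).toAlgebra
  haveI t1 : IsScalarTower Γ(T, T') Γ(pullback sC sT, box sC sT V T')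
      (pullback sC sT).functionField := IsScalarTower.of_algebraMap_eq' rfl
  letI a3 : Algebra Γ(T, T') (T.presheaf.stalk t.pt) :=
    TopCat.Presheaf.algebra_section_stalk T.presheaf ⟨t.pt, ht⟩
  letI a4 : Algebra (T.presheaf.stalk t.pt) (pullback sC sT).functionField :=
    stalkAlgebra (pullback.snd sC sT) t.pt
  haveI t2 : IsScalarTower Γ(T, T') (T.presheaf.stalk t.pt) (pullback sC sT).functionField := by
    refine IsScalarTower.of_algebraMap_eq' (RingHom.ext fun s => ?_)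
    exact (ffMap_toFF_germ (pullback.snd sC sT) (box_le_snd sC sT V T') ht s).symm
  haveI hmax : (hT'.primeIdealOf ⟨t.pt, ht⟩).asIdeal.IsMaximal :=
    hT'.primeIdealOf_isMaximal_of_isClosed ⟨t.pt, ht⟩ t.isClosed_pt
  haveI loc : IsLocalization.AtPrime (T.presheaf.stalk t.pt)
      (hT'.primeIdealOf ⟨t.pt, ht⟩).asIdeal := hT'.isLocalization_stalk ⟨t.pt, ht⟩
  haveI flat : Module.Flat Γ(T, T') Γ(pullback sC sT, box sC sT V T') :=
    flat_appLE_snd sC sT hV hT'
  -- the fibre datum and the ratio family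
  set F := fibData (sliceL sC sT t) hW hV e hsurj with hF
  set R := ratioFam hW 𝔏 with hR
  have h𝔞 : F.𝔞.asIdeal = Ideal.map (algebraMap Γ(T, T') Γ(pullback sC sT, box sC sT V T'))
      (hT'.primeIdealOf ⟨t.pt, ht⟩).asIdeal := by
    show RingHom.ker _ = _
    rw [ker_fib t.2 hι₁ hι₂ V ht hV hT', ker_evOpen t.1 hT' ht]
    rfl
  -- the bridge between the pointwise module and the chart module
  have hover : ∀ 𝔮 : PrimeSpectrum Γ(pullback sC sT, box sC sT V T'),
      𝔮 ∈ overBase (hT'.primeIdealOf ⟨t.pt, ht⟩).asIdeal Γ(pullback sC sT, box sC sT V T') ↔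
        pullback.snd sC sT (hW.fromSpec 𝔮) ⤳ t.pt := fun 𝔮 =>
    comap_le_primeIdealOf_iff (pullback.snd sC sT) hW hT' (box_le_snd sC sT V T') ht 𝔮
  have bridge : LamV sC sT 𝔏 t V =
      lamO (hT'.primeIdealOf ⟨t.pt, ht⟩).asIdeal (T.presheaf.stalk t.pt) R := by
    refine SetLike.ext fun h => ?_
    rw [mem_LamV_iff, mem_lamO_iff]
    constructor
    · intro hh 𝔮 h𝔮
      rw [mem_locSub_iff_mem_regAt hW]
      exact hh _ (fromSpec_mem hW 𝔮).1 ((hover 𝔮).mp h𝔮)
    · intro hh y hyV hyt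
      have hyT' : pullback.snd sC sT y ∈ T' := hyt.mem_open T'.isOpen ht
      have hyW : y ∈ box sC sT V T' := ⟨hyV, hyT'⟩
      have h1 := hh (hW.primeIdealOf ⟨y, hyW⟩)
        ((hover _).mpr (by rw [hW.fromSpec_primeIdealOf]; exact hyt))
      rw [mem_locSub_iff_mem_regAt hW, ratioFam_r, hW.fromSpec_primeIdealOf] at h1
      exact h1
  have hrho : ∀ h, F.rho R h = rhoS sC sT 𝔏 t h := fun h =>
    fibData_rho (sliceL sC sT t) hW hV e hsurj 𝔏 h
  refine ⟨?_, ?_, ?_, ?_, ?_, ?_⟩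
  · intro h hh h0
    rw [bridge] at hh ⊢
    rw [← hrho] at h0
    exact mem_smul_lamO_of_rho_eq_zero _ _ R F h𝔞 hh h0
  · intro h hh
    rw [bridge] at hh
    exact eq_zero_of_forall_mem_pow_smul_lamO _ _ R F h𝔞 hh
  · intro h hh c hc
    rw [bridge] at hh
    have h1 := rho_mem_fibre_lam _ _ R F h𝔞 hh
    rw [hrho, fibre_ratioFam_lam, mem_ratioFam_lam_univ_iff] at h1
    exact h1 c hc
  · intro g hg
    have h1 : g ∈ (F.fibre R).lam Set.univ := by
      rw [fibre_ratioFam_lam, mem_ratioFam_lam_univ_iff]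
      exact hg
    obtain ⟨h, hh, hρ⟩ := exists_mem_lamO_rho_eq (hT'.primeIdealOf ⟨t.pt, ht⟩).asIdeal
      (T.presheaf.stalk t.pt) R F h𝔞 h1
    refine ⟨h, ?_, ?_⟩
    · rw [bridge]; exact hh
    · rw [← hrho]; exact hρ
  · intro h hh h' hh'
    rw [bridge] at hh hh'
    rw [← hrho, ← hrho, ← hrho]
    exact rho_sub_of_mem_lamO _ _ R F h𝔞 hh hh'
  · intro a ha h hh
    rw [bridge] at hh
    rw [← hrho]
    exact rho_smul_eq_zero _ _ R F h𝔞 ha hh

end Chart

end Fermat.Agent.S26lib.RelCurve
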