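/-
S26lib / RelCurve / Lattice  (helper3)  --  Project K (S26), cube kernel, algebra part

**The `ℙ¹`-lattice trick**: finiteness of the cokernel of a two chart Čech complex.

`N` is a `B`-module with a `B`-linear automorphism `X` ("multiplication by the coordinate `x`"),
`Λ₁ ⊆ N` is stable under `X` (sections over `{x ≠ ∞}`), `Λ₂ ⊆ N` is stable under `X⁻¹` and generated
by a finite set `S₂` under `B` and `X⁻¹` (sections over `{x ≠ 0}`), every element of `N` lies in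
`X ^ n Λ₂` for some `n` (`N` = sections over `{x ≠ 0, ∞}`), and `X ^ k e ∈ Λ₁` for `e ∈ S₂`, `k ≫ 0`.
Then `N = Λ₁ + Λ₂ + V` with `V` a finitely generated `B`-module; in particular the cokernel of
`Λ₁ ⊕ Λ₂ → N` is a finite `B`-module.
-/
import Mathlib

set_option autoImplicit false

namespace Fermat.Agent.S26lib.RelCurve

open Submodule

section

variable {B : Type*} [CommRing B] {N : Type*} [AddCommGroup N] [Module B N]

/-- the translate `X ^ i (span S)` -/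
def shiftSpan (X : N ≃ₗ[B] N) (S : Set N) (i : ℤ) : Submodule B N :=
  (span B S).map ((X ^ i : N ≃ₗ[B] N) : N →ₗ[B] N)

theorem shiftSpan_le_iff (X : N ≃ₗ[B] N) (S : Set N) (i : ℤ) (Λ : Submodule B N) :
    shiftSpan X S i ≤ Λ ↔ ∀ e ∈ S, (X ^ i : N ≃ₗ[B] N) e ∈ Λ := by
  unfold shiftSpan
  rw [map_span_le]
  rfl

theorem map_shiftSpan (X : N ≃ₗ[B] N) (S : Set N) (i j : ℤ) :
    (shiftSpan X S i).map ((X ^ j : N ≃ₗ[B] N) : N →ₗ[B] N) = shiftSpan X S (j + i) := by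
  unfold shiftSpan
  rw [← Submodule.map_comp]
  congr 1
  ext y
  simp only [LinearMap.coe_comp, LinearEquiv.coe_coe, Function.comp_apply]
  rw [zpow_add]
  rfl

theorem shiftSpan_fg (X : N ≃ₗ[B] N) (S : Finset N) (i : ℤ) :
    (shiftSpan X (S : Set N) i).FG :=
  (fg_span S.finite_toSet).map _

/-- stability under natural powers -/
theorem pow_mem_of_stable (X : N ≃ₗ[B] N) (Λ : Submodule B N) (h : ∀ y ∈ Λ, X y ∈ Λ)
    (n : ℕ) : ∀ y ∈ Λ, (X ^ n : N ≃ₗ[B] N) y ∈ Λ := by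
  induction n with
  | zero => intro y hy; simpa using hy
  | succ n ih =>
    intro y hy
    have : (X ^ (n + 1) : N ≃ₗ[B] N) y = X ((X ^ n : N ≃ₗ[B] N) y) := by
      rw [pow_succ']; rfl
    rw [this]
    exact h _ (ih y hy)

theorem zpow_neg_mem_of_stable (X : N ≃ₗ[B] N) (Λ : Submodule B N)
    (h : ∀ y ∈ Λ, X.symm y ∈ Λ) (n : ℕ) : ∀ y ∈ Λ, (X ^ (-(n : ℤ)) : N ≃ₗ[B] N) y ∈ Λ := by
  have hX : X⁻¹ = X.symm := LinearEquiv.toLinearMap_inj.mp rfl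
  intro y hy
  have h1 : (X ^ (-(n : ℤ)) : N ≃ₗ[B] N) = (X.symm ^ n : N ≃ₗ[B] N) := by
    rw [zpow_neg, zpow_natCast, ← inv_pow, hX]
  rw [h1]
  exact pow_mem_of_stable X.symm Λ h n y hy

/-- **the lattice trick** -/
theorem exists_fg_sup_eq_top (X : N ≃ₗ[B] N) (Λ₁ Λ₂ : Submodule B N)
    (h₁ : ∀ y ∈ Λ₁, X y ∈ Λ₁) (h₂ : ∀ y ∈ Λ₂, X.symm y ∈ Λ₂)
    (S₂ : Finset N) (hS₂Λ : ∀ e ∈ S₂, e ∈ Λ₂)
    (hΛ₂ : Λ₂ ≤ ⨆ j : ℕ, shiftSpan X (S₂ : Set N) (-(j : ℤ)))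
    (hex : ∀ y : N, ∃ n : ℕ, (X ^ (-(n : ℤ)) : N ≃ₗ[B] N) y ∈ Λ₂)
    (hS₂ : ∀ e ∈ S₂, ∃ k : ℕ, (X ^ k : N ≃ₗ[B] N) e ∈ Λ₁) :
    ∃ V : Submodule B N, V.FG ∧ Λ₁ ⊔ Λ₂ ⊔ V = ⊤ := by
  classical
  choose! k hk using hS₂
  set m : ℕ := S₂.sup k with hm
  set V : Submodule B N := ⨆ i ∈ Finset.range m, shiftSpan X (S₂ : Set N) (i : ℤ) with hV
  refine ⟨V, fg_biSup _ _ (fun i _ => shiftSpan_fg X S₂ i), ?_⟩
  -- every translate lies in `U`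
  have hU : ∀ i : ℤ, shiftSpan X (S₂ : Set N) i ≤ Λ₁ ⊔ Λ₂ ⊔ V := by
    intro i
    rcases lt_or_ge i 0 with hi | hi
    · -- negative: in `Λ₂`
      refine le_trans ?_ (le_sup_of_le_left le_sup_right)
      rw [shiftSpan_le_iff]
      intro e he
      obtain ⟨n, rfl⟩ : ∃ n : ℕ, i = -(n : ℤ) := ⟨i.natAbs, by omega⟩
      exact zpow_neg_mem_of_stable X Λ₂ h₂ n e (hS₂Λ e he)
    · obtain ⟨n, rfl⟩ : ∃ n : ℕ, i = (n : ℤ) := ⟨i.natAbs, by omega⟩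
      rcases lt_or_ge n m with hn | hn
      · -- in `V`
        refine le_trans ?_ le_sup_right
        exact le_biSup (fun i : ℕ => shiftSpan X (S₂ : Set N) (i : ℤ)) (Finset.mem_range.mpr hn)
      · -- in `Λ₁`
        refine le_trans ?_ (le_sup_of_le_left le_sup_left)
        rw [shiftSpan_le_iff]
        intro e he
        have hke : k e ≤ n := le_trans (Finset.le_sup (f := k) he) hn
        obtain ⟨j, rfl⟩ : ∃ j : ℕ, n = j + k e := ⟨n - k e, by omega⟩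
        have : (X ^ ((j + k e : ℕ) : ℤ) : N ≃ₗ[B] N) e
            = (X ^ j : N ≃ₗ[B] N) ((X ^ (k e) : N ≃ₗ[B] N) e) := by
          rw [zpow_natCast, pow_add]; rfl
        rw [this]
        exact pow_mem_of_stable X Λ₁ h₁ j _ (hk e he)
  rw [eq_top_iff]
  intro y _
  obtain ⟨n, hn⟩ := hex y
  have h1 := hΛ₂ hn
  have h2 : y ∈ (⨆ j : ℕ, shiftSpan X (S₂ : Set N) (-(j : ℤ))).map
      ((X ^ (n : ℤ) : N ≃ₗ[B] N) : N →ₗ[B] N) := by
    refine ⟨_, h1, ?_⟩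
    show (X ^ (n : ℤ) : N ≃ₗ[B] N) ((X ^ (-(n : ℤ)) : N ≃ₗ[B] N) y) = y
    have : (X ^ (n : ℤ) : N ≃ₗ[B] N) * (X ^ (-(n : ℤ)) : N ≃ₗ[B] N) = 1 := by
      rw [← zpow_add, add_neg_cancel, zpow_zero]
    calc (X ^ (n : ℤ) : N ≃ₗ[B] N) ((X ^ (-(n : ℤ)) : N ≃ₗ[B] N) y)
        = ((X ^ (n : ℤ) : N ≃ₗ[B] N) * (X ^ (-(n : ℤ)) : N ≃ₗ[B] N)) y := rfl
      _ = y := by rw [this]; rfl
  rw [Submodule.map_iSup] at h2
  have h3 : (⨆ j : ℕ, (shiftSpan X (S₂ : Set N) (-(j : ℤ))).map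
      ((X ^ (n : ℤ) : N ≃ₗ[B] N) : N →ₗ[B] N)) ≤ Λ₁ ⊔ Λ₂ ⊔ V := by
    refine iSup_le fun j => ?_
    rw [map_shiftSpan]
    exact hU _
  exact h3 h2

/-- the cokernel of `Λ₁ ⊕ Λ₂ → N` is finite -/
theorem finite_quotient_of_fg_sup_eq_top (R V : Submodule B N) (hV : V.FG) (h : R ⊔ V = ⊤) :
    Module.Finite B (N ⧸ R) := by
  rw [Module.finite_def]
  have : (⊤ : Submodule B (N ⧸ R)) = V.map R.mkQ := by
    rw [eq_comm, eq_top_iff]
    intro q _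
    obtain ⟨y, rfl⟩ := R.mkQ_surjective q
    have hy : y ∈ R ⊔ V := by rw [h]; exact mem_top
    obtain ⟨r, hr, v, hv, rfl⟩ := mem_sup.mp hy
    refine ⟨v, hv, ?_⟩
    rw [map_add, mkQ_apply, mkQ_apply, (Submodule.Quotient.mk_eq_zero R).mpr hr,
      zero_add]
  rw [this]
  exact hV.map _

end

end Fermat.Agent.S26lib.RelCurve
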