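/-
S26lib / RelCurve / Targets  (helper3)  --  Project K (S26), cube kernel, (LIFT): the leaves

The statements of the leaves of the (LIFT) assembly, as `Prop`-valued definitions (no proofs here):
`RelCurve/Assemble.lean` proves `LiftAt` from them; the helpers prove the statements.
Notation: `X = pullback sC sT`, `ρ = pullback.fst`, `π = pullback.snd`, `ι = sliceL sC sT t`,
`𝒪 = O_{T,t.pt}` acting on `K(X)` through `stalkAlgebra π t.pt`, `LamV`, `rhoS` of `RelCurve/Chart`,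
`McDiv τ d = τ * CDiv.pull ρ d` of helper1's `Quad/LiftExtract`.
-/
import Fermat.Agent.S26lib.RelCurve.Chart
import Fermat.Agent.S26lib.RelCurve.Lattice
import Fermat.Agent.S26lib.Quad.LiftExtract
import Fermat.Agent.S26lib.Aff.Residue
import Fermat.Agent.S26lib.Aff.PointDiv

set_option autoImplicit false
set_option linter.unusedSectionVars false
set_option linter.style.haveILetI false

noncomputable section

namespace Fermat.Agent.S26lib.RelCurve

open AlgebraicGeometry CategoryTheory CategoryTheory.Limits TopologicalSpace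
  Fermat.Agent.S26lib.Quad Fermat.Agent.S26lib.Hub Fermat.Agent.S26lib.Prod
  Fermat.Agent.S26lib.Weil Fermat.Agent.S26lib.Aff

universe u

variable {K : Type u} [Field K] {C T : Scheme.{u}}
  (sC : C ⟶ Spec (CommRingCat.of K)) (sT : T ⟶ Spec (CommRingCat.of K))
  [IsIntegral C] [IsIntegral T] [IsIntegral (pullback sC sT)] [IsLocallyNoetherian C]

attribute [local instance] Quad.surjective_toSpecField

/-- **(LAT)** the lattice fields of `TwoChart` for the charts `U₁ × Spec 𝒪`, `U₂ × Spec 𝒪` -/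
def LatStatement (𝔏 : CDiv (pullback sC sT)) (t : KPt sT) {x : C.functionField}
    (hC : ChartPair sC x) : Prop :=
  letI := stalkAlgebra (pullback.snd sC sT) t.pt
  ∃ (Xm : (pullback sC sT).functionField ≃ₗ[T.presheaf.stalk t.pt]
      (pullback sC sT).functionField) (S₂ : Finset (pullback sC sT).functionField),
    (∀ y ∈ LamV sC sT 𝔏 t hC.U₁, Xm y ∈ LamV sC sT 𝔏 t hC.U₁) ∧
    (∀ y ∈ LamV sC sT 𝔏 t hC.U₂, Xm.symm y ∈ LamV sC sT 𝔏 t hC.U₂) ∧
    (∀ y ∈ LamV sC sT 𝔏 t ↑(hC.U₁ ⊓ hC.U₂), Xm y ∈ LamV sC sT 𝔏 t ↑(hC.U₁ ⊓ hC.U₂)) ∧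
    (∀ e ∈ S₂, e ∈ LamV sC sT 𝔏 t hC.U₂) ∧
    (LamV sC sT 𝔏 t hC.U₂ ≤ ⨆ j : ℕ, shiftSpan Xm (S₂ : Set (pullback sC sT).functionField)
      (-(j : ℤ))) ∧
    (∀ y ∈ LamV sC sT 𝔏 t ↑(hC.U₁ ⊓ hC.U₂), ∃ n : ℕ,
      (Xm ^ (-(n : ℤ)) : (pullback sC sT).functionField ≃ₗ[T.presheaf.stalk t.pt]
        (pullback sC sT).functionField) y ∈ LamV sC sT 𝔏 t hC.U₂) ∧
    (∀ e ∈ S₂, ∃ k : ℕ, (Xm ^ k : (pullback sC sT).functionField ≃ₗ[T.presheaf.stalk t.pt]
        (pullback sC sT).functionField) e ∈ LamV sC sT 𝔏 t hC.U₁) ∧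
    Module.Flat (T.presheaf.stalk t.pt) (LamV sC sT 𝔏 t ↑(hC.U₁ ⊓ hC.U₂))

/-- **(GEN1)** the sections over `U₁ × Spec 𝒪` are generated over `𝒪[x]` by finitely many -/
def Gen1Statement (𝔏 : CDiv (pullback sC sT)) (t : KPt sT) {x : C.functionField}
    (hC : ChartPair sC x) : Prop :=
  letI := stalkAlgebra (pullback.snd sC sT) t.pt
  ∃ S₁ : Finset (pullback sC sT).functionField,
    (∀ e ∈ S₁, e ∈ LamV sC sT 𝔏 t hC.U₁) ∧ ∀ y ∈ LamV sC sT 𝔏 t hC.U₁,
      y ∈ Submodule.span (T.presheaf.stalk t.pt) {z : (pullback sC sT).functionField |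
        ∃ e ∈ S₁, ∃ j : ℕ, z = FinMap.ffMap (pullback.fst sC sT) x ^ j * e}

/-- **(TWC)** comparison of `𝔏 = McDiv τ d₀` with its twist `𝔏' = McDiv τ (d₀ / [p])`, `p` a zero
of `x` -/
def TwistCompStatement
    (hreg : ∀ c : C, c = genericPoint C ∨ IsDiscreteValuationRing (C.presheaf.stalk c))
    [CompactSpace C] (τ : CDiv (pullback sC sT)) (t : KPt sT) {x : C.functionField}
    (hC : ChartPair sC x) (d₀ : CDiv C) (p : PrimeDiv C) : Prop :=
  letI := stalkAlgebra (pullback.snd sC sT) t.pt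
  rhoS sC sT (McDiv sC sT τ (d₀ / pointDiv hreg p)) t = rhoS sC sT (McDiv sC sT τ d₀) t ∧
  LamV sC sT (McDiv sC sT τ (d₀ / pointDiv hreg p)) t hC.U₂ =
    LamV sC sT (McDiv sC sT τ d₀) t hC.U₂ ∧
  LamV sC sT (McDiv sC sT τ (d₀ / pointDiv hreg p)) t hC.U₁ ≤
    LamV sC sT (McDiv sC sT τ d₀) t hC.U₁ ∧
  ∀ y ∈ LamV sC sT (McDiv sC sT τ d₀) t hC.U₁,
    FinMap.ffMap (pullback.fst sC sT) x * y ∈
      LamV sC sT (McDiv sC sT τ (d₀ / pointDiv hreg p)) t hC.U₁

/-- **(VAL)** a section of `O(d₀)` over `U₁` minus its value at `p` is a section of `O(d₀ - p)` -/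
def ValueStatement
    (hreg : ∀ c : C, c = genericPoint C ∨ IsDiscreteValuationRing (C.presheaf.stalk c))
    [CompactSpace C] {x : C.functionField} (hC : ChartPair sC x) (d₀ : CDiv C) (p : PrimeDiv C) :
    Prop :=
  ∀ g : C.functionField,
    (∀ c ∈ hC.U₁, g * ((d₀.t c : (C.functionField)ˣ) : C.functionField) ∈ regAt C c) →
    ∃ κ : K, ∀ c ∈ hC.U₁, (g - (kToFF sC).hom κ) *
      (((d₀ / pointDiv hreg p).t c : (C.functionField)ˣ) : C.functionField) ∈ regAt C c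

/-- **(CST)** the reduction to the closed fibre of a constant of the base is the constant -/
def ConstStatement (t : KPt sT) : Prop :=
  ∀ κ : K, resFF (sliceL sC sT t) (FinMap.ffMap (pullback.snd sC sT)
    (toFF T t.pt (KPt.constStalk sT t.pt κ))) = (kToFF sC).hom κ

end Fermat.Agent.S26lib.RelCurve
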