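/-
S26lib / RelCurve / ExistsLiftAt  (helper3)  --  Project K (S26), cube kernel, (LIFT): the theorem

`exists_liftAt` : for a proper regular curve `C` over an algebraically closed field `K` there is a
Cartier divisor `d₀` on `C` such that for every integral `K`-scheme `T`, every Cartier divisor `τ`
on `C ×_K T` and every `K`-point `t` of `T` at which the fibre of `τ` is trivial, the sheaf
`O(τ + pr₁^* d₀)` over `C × Spec O_{T,t}` is free of rank one on a lift of the section `1`
(helper1's `Quad.LiftAt`).
-/
import Fermat.Agent.S26lib.RelCurve.Assemble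
import Fermat.Agent.S26lib.SheafGlue.Targets
import Fermat.Agent.S26lib.Curves.TwistComp
import Fermat.Agent.S26lib.Aff.Value

set_option autoImplicit false
set_option linter.unusedSectionVars false
set_option linter.style.haveILetI false

noncomputable section

namespace Fermat.Agent.S26lib.RelCurve

open AlgebraicGeometry CategoryTheory CategoryTheory.Limits TopologicalSpace
  Fermat.Agent.S26lib.Quad Fermat.Agent.S26lib.Hub Fermat.Agent.S26lib.Prod
  Fermat.Agent.S26lib.Weil Fermat.Agent.S26lib.Aff

universe u

variable {K : Type u} [Field K] {C T : Scheme.{u}}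
  (sC : C ⟶ Spec (CommRingCat.of K)) (sT : T ⟶ Spec (CommRingCat.of K))
  [IsIntegral C] [IsIntegral T] [IsIntegral (pullback sC sT)] [IsLocallyNoetherian C]

attribute [local instance] Quad.surjective_toSpecField

/-- **(CST)** the reduction to the closed fibre of a constant of the base is the constant -/
theorem constStatement (t : KPt sT) : ConstStatement sC sT t := by
  intro κ
  have h1 : toFF T t.pt (KPt.constStalk sT t.pt κ) =
      toFF T (pullback.snd sC sT (sliceL sC sT t (genericPoint C)))
        (KPt.constStalk sT (pullback.snd sC sT (sliceL sC sT t (genericPoint C))) κ) := by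
    rw [toFF_constStalk, toFF_constStalk]
  have h2 : FinMap.ffMap (pullback.snd sC sT)
      (toFF T (pullback.snd sC sT (sliceL sC sT t (genericPoint C)))
        (KPt.constStalk sT (pullback.snd sC sT (sliceL sC sT t (genericPoint C))) κ)) =
      toFF (pullback sC sT) (sliceL sC sT t (genericPoint C))
        (KPt.constStalk (pullback.snd sC sT ≫ sT) (sliceL sC sT t (genericPoint C)) κ) := by
    rw [← FinMap.toFF_stalkMap_ffMap, KPt.stalkMap_constStalk (pullback.snd sC sT) rfl]
  have h3 : sliceL sC sT t ≫ pullback.snd sC sT ≫ sT = sC := by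
    rw [← pullback.condition, ← Category.assoc, sliceL_fst, Category.id_comp]
  rw [h1, h2, ← toFF_stalkMap_eq_resFF, KPt.stalkMap_constStalk (sliceL sC sT t) h3,
    toFF_constStalk]

/-- **(LIFT)** -/
theorem exists_liftAt [IsAlgClosed K] [IsLocallyNoetherian (pullback sC sT)] [CompactSpace C]
    [LocallyOfFiniteType sC] [IsSeparated sC] [UniversallyClosed sC] [QuasiCompact sC]
    (hreg : ∀ c : C, c = genericPoint C ∨ IsDiscreteValuationRing (C.presheaf.stalk c))
    (htr : letI := kAlgebraFF sC; Algebra.trdeg K C.functionField = 1) :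
    ∃ d₀ : CDiv C, ∀ (τ : CDiv (pullback sC sT)) (t : KPt sT),
      CDiv.pull (sliceL sC sT t) τ ∈ CDiv.units C → LiftAt sC sT τ d₀ t := by
  obtain ⟨x, -, hC, d₀, p, hd₀, hd₀η, -, H1, hp₁, hp₂, hpx, hpd, H0', H1'⟩ :=
    exists_chartPair_nonspecial_point sC hreg htr
  refine ⟨d₀, fun τ t hτ => ?_⟩
  exact liftAt_of_statements sC sT hreg hC d₀ p hd₀ hd₀η H1 hp₂ H0' H1' τ t hτ
    (SheafGlue.latStatement sC sT _ t hC) (SheafGlue.latStatement sC sT _ t hC)
    (SheafGlue.gen1Statement sC sT _ t hC)
    (Curves.twistCompStatement sC sT hreg τ t hC d₀ p hpx)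
    (Aff.valueStatement sC hreg hC d₀ p hd₀ hp₁ hpd)
    (constStatement sC sT t)

end Fermat.Agent.S26lib.RelCurve
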