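/-
S26lib / RelCurve / Assemble  (helper3)  --  Project K (S26), cube kernel, (LIFT): the assembly

`exists_twoChart` : the abstract two-chart datum `TwoChart` (of `RelCurve/Main`) of a Cartier
divisor `𝔏` on `X = C ×_K T` over the local base `Spec O_{T,t}`, from the chart facts and the Čech
vanishing on the closed fibre.  `liftAt` : the lifting theorem (LIFT) in helper1's form `LiftAt`.
-/
import Fermat.Agent.S26lib.RelCurve.Targets
import Fermat.Agent.S26lib.RelCurve.Main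
import Fermat.Agent.S26lib.Aff.NonSpecial

set_option autoImplicit false
set_option linter.unusedSectionVars false
set_option linter.style.haveILetI false

noncomputable section

namespace Fermat.Agent.S26lib.RelCurve

open AlgebraicGeometry CategoryTheory CategoryTheory.Limits TopologicalSpace
  Fermat.Agent.S26lib.Quad Fermat.Agent.S26lib.Hub Fermat.Agent.S26lib.Prod
  Fermat.Agent.S26lib.Weil Fermat.Agent.S26lib.Aff

universe u

variable {K : Type u} [Field K] {C T : Scheme.{u}}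
  (sC : C ⟶ Spec (CommRingCat.of K)) (sT : T ⟶ Spec (CommRingCat.of K))
  [IsIntegral C] [IsIntegral T] [IsIntegral (pullback sC sT)] [IsLocallyNoetherian C]

attribute [local instance] Quad.surjective_toSpecField

/-- the sections of the closed fibre of `McDiv τ d` are the sections of `d` -/
theorem sec_pull_McDiv_iff (τ : CDiv (pullback sC sT)) (d : CDiv C) (t : KPt sT)
    (hτ : CDiv.pull (sliceL sC sT t) τ ∈ CDiv.units C) (hdη : d.t (genericPoint C) = 1)
    (g : C.functionField) (c : C) :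
    g * (((CDiv.pull (sliceL sC sT t) (McDiv sC sT τ d)).t c : (C.functionField)ˣ) :
      C.functionField) ∈ regAt C c ↔
    g * ((d.t c : (C.functionField)ˣ) : C.functionField) ∈ regAt C c := by
  rw [pull_sliceL_McDiv_t, hdη, div_one]
  have hu : (CDiv.pull (sliceL sC sT t) τ).t c ∈ stalkUnits C c := CDiv.mem_units_iff.1 hτ c
  have h1 := val_mem_regAt_of_mem_stalkUnits hu
  have h2 := val_mem_regAt_of_mem_stalkUnits (inv_mem hu)
  set u := (CDiv.pull (sliceL sC sT t) τ).t c with hu'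
  constructor
  · intro h
    have e : g * ((d.t c : (C.functionField)ˣ) : C.functionField) =
        ((u⁻¹ : (C.functionField)ˣ) : C.functionField) *
          (g * ((u * d.t c : (C.functionField)ˣ) : C.functionField)) := by
      push_cast
      have := u.ne_zero
      field_simp
    rw [e]
    exact Subring.mul_mem _ h2 h
  · intro h
    have e : g * ((u * d.t c : (C.functionField)ˣ) : C.functionField) =
        (u : C.functionField) * (g * ((d.t c : (C.functionField)ˣ) : C.functionField)) := by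
      push_cast; ring
    rw [e]
    exact Subring.mul_mem _ h1 h

/-- the two-chart Čech vanishing for a Cartier divisor on the curve -/
def CechH1 {x : C.functionField} (hC : ChartPair sC x) (d : CDiv C) : Prop :=
  ∀ g : C.functionField,
    (∀ c ∈ hC.U₁ ⊓ hC.U₂, g * ((d.t c : (C.functionField)ˣ) : C.functionField) ∈ regAt C c) →
    ∃ g₁ g₂ : C.functionField, g = g₁ + g₂ ∧
      (∀ c ∈ hC.U₁, g₁ * ((d.t c : (C.functionField)ˣ) : C.functionField) ∈ regAt C c) ∧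
      (∀ c ∈ hC.U₂, g₂ * ((d.t c : (C.functionField)ˣ) : C.functionField) ∈ regAt C c)

/-- **the two-chart datum of `𝔏` over `Spec O_{T,t}`** -/
theorem exists_twoChart (𝔏 : CDiv (pullback sC sT)) (t : KPt sT) {x : C.functionField}
    (hC : ChartPair sC x) (hLat : LatStatement sC sT 𝔏 t hC)
    (F₁ : ChartFacts sC sT 𝔏 t hC.U₁) (F₂ : ChartFacts sC sT 𝔏 t hC.U₂)
    (F₁₂ : ChartFacts sC sT 𝔏 t (hC.U₁ ⊓ hC.U₂))
    (H1 : CechH1 sC hC (CDiv.pull (sliceL sC sT t) 𝔏)) :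
    letI := stalkAlgebra (pullback.snd sC sT) t.pt
    ∃ D : TwoChart (T.presheaf.stalk t.pt) (pullback sC sT).functionField C.functionField,
      D.Λ₁ = LamV sC sT 𝔏 t hC.U₁ ∧ D.Λ₂ = LamV sC sT 𝔏 t hC.U₂ ∧
      D.Λ₁₂ = LamV sC sT 𝔏 t ↑(hC.U₁ ⊓ hC.U₂) ∧ D.ρ = rhoS sC sT 𝔏 t := by
  letI := stalkAlgebra (pullback.snd sC sT) t.pt
  obtain ⟨Xm, S₂, hst₁, hst₂, hst₁₂, hS₂, hgen₂, hexh, hpow, -⟩ := hLat
  have hle₁ : LamV sC sT 𝔏 t hC.U₁ ≤ LamV sC sT 𝔏 t ↑(hC.U₁ ⊓ hC.U₂) :=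
    Lam_anti _ 𝔏 t.pt (Set.preimage_mono (fun c hc => hc.1))
  have hle₂ : LamV sC sT 𝔏 t hC.U₂ ≤ LamV sC sT 𝔏 t ↑(hC.U₁ ⊓ hC.U₂) :=
    Lam_anti _ 𝔏 t.pt (Set.preimage_mono (fun c hc => hc.2))
  refine ⟨{ X := Xm
            Λ₁ := LamV sC sT 𝔏 t hC.U₁
            Λ₂ := LamV sC sT 𝔏 t hC.U₂
            Λ₁₂ := LamV sC sT 𝔏 t ↑(hC.U₁ ⊓ hC.U₂)
            le₁ := hle₁
            le₂ := hle₂
            stable₁ := hst₁
            stable₂ := hst₂
            stable₁₂ := hst₁₂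
            S₂ := S₂
            S₂_mem := hS₂
            gen₂ := hgen₂
            exhaust := hexh
            S₂_pow := hpow
            ρ := rhoS sC sT 𝔏 t
            ρ_sub := F₁₂.rho_sub
            ρ_smul := F₁₂.smul_zero
            ker₁₂ := F₁₂.ker
            h1 := ?_ }, rfl, rfl, rfl, rfl⟩
  intro y hy
  obtain ⟨g₁, g₂, hg, hg₁, hg₂⟩ := H1 _ (F₁₂.rho_mem y hy)
  obtain ⟨a, ha, hρa⟩ := F₁.rho_surj g₁ hg₁
  obtain ⟨b, hb, hρb⟩ := F₂.rho_surj (-g₂) (fun c hc => by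
    rw [neg_mul]; exact Subring.neg_mem _ (hg₂ c hc))
  refine ⟨a, ha, b, hb, ?_⟩
  rw [hg, hρa, hρb, sub_neg_eq_add]

/-- the generic point of the closed fibre lies over `t` and over the generic point of `C` -/
theorem snd_eta0 (t : KPt sT) : pullback.snd sC sT (eta0 sC sT t) = t.pt :=
  snd_sliceL_apply sC sT t _

theorem fst_eta0 (t : KPt sT) : pullback.fst sC sT (eta0 sC sT t) = genericPoint C :=
  fst_sliceL_apply sC sT t _

/-- a section over a chart containing the generic point is regular at the generic point of the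
closed fibre -/
theorem mul_t_eta0_mem_regAt (𝔏 : CDiv (pullback sC sT)) (t : KPt sT) {V : Set C}
    (hV : genericPoint C ∈ V) {h : (pullback sC sT).functionField}
    (hh : h ∈ LamV sC sT 𝔏 t V) :
    h * ((𝔏.t (eta0 sC sT t) : ((pullback sC sT).functionField)ˣ) :
      (pullback sC sT).functionField) ∈ regAt (pullback sC sT) (eta0 sC sT t) := by
  refine hh _ ?_ ?_
  · show pullback.fst sC sT (eta0 sC sT t) ∈ V
    rw [fst_eta0]; exact hV
  · rw [snd_eta0]

/-- the reduction of a multiple by a function of the base -/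
theorem rhoS_smul (𝔏 : CDiv (pullback sC sT)) (t : KPt sT) {V : Set C}
    (hV : genericPoint C ∈ V) {h : (pullback sC sT).functionField}
    (hh : h ∈ LamV sC sT 𝔏 t V) (a : T.presheaf.stalk t.pt) :
    rhoS sC sT 𝔏 t (FinMap.ffMap (pullback.snd sC sT) (toFF T t.pt a) * h) =
      resFF (sliceL sC sT t) (FinMap.ffMap (pullback.snd sC sT) (toFF T t.pt a)) *
        rhoS sC sT 𝔏 t h := by
  unfold rhoS
  rw [mul_assoc]
  refine resFF_mul _ ?_ (mul_t_eta0_mem_regAt sC sT 𝔏 t hV hh)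
  refine ffMap_toFF_mem_regAt _ t.pt a ?_
  have := snd_eta0 sC sT t
  unfold eta0 at this
  rw [this]

theorem rhoS_zero (𝔏 : CDiv (pullback sC sT)) (t : KPt sT) : rhoS sC sT 𝔏 t 0 = 0 := by
  unfold rhoS
  rw [zero_mul]
  have := resFF_toFF (sliceL sC sT t) (0 : (pullback sC sT).presheaf.stalk _)
  rwa [map_zero, map_zero] at this

/-- **(LIFT)** from the leaves -/
theorem liftAt_of_statements [IsLocallyNoetherian (pullback sC sT)] [CompactSpace C]
    (hreg : ∀ c : C, c = genericPoint C ∨ IsDiscreteValuationRing (C.presheaf.stalk c))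
    {x : C.functionField} (hC : ChartPair sC x) (d₀ : CDiv C) (p : PrimeDiv C)
    (hd₀ : d₀.IsEff) (hd₀η : d₀.t (genericPoint C) = 1)
    (H1 : CechH1 sC hC d₀)
    (hp₂ : p.1 ∉ hC.U₂)
    (H0' : ∀ g : C.functionField, (∀ c : C,
      g * (((d₀ / pointDiv hreg p).t c : (C.functionField)ˣ) : C.functionField) ∈ regAt C c) →
      g = 0)
    (H1' : CechH1 sC hC (d₀ / pointDiv hreg p))
    (τ : CDiv (pullback sC sT)) (t : KPt sT)
    (hτ : CDiv.pull (sliceL sC sT t) τ ∈ CDiv.units C)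
    (hLat : LatStatement sC sT (McDiv sC sT τ d₀) t hC)
    (hLat' : LatStatement sC sT (McDiv sC sT τ (d₀ / pointDiv hreg p)) t hC)
    (hGen : Gen1Statement sC sT (McDiv sC sT τ d₀) t hC)
    (hTw : TwistCompStatement sC sT hreg τ t hC d₀ p)
    (hVal : ValueStatement sC hreg hC d₀ p)
    (hCst : ConstStatement sC sT t) :
    LiftAt sC sT τ d₀ t := by
  letI := stalkAlgebra (pullback.snd sC sT) t.pt
  -- an affine neighbourhood of `t`
  obtain ⟨_, ⟨T', hT', rfl⟩, ht, -⟩ :=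
    T.isBasis_affineOpens.exists_subset_of_mem_open (Set.mem_univ t.pt) isOpen_univ
  have hne₁ : Nonempty hC.U₁ := ⟨⟨_, hC.generic_mem₁⟩⟩
  have hne₂ : Nonempty hC.U₂ := ⟨⟨_, hC.generic_mem₂⟩⟩
  have hη₁₂ : genericPoint C ∈ hC.U₁ ⊓ hC.U₂ := ⟨hC.generic_mem₁, hC.generic_mem₂⟩
  have haff₁₂ : IsAffineOpen (hC.U₁ ⊓ hC.U₂) := by
    rw [hC.inf_eq₁]; exact hC.isAffineOpen₁.basicOpen _
  set 𝔏 := McDiv sC sT τ d₀ with h𝔏
  set d' := d₀ / pointDiv hreg p with hd'
  set 𝔏' := McDiv sC sT τ d' with h𝔏'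
  have hd'η : d'.t (genericPoint C) = 1 := by
    rw [hd', CDiv.div_t, hd₀η, pointDiv_t_generic, div_one]
  -- the chart facts
  have F₁ := chartFacts sC sT 𝔏 t hC.isAffineOpen₁ hT' ht
  have F₂ := chartFacts sC sT 𝔏 t hC.isAffineOpen₂ hT' ht
  have F₁₂ := chartFacts sC sT 𝔏 t (hVne := ⟨⟨_, hη₁₂⟩⟩) haff₁₂ hT' ht
  have F₁' := chartFacts sC sT 𝔏' t hC.isAffineOpen₁ hT' ht
  have F₂' := chartFacts sC sT 𝔏' t hC.isAffineOpen₂ hT' ht
  have F₁₂' := chartFacts sC sT 𝔏' t (hVne := ⟨⟨_, hη₁₂⟩⟩) haff₁₂ hT' ht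
  have hsec := sec_pull_McDiv_iff sC sT τ d₀ t hτ hd₀η
  have hsec' := sec_pull_McDiv_iff sC sT τ d' t hτ hd'η
  -- Čech vanishing on the closed fibres
  have hH1 : CechH1 sC hC (CDiv.pull (sliceL sC sT t) 𝔏) := by
    intro g hg
    obtain ⟨g₁, g₂, h1, h2, h3⟩ := H1 g (fun c hc => (hsec g c).mp (hg c hc))
    exact ⟨g₁, g₂, h1, fun c hc => (hsec g₁ c).mpr (h2 c hc), fun c hc => (hsec g₂ c).mpr (h3 c hc)⟩
  have hH1' : CechH1 sC hC (CDiv.pull (sliceL sC sT t) 𝔏') := by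
    intro g hg
    obtain ⟨g₁, g₂, h1, h2, h3⟩ := H1' g (fun c hc => (hsec' g c).mp (hg c hc))
    exact ⟨g₁, g₂, h1, fun c hc => (hsec' g₁ c).mpr (h2 c hc),
      fun c hc => (hsec' g₂ c).mpr (h3 c hc)⟩
  -- the two-chart data
  have hflat' : Module.Flat (T.presheaf.stalk t.pt) (LamV sC sT 𝔏' t ↑(hC.U₁ ⊓ hC.U₂)) := by
    obtain ⟨_, _, _, _, _, _, _, _, _, hfl⟩ := hLat'
    exact hfl
  obtain ⟨D, hD₁, hD₂, hD₁₂, hDρ⟩ := exists_twoChart sC sT 𝔏 t hC hLat F₁ F₂ F₁₂ hH1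
  obtain ⟨D', hD₁', hD₂', hD₁₂', hDρ'⟩ := exists_twoChart sC sT 𝔏' t hC hLat' F₁' F₂' F₁₂' hH1'
  obtain ⟨hTρ, hT₂, hT₁, hTx⟩ := hTw
  -- the lift of the section `1` of `O(d₀)`
  have h1sec : ∀ c : C, (1 : C.functionField) *
      ((d₀.t c : (C.functionField)ˣ) : C.functionField) ∈ regAt C c := fun c => by
    rw [one_mul]; exact hd₀ c
  obtain ⟨a, ha, hρa⟩ := F₁.rho_surj 1 (fun c _ => (hsec 1 c).mpr (h1sec c))
  obtain ⟨b, hb, hρb⟩ := F₂.rho_surj 1 (fun c _ => (hsec 1 c).mpr (h1sec c))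
  obtain ⟨G, hG, hρG⟩ := D.exists_lift (a := a) (b := b) (by rw [hD₁]; exact ha)
    (by rw [hD₂]; exact hb) (by rw [hDρ, hρa, hρb])
  have hρG1 : rhoS sC sT 𝔏 t G = 1 := by rw [← hDρ, hρG, hDρ, hρa]
  have hG₁ : G ∈ LamV sC sT 𝔏 t hC.U₁ := by rw [← hD₁]; exact hG.1
  have hG₂ : G ∈ LamV sC sT 𝔏 t hC.U₂ := by rw [← hD₂]; exact hG.2
  -- uniqueness: `H⁰ = 𝒪 · G`
  have hspan : D.Λ₁ ⊓ D.Λ₂ = Submodule.span (T.presheaf.stalk t.pt) {G} := by
    haveI : Module.Flat (T.presheaf.stalk t.pt) D'.Λ₁₂ := by rw [hD₁₂']; exact hflat'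
    refine TwoChart.inf_eq_span D D' ?hρ ?h₂ ?hle ?ker₁ ?ker₁' ?ker₂ ?h0' ?sep' G hG ?hq ?hfg
    case hρ => rw [hDρ', hDρ, hTρ]
    case h₂ => rw [hD₂', hD₂, hT₂]
    case hle => rw [hD₁', hD₁]; exact hT₁
    case ker₁ => rw [hD₁, hDρ]; exact F₁.ker
    case ker₁' => rw [hD₁', hDρ, ← hTρ]; exact F₁'.ker
    case ker₂ => rw [hD₂, hDρ]; exact F₂.ker
    case sep' =>
      rw [hD₁']
      intro y _ hy
      exact F₁'.sep y hy
    case h0' =>
      rw [hD₁', hD₂, hDρ]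
      intro a ha b hb hab
      apply H0'
      intro c
      have hc : c ∈ hC.U₁ ⊔ hC.U₂ := by rw [hC.sup_eq]; trivial
      rcases hc with hc | hc
      · have h1 := F₁'.rho_mem a ha c hc
        rw [hTρ] at h1
        exact (hsec' _ c).mp h1
      · have h1 := F₂.rho_mem b hb c hc
        rw [← hab] at h1
        have h2 := (hsec _ c).mp h1
        have hcp : c ≠ p.1 := fun h => hp₂ (h ▸ hc)
        rw [hd', CDiv.div_t, pointDiv_t_of_ne hreg p hcp, div_one]
        exact h2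
    case hq =>
      rw [hD₁, hD₁', hDρ]
      intro y hy
      have hg : ∀ c ∈ hC.U₁, rhoS sC sT 𝔏 t y *
          ((d₀.t c : (C.functionField)ˣ) : C.functionField) ∈ regAt C c :=
        fun c hc => (hsec _ c).mp (F₁.rho_mem y hy c hc)
      obtain ⟨κ, hκ⟩ := hVal _ hg
      obtain ⟨a, ha, hρa'⟩ := F₁'.rho_surj _ (fun c hc => (hsec' _ c).mpr (hκ c hc))
      refine ⟨a, ha, KPt.constStalk sT t.pt κ, ?_⟩
      have h3 : rhoS sC sT 𝔏 t (KPt.constStalk sT t.pt κ • G) = (kToFF sC).hom κ := by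
        rw [Algebra.smul_def]
        show rhoS sC sT 𝔏 t (FinMap.ffMap (pullback.snd sC sT)
          (toFF T t.pt (KPt.constStalk sT t.pt κ)) * G) = _
        rw [rhoS_smul sC sT 𝔏 t hC.generic_mem₁ hG₁, hCst κ, hρG1, mul_one]
      have h4 : rhoS sC sT 𝔏 t a = rhoS sC sT 𝔏 t y - (kToFF sC).hom κ := by
        rw [← hρa']; exact (congrFun hTρ a).symm
      rw [h3, h4]
      ring
    case hfg =>
      rw [hD₁, hD₁']
      obtain ⟨S₁, hS₁, hgen⟩ := hGen
      have hxj : ∀ e ∈ S₁, ∀ j : ℕ, FinMap.ffMap (pullback.fst sC sT) x ^ j * e ∈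
          LamV sC sT 𝔏 t hC.U₁ := by
        intro e he j
        induction j with
        | zero => rw [pow_zero, one_mul]; exact hS₁ e he
        | succ j ih => rw [pow_succ', mul_assoc]; exact hT₁ (hTx _ ih)
      refine ⟨Submodule.span (T.presheaf.stalk t.pt)
        (S₁ : Set (pullback sC sT).functionField), Submodule.fg_span S₁.finite_toSet,
        Submodule.span_le.mpr hS₁, ?_⟩
      intro y hy
      refine Submodule.span_le.mpr ?_ (hgen y hy)
      rintro _ ⟨e, he, j, rfl⟩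
      cases j with
      | zero =>
        rw [pow_zero, one_mul]
        exact Submodule.mem_sup_right (Submodule.subset_span he)
      | succ j =>
        apply Submodule.mem_sup_left
        rw [pow_succ', mul_assoc]
        exact hTx _ (hxj e he j)
  -- the extraction of `LiftAt`
  have hGne : G ≠ 0 := by
    rintro rfl
    rw [rhoS_zero] at hρG1
    exact zero_ne_one hρG1
  have huniv : Lam (pullback.snd sC sT) 𝔏 t.pt Set.univ =
      LamV sC sT 𝔏 t hC.U₁ ⊓ LamV sC sT 𝔏 t hC.U₂ := by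
    unfold LamV
    rw [← Lam_union, ← Set.preimage_union]
    have : ((hC.U₁ : Set C) ∪ (hC.U₂ : Set C)) = Set.univ := by
      have := congrArg (fun U : C.Opens => (U : Set C)) hC.sup_eq
      simpa using this
    rw [this, Set.preimage_univ]
  have hGuniv : G ∈ Lam (pullback.snd sC sT) 𝔏 t.pt Set.univ := by
    rw [huniv]; exact ⟨hG₁, hG₂⟩
  have hle : Lam (pullback.snd sC sT) 𝔏 t.pt Set.univ ≤
      Submodule.span (T.presheaf.stalk t.pt) {G} := by
    rw [huniv, ← hD₁, ← hD₂, hspan]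
  have hgen := exists_eq_ffMap_mul_of_le_span (pullback.snd sC sT) 𝔏 t.pt Set.univ G hle
  refine ⟨Units.mk0 G hGne * Mconst sC sT d₀, ?_⟩
  refine isLift_of_Lam_McDiv sC sT τ d₀ t hτ (Units.mk0 G hGne) hGuniv hgen 1
    (fun p => one_mem _) ?_
  rw [hd₀η, mul_one, Units.val_one]
  exact hρG1

end Fermat.Agent.S26lib.RelCurve
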