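/-
S26lib / RelCurve / Main  (helper3)  --  Project K (S26), cube kernel, algebra part

**The abstract lifting theorem (LIFT).**  `𝒪` is a local ring (the local ring of the parameter
variety `T` at a closed point `t₀`), `Q` an `𝒪`-module (the function field of `C × T`) with an
automorphism `X` (multiplication by a coordinate `x` of the curve `C`), `Λ₁, Λ₂ ⊆ Λ₁₂ ⊆ Q` the
modules of sections of an invertible sheaf `𝔐` over the three pieces of the cover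
`{x ≠ ∞}, {x ≠ 0}` of `C × Spec 𝒪`, and `ρ : Q → Fc` the reduction to the closed fibre.

* `TwoChart.sup_eq` : if `H¹` of the closed fibre vanishes then `Λ₁ + Λ₂ = Λ₁₂` (`H¹ = 0`).
* `TwoChart.exists_lift` : every global section of the closed fibre lifts.
* `TwoChart.inf_eq_bot` : if moreover `H⁰` of the closed fibre vanishes (and `Λ₁₂` is flat, `Λ₁`
  separated) then `H⁰ = Λ₁ ∩ Λ₂ = 0`.
* `TwoChart.inf_eq_span` : uniqueness `H⁰ = 𝒪 · G` by twisting with a constant section.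
-/
import Fermat.Agent.S26lib.RelCurve.Lattice
import Fermat.Agent.S26lib.RelCurve.Pure

set_option autoImplicit false

namespace Fermat.Agent.S26lib.RelCurve

open Submodule IsLocalRing

/-- abstract two-chart datum of a family of invertible sheaves on a curve over a local base -/
structure TwoChart (𝒪 : Type*) [CommRing 𝒪] [IsLocalRing 𝒪] (Q : Type*) [AddCommGroup Q]
    [Module 𝒪 Q] (Fc : Type*) [AddCommGroup Fc] where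
  /-- multiplication by the coordinate -/
  X : Q ≃ₗ[𝒪] Q
  /-- sections over `{x ≠ ∞}` -/
  Λ₁ : Submodule 𝒪 Q
  /-- sections over `{x ≠ 0}` -/
  Λ₂ : Submodule 𝒪 Q
  /-- sections over `{x ≠ 0, ∞}` -/
  Λ₁₂ : Submodule 𝒪 Q
  le₁ : Λ₁ ≤ Λ₁₂
  le₂ : Λ₂ ≤ Λ₁₂
  stable₁ : ∀ y ∈ Λ₁, X y ∈ Λ₁
  stable₂ : ∀ y ∈ Λ₂, X.symm y ∈ Λ₂
  stable₁₂ : ∀ y ∈ Λ₁₂, X y ∈ Λ₁₂
  /-- generators of `Λ₂` over `𝒪[x⁻¹]` -/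
  S₂ : Finset Q
  S₂_mem : ∀ e ∈ S₂, e ∈ Λ₂
  gen₂ : Λ₂ ≤ ⨆ j : ℕ, shiftSpan X (S₂ : Set Q) (-(j : ℤ))
  exhaust : ∀ y ∈ Λ₁₂, ∃ n : ℕ, (X ^ (-(n : ℤ)) : Q ≃ₗ[𝒪] Q) y ∈ Λ₂
  S₂_pow : ∀ e ∈ S₂, ∃ k : ℕ, (X ^ k : Q ≃ₗ[𝒪] Q) e ∈ Λ₁
  /-- reduction to the closed fibre -/
  ρ : Q → Fc
  ρ_sub : ∀ y ∈ Λ₁₂, ∀ z ∈ Λ₁₂, ρ (y - z) = ρ y - ρ z
  ρ_smul : ∀ a ∈ maximalIdeal 𝒪, ∀ y ∈ Λ₁₂, ρ (a • y) = 0
  ker₁₂ : ∀ y ∈ Λ₁₂, ρ y = 0 → y ∈ maximalIdeal 𝒪 • Λ₁₂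
  /-- `H¹` of the closed fibre vanishes -/
  h1 : ∀ y ∈ Λ₁₂, ∃ a ∈ Λ₁, ∃ b ∈ Λ₂, ρ y = ρ a - ρ b

namespace TwoChart

variable {𝒪 : Type*} [CommRing 𝒪] [IsLocalRing 𝒪] {Q : Type*} [AddCommGroup Q] [Module 𝒪 Q]
  {Fc : Type*} [AddCommGroup Fc] (D : TwoChart 𝒪 Q Fc)

theorem ρ_zero : D.ρ 0 = 0 := by
  have := D.ρ_sub 0 D.Λ₁₂.zero_mem 0 D.Λ₁₂.zero_mem
  rwa [sub_zero, sub_self] at this

theorem ρ_neg {z : Q} (hz : z ∈ D.Λ₁₂) : D.ρ (-z) = -D.ρ z := by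
  have := D.ρ_sub 0 D.Λ₁₂.zero_mem z hz
  rwa [zero_sub, D.ρ_zero, zero_sub] at this

theorem ρ_add {y z : Q} (hy : y ∈ D.Λ₁₂) (hz : z ∈ D.Λ₁₂) : D.ρ (y + z) = D.ρ y + D.ρ z := by
  have := D.ρ_sub y hy (-z) (D.Λ₁₂.neg_mem hz)
  rwa [sub_neg_eq_add, D.ρ_neg hz, sub_neg_eq_add] at this

/-- the reduction kills `𝔪 Λ₁₂` -/
theorem ρ_eq_zero_of_mem_smul {y : Q} (hy : y ∈ maximalIdeal 𝒪 • D.Λ₁₂) : D.ρ y = 0 := by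
  have key : y ∈ D.Λ₁₂ ∧ D.ρ y = 0 := by
    refine Submodule.smul_induction_on hy ?_ ?_
    · intro a ha n hn
      exact ⟨D.Λ₁₂.smul_mem a hn, D.ρ_smul a ha n hn⟩
    · rintro u v ⟨hu, hu0⟩ ⟨hv, hv0⟩
      exact ⟨D.Λ₁₂.add_mem hu hv, by rw [D.ρ_add hu hv, hu0, hv0, add_zero]⟩
  exact key.2

/-- the lattice trick: `Λ₁₂ = Λ₁ + Λ₂ + V`, `V` finitely generated -/
theorem exists_fg_le : ∃ V : Submodule 𝒪 Q, V.FG ∧ V ≤ D.Λ₁₂ ∧ D.Λ₁₂ ≤ D.Λ₁ ⊔ D.Λ₂ ⊔ V := by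
  classical
  -- we redo the lattice argument relative to `Λ₁₂`
  choose! k hk using D.S₂_pow
  set m : ℕ := D.S₂.sup k with hm
  set V : Submodule 𝒪 Q := ⨆ i ∈ Finset.range m, shiftSpan D.X (D.S₂ : Set Q) (i : ℤ) with hV
  have hS₁₂ : ∀ e ∈ D.S₂, e ∈ D.Λ₁₂ := fun e he => D.le₂ (D.S₂_mem e he)
  have hVle : V ≤ D.Λ₁₂ := by
    refine iSup₂_le fun i _ => ?_
    rw [shiftSpan_le_iff]
    intro e he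
    rw [zpow_natCast]
    exact pow_mem_of_stable D.X D.Λ₁₂ D.stable₁₂ i e (hS₁₂ e he)
  refine ⟨V, fg_biSup _ _ (fun i _ => shiftSpan_fg D.X D.S₂ i), hVle, ?_⟩
  have hU : ∀ i : ℤ, shiftSpan D.X (D.S₂ : Set Q) i ≤ D.Λ₁ ⊔ D.Λ₂ ⊔ V := by
    intro i
    rcases lt_or_ge i 0 with hi | hi
    · refine le_trans ?_ (le_sup_of_le_left le_sup_right)
      rw [shiftSpan_le_iff]
      intro e he
      obtain ⟨n, rfl⟩ : ∃ n : ℕ, i = -(n : ℤ) := ⟨i.natAbs, by omega⟩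
      exact zpow_neg_mem_of_stable D.X D.Λ₂ D.stable₂ n e (D.S₂_mem e he)
    · obtain ⟨n, rfl⟩ : ∃ n : ℕ, i = (n : ℤ) := ⟨i.natAbs, by omega⟩
      rcases lt_or_ge n m with hn | hn
      · refine le_trans ?_ le_sup_right
        exact le_biSup (fun i : ℕ => shiftSpan D.X (D.S₂ : Set Q) (i : ℤ))
          (Finset.mem_range.mpr hn)
      · refine le_trans ?_ (le_sup_of_le_left le_sup_left)
        rw [shiftSpan_le_iff]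
        intro e he
        have hke : k e ≤ n := le_trans (Finset.le_sup (f := k) he) hn
        obtain ⟨j, rfl⟩ : ∃ j : ℕ, n = j + k e := ⟨n - k e, by omega⟩
        have : (D.X ^ ((j + k e : ℕ) : ℤ) : Q ≃ₗ[𝒪] Q) e
            = (D.X ^ j : Q ≃ₗ[𝒪] Q) ((D.X ^ (k e) : Q ≃ₗ[𝒪] Q) e) := by
          rw [zpow_natCast, pow_add]; rfl
        rw [this]
        exact pow_mem_of_stable D.X D.Λ₁ D.stable₁ j _ (hk e he)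
  intro y hy
  obtain ⟨n, hn⟩ := D.exhaust y hy
  have h1 := D.gen₂ hn
  have h2 : y ∈ (⨆ j : ℕ, shiftSpan D.X (D.S₂ : Set Q) (-(j : ℤ))).map
      ((D.X ^ (n : ℤ) : Q ≃ₗ[𝒪] Q) : Q →ₗ[𝒪] Q) := by
    refine ⟨_, h1, ?_⟩
    show (D.X ^ (n : ℤ) : Q ≃ₗ[𝒪] Q) ((D.X ^ (-(n : ℤ)) : Q ≃ₗ[𝒪] Q) y) = y
    have : (D.X ^ (n : ℤ) : Q ≃ₗ[𝒪] Q) * (D.X ^ (-(n : ℤ)) : Q ≃ₗ[𝒪] Q) = 1 := by
      rw [← zpow_add, add_neg_cancel, zpow_zero]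
    calc (D.X ^ (n : ℤ) : Q ≃ₗ[𝒪] Q) ((D.X ^ (-(n : ℤ)) : Q ≃ₗ[𝒪] Q) y)
        = ((D.X ^ (n : ℤ) : Q ≃ₗ[𝒪] Q) * (D.X ^ (-(n : ℤ)) : Q ≃ₗ[𝒪] Q)) y := rfl
      _ = y := by rw [this]; rfl
  rw [Submodule.map_iSup] at h2
  have h3 : (⨆ j : ℕ, (shiftSpan D.X (D.S₂ : Set Q) (-(j : ℤ))).map
      ((D.X ^ (n : ℤ) : Q ≃ₗ[𝒪] Q) : Q →ₗ[𝒪] Q)) ≤ D.Λ₁ ⊔ D.Λ₂ ⊔ V := by
    refine iSup_le fun j => ?_
    rw [map_shiftSpan]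
    exact hU _
  exact h3 h2

/-- `Λ₁₂ ⊆ Λ₁ + Λ₂ + 𝔪 Λ₁₂` : surjectivity of the Čech differential modulo `𝔪` -/
theorem le_sup_smul : D.Λ₁₂ ≤ D.Λ₁ ⊔ D.Λ₂ ⊔ maximalIdeal 𝒪 • D.Λ₁₂ := by
  intro y hy
  obtain ⟨a, ha, b, hb, hab⟩ := D.h1 y hy
  have ha' := D.le₁ ha
  have hb' := D.le₂ hb
  have h0 : D.ρ (y - (a - b)) = 0 := by
    rw [D.ρ_sub y hy (a - b) (D.Λ₁₂.sub_mem ha' hb'), D.ρ_sub a ha' b hb', hab, sub_self]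
  have h1 := D.ker₁₂ _ (D.Λ₁₂.sub_mem hy (D.Λ₁₂.sub_mem ha' hb')) h0
  have hy' : y = (a - b) + (y - (a - b)) := by abel
  rw [hy']
  refine Submodule.add_mem _ (mem_sup_left ?_) (mem_sup_right h1)
  exact Submodule.sub_mem _ (mem_sup_left ha) (mem_sup_right hb)

/-- **`H¹ = 0`** : the Čech differential `Λ₁ ⊕ Λ₂ → Λ₁₂` is surjective -/
theorem sup_eq : D.Λ₁ ⊔ D.Λ₂ = D.Λ₁₂ := by
  refine le_antisymm (sup_le D.le₁ D.le₂) ?_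
  obtain ⟨V, hVfg, hVle, hV⟩ := D.exists_fg_le
  -- Nakayama: `V ≤ Λ₁ + Λ₂`
  have hVV : V ≤ (D.Λ₁ ⊔ D.Λ₂) ⊔ maximalIdeal 𝒪 • V := by
    have h1 : V ≤ D.Λ₁ ⊔ D.Λ₂ ⊔ maximalIdeal 𝒪 • D.Λ₁₂ := hVle.trans D.le_sup_smul
    have h2 : maximalIdeal 𝒪 • D.Λ₁₂ ≤ (D.Λ₁ ⊔ D.Λ₂) ⊔ maximalIdeal 𝒪 • V := by
      calc maximalIdeal 𝒪 • D.Λ₁₂ ≤ maximalIdeal 𝒪 • (D.Λ₁ ⊔ D.Λ₂ ⊔ V) :=
            smul_mono_right _ hV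
        _ = maximalIdeal 𝒪 • (D.Λ₁ ⊔ D.Λ₂) ⊔ maximalIdeal 𝒪 • V := Submodule.smul_sup _ _ _
        _ ≤ (D.Λ₁ ⊔ D.Λ₂) ⊔ maximalIdeal 𝒪 • V := sup_le_sup_right smul_le_right _
    exact h1.trans (sup_le le_sup_left h2)
  have hVR : V ≤ D.Λ₁ ⊔ D.Λ₂ :=
    le_of_le_smul_of_le_jacobson_bot hVfg (maximalIdeal_le_jacobson ⊥) hVV
  exact hV.trans (sup_le le_rfl hVR)

/-- **lifting of global sections of the closed fibre** -/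
theorem exists_lift {a b : Q} (ha : a ∈ D.Λ₁) (hb : b ∈ D.Λ₂) (hab : D.ρ a = D.ρ b) :
    ∃ G ∈ D.Λ₁ ⊓ D.Λ₂, D.ρ G = D.ρ a := by
  have ha' := D.le₁ ha
  have hb' := D.le₂ hb
  have h0 : D.ρ (a - b) = 0 := by rw [D.ρ_sub a ha' b hb', hab, sub_self]
  have h1 := D.ker₁₂ _ (D.Λ₁₂.sub_mem ha' hb') h0
  rw [← D.sup_eq, Submodule.smul_sup] at h1
  obtain ⟨u, hu, v, hv, huv⟩ := mem_sup.mp h1
  have hu₁ : u ∈ D.Λ₁ := smul_le_right hu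
  have hv₂ : v ∈ D.Λ₂ := smul_le_right hv
  refine ⟨a - u, ⟨D.Λ₁.sub_mem ha hu₁, ?_⟩, ?_⟩
  · have : a - u = b + v := by
      have : a - b = u + v := huv.symm
      calc a - u = (a - b) - u + b := by abel
        _ = b + v := by rw [this]; abel
    show a - u ∈ D.Λ₂
    rw [this]
    exact D.Λ₂.add_mem hb hv₂
  · have hu0 : D.ρ u = 0 :=
      D.ρ_eq_zero_of_mem_smul (smul_mono_right _ D.le₁ hu)
    rw [D.ρ_sub a ha' u (D.le₁ hu₁), hu0, sub_zero]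

/-- **vanishing of `H⁰`** if `H⁰` of the closed fibre vanishes -/
theorem inf_eq_bot [Module.Flat 𝒪 D.Λ₁₂]
    (ker₁ : ∀ y ∈ D.Λ₁, D.ρ y = 0 → y ∈ maximalIdeal 𝒪 • D.Λ₁)
    (ker₂ : ∀ y ∈ D.Λ₂, D.ρ y = 0 → y ∈ maximalIdeal 𝒪 • D.Λ₂)
    (h0 : ∀ a ∈ D.Λ₁, ∀ b ∈ D.Λ₂, D.ρ a = D.ρ b → D.ρ a = 0)
    (sep : ∀ y ∈ D.Λ₁, (∀ n : ℕ, y ∈ maximalIdeal 𝒪 ^ n • D.Λ₁) → y = 0) :
    D.Λ₁ ⊓ D.Λ₂ = ⊥ := by
  set H := D.Λ₁ ⊓ D.Λ₂ with hH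
  have hHH : H ≤ maximalIdeal 𝒪 • H := by
    intro h hh
    have hρ : D.ρ h = 0 := h0 h hh.1 h hh.2 rfl
    exact mem_smul_inf_of_flat D.Λ₁ D.Λ₂ D.Λ₁₂ D.le₁ D.le₂ D.sup_eq.ge (maximalIdeal 𝒪)
      (ker₁ h hh.1 hρ) (ker₂ h hh.2 hρ)
  have hpow : ∀ n : ℕ, H ≤ maximalIdeal 𝒪 ^ n • H := by
    intro n
    induction n with
    | zero => simp
    | succ n ih =>
      calc H ≤ maximalIdeal 𝒪 • H := hHH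
        _ ≤ maximalIdeal 𝒪 • (maximalIdeal 𝒪 ^ n • H) := smul_mono_right _ ih
        _ = maximalIdeal 𝒪 ^ (n + 1) • H := by rw [pow_succ', Submodule.mul_smul]
  rw [eq_bot_iff]
  intro h hh
  rw [mem_bot]
  refine sep h hh.1 fun n => ?_
  have hle : maximalIdeal 𝒪 ^ n • H ≤ maximalIdeal 𝒪 ^ n • D.Λ₁ :=
    smul_mono_right _ inf_le_left
  exact hle (hpow n hh)

end TwoChart

/-- **uniqueness `H⁰ = 𝒪 · G`** : `D` the chart datum of `𝔐`, `D'` that of the twist `𝔐(-p × T)`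
by a constant section through a point `p` of the first chart where the lifted section `G` does not
vanish. -/
theorem TwoChart.inf_eq_span {𝒪 : Type*} [CommRing 𝒪] [IsLocalRing 𝒪] {Q : Type*}
    [AddCommGroup Q] [Module 𝒪 Q] {Fc : Type*} [AddCommGroup Fc]
    (D D' : TwoChart 𝒪 Q Fc) (hρ : D'.ρ = D.ρ) (h₂ : D'.Λ₂ = D.Λ₂)
    (hle : D'.Λ₁ ≤ D.Λ₁) [Module.Flat 𝒪 D'.Λ₁₂]
    (ker₁ : ∀ y ∈ D.Λ₁, D.ρ y = 0 → y ∈ maximalIdeal 𝒪 • D.Λ₁)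
    (ker₁' : ∀ y ∈ D'.Λ₁, D.ρ y = 0 → y ∈ maximalIdeal 𝒪 • D'.Λ₁)
    (ker₂ : ∀ y ∈ D.Λ₂, D.ρ y = 0 → y ∈ maximalIdeal 𝒪 • D.Λ₂)
    (h0' : ∀ a ∈ D'.Λ₁, ∀ b ∈ D.Λ₂, D.ρ a = D.ρ b → D.ρ a = 0)
    (sep' : ∀ y ∈ D'.Λ₁, (∀ n : ℕ, y ∈ maximalIdeal 𝒪 ^ n • D'.Λ₁) → y = 0)
    (G : Q) (hG : G ∈ D.Λ₁ ⊓ D.Λ₂)
    (hq : ∀ y ∈ D.Λ₁, ∃ a ∈ D'.Λ₁, ∃ c : 𝒪, D.ρ y = D.ρ a + D.ρ (c • G))
    (hfg : ∃ V : Submodule 𝒪 Q, V.FG ∧ V ≤ D.Λ₁ ∧ D.Λ₁ ≤ D'.Λ₁ ⊔ V) :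
    D.Λ₁ ⊓ D.Λ₂ = Submodule.span 𝒪 {G} := by
  -- `H⁰` of the twist vanishes
  have hbot : D'.Λ₁ ⊓ D.Λ₂ = ⊥ := by
    have := D'.inf_eq_bot (by rw [hρ]; exact ker₁') (by rw [hρ, h₂]; exact ker₂)
      (by rw [hρ, h₂]; exact h0') sep'
    rwa [h₂] at this
  have hG₁ : G ∈ D.Λ₁ := hG.1
  have hspan : Submodule.span 𝒪 {G} ≤ D.Λ₁ := by
    rw [span_singleton_le_iff_mem]; exact hG₁
  -- `Λ₁ = Λ₁' + 𝒪 G` by Nakayama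
  have hsum : D.Λ₁ ≤ D'.Λ₁ ⊔ Submodule.span 𝒪 {G} := by
    obtain ⟨V, hVfg, hVle, hV⟩ := hfg
    have hstep : D.Λ₁ ≤ (D'.Λ₁ ⊔ Submodule.span 𝒪 {G}) ⊔ maximalIdeal 𝒪 • D.Λ₁ := by
      intro y hy
      obtain ⟨a, ha, c, hac⟩ := hq y hy
      have ha₁ : a ∈ D.Λ₁ := hle ha
      have hcG : c • G ∈ D.Λ₁ := D.Λ₁.smul_mem c hG₁
      have h0 : D.ρ (y - (a + c • G)) = 0 := by
        rw [D.ρ_sub y (D.le₁ hy) _ (D.le₁ (D.Λ₁.add_mem ha₁ hcG)),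
          D.ρ_add (D.le₁ ha₁) (D.le₁ hcG), hac, sub_self]
      have h1 := ker₁ _ (D.Λ₁.sub_mem hy (D.Λ₁.add_mem ha₁ hcG)) h0
      have hy' : y = (a + c • G) + (y - (a + c • G)) := by abel
      rw [hy']
      refine Submodule.add_mem _ (mem_sup_left ?_) (mem_sup_right h1)
      exact Submodule.add_mem _ (mem_sup_left ha)
        (mem_sup_right (Submodule.smul_mem _ c (mem_span_singleton_self G)))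
    have hVV : V ≤ (D'.Λ₁ ⊔ Submodule.span 𝒪 {G}) ⊔ maximalIdeal 𝒪 • V := by
      have h2 : maximalIdeal 𝒪 • D.Λ₁ ≤ (D'.Λ₁ ⊔ Submodule.span 𝒪 {G}) ⊔ maximalIdeal 𝒪 • V := by
        calc maximalIdeal 𝒪 • D.Λ₁ ≤ maximalIdeal 𝒪 • (D'.Λ₁ ⊔ V) :=
              smul_mono_right _ hV
          _ = maximalIdeal 𝒪 • D'.Λ₁ ⊔ maximalIdeal 𝒪 • V := Submodule.smul_sup _ _ _
          _ ≤ (D'.Λ₁ ⊔ Submodule.span 𝒪 {G}) ⊔ maximalIdeal 𝒪 • V :=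
              sup_le_sup_right (smul_le_right.trans le_sup_left) _
      exact (hVle.trans hstep).trans (sup_le le_sup_left h2)
    have hVR : V ≤ D'.Λ₁ ⊔ Submodule.span 𝒪 {G} :=
      le_of_le_smul_of_le_jacobson_bot hVfg (maximalIdeal_le_jacobson ⊥) hVV
    exact hV.trans (sup_le le_sup_left hVR)
  refine le_antisymm ?_ ?_
  · intro h hh
    obtain ⟨a, ha, g, hg, hag⟩ := mem_sup.mp (hsum hh.1)
    have hg₂ : g ∈ D.Λ₂ := by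
      have : Submodule.span 𝒪 {G} ≤ D.Λ₂ := by
        rw [span_singleton_le_iff_mem]; exact hG.2
      exact this hg
    have ha₂ : a ∈ D.Λ₂ := by
      have : a = h - g := by rw [← hag]; abel
      rw [this]
      exact D.Λ₂.sub_mem hh.2 hg₂
    have ha0 : a ∈ D'.Λ₁ ⊓ D.Λ₂ := ⟨ha, ha₂⟩
    rw [hbot, mem_bot] at ha0
    rw [← hag, ha0, zero_add]
    exact hg
  · rw [span_singleton_le_iff_mem]
    exact hG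

end Fermat.Agent.S26lib.RelCurve
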